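import Mathlib
import Fermat.Agent.G.Red.Val
import Fermat.Agent.TT.Alpha.Norm

/-!
# Program MR (S44), block `mrs` : the SLOPE FORMULA WITH ZEROS at a node.  SPEC (statements only)

Owner: helper29 (second: helper28).  Namespace `Fermat.Agent.MR`, prefix `mrs` / `Mrs`.

ABSTRACT SETTING (hypothesis-first; nothing modular):
`K` a field with a valuation subring `A`, `k = A/𝔪`; `F/K` a field (the function field of the
generic fibre), `V₁ V₂` two valuation subrings of `F` (the Gauss valuations of the two components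
of the special fibre) with reductions `red_i : V_i →+* F_i`, `F_i/k` the function fields of the
components.  A NODE is given by its two branches `Q₁ : Place k F₁`, `Q₂ : Place k F₂`, a predicate
`cen` on the places of `F/K` ("centred at the node" = the points of the open annulus), two
functions `u w : F` and a constant `κ ∈ 𝔪_A`, `κ ≠ 0` with `u w = κ` (`val κ` = the thickness).

* `MrsModel`  : the node-independent hypotheses on `(A, V_i, red_i)`;
* `MrsNode`   : the hypotheses at one node (INPUT of the block, OUTPUT of block `mrn`);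
* `MrsUnitSpec`  : (UNIT) a function without zeros and poles on the annulus which is a `V₁`-unit
  with reduction regular and non-vanishing at `Q₁` is a `V₂`-unit with reduction regular and
  non-vanishing at `Q₂`, with the same value;
* `MrsSlopeSpec` : (SLOPE) for `f ≠ 0`, `c_i f` a `V_i`-unit, zeros/poles `v ∈ T` on the annulus
  with `u(v) = a_v`, `n_v = ord_v f`, `m₁ = ord_{Q₁} red₁ (c₁ f)`:
    `ord_{Q₂} red₂ (c₂ f) = Σ n_v - m₁`   and
    `val c₁ / val c₂ = val κ ^ (m₁ - Σ n_v) * ∏ val (a_v) ^ n_v`   in the value group of `A`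
  (additively `V₂ f - V₁ f = (m₁ - Σ n_v) v(κ) + Σ n_v v(a_v)`);
* `MrsLocalEqSpec` : (LOC-EQ) `q = ∏ (u - a_v)^{n_v}` is a local equation on the annulus of the
  divisor `Σ n_v [v]`.
-/

set_option autoImplicit false
set_option linter.unusedSectionVars false
set_option linter.unusedVariables false

noncomputable section

namespace Fermat.Agent.MR

open AlgebraicCurve IsLocalRing Fermat.Agent.G Fermat.Agent.TT

variable {K F F₁ F₂ : Type*} [Field K] [Field F] [Algebra K F]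
variable (A : ValuationSubring K)
variable [Field F₁] [Algebra (ResidueField A) F₁] [Field F₂] [Algebra (ResidueField A) F₂]
variable (V₁ V₂ : ValuationSubring F) (red₁ : V₁ →+* F₁) (red₂ : V₂ →+* F₂)

/-- the node-independent hypotheses on the two Gauss valuations and their reductions. -/
structure MrsModel : Prop where
  /-- constants of `A` lie in `V₁` -/
  const₁ : ∀ a : K, a ∈ A → algebraMap K F a ∈ V₁
  /-- constants of `A` lie in `V₂` -/
  const₂ : ∀ a : K, a ∈ A → algebraMap K F a ∈ V₂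
  /-- constants of `𝔪_A` lie in `𝔪_{V₁}` -/
  max₁ : ∀ a : K, a ∈ A.nonunits → algebraMap K F a ∈ V₁.nonunits
  /-- constants of `𝔪_A` lie in `𝔪_{V₂}` -/
  max₂ : ∀ a : K, a ∈ A.nonunits → algebraMap K F a ∈ V₂.nonunits
  /-- the kernel of `red₁` is `𝔪_{V₁}` -/
  ker₁ : ∀ x : V₁, red₁ x = 0 ↔ (x : F) ∈ V₁.nonunits
  /-- the kernel of `red₂` is `𝔪_{V₂}` -/
  ker₂ : ∀ x : V₂, red₂ x = 0 ↔ (x : F) ∈ V₂.nonunits
  /-- `red₁` of a constant -/
  red_const₁ : ∀ (a : A) (h : algebraMap K F (a : K) ∈ V₁),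
    red₁ ⟨algebraMap K F (a : K), h⟩ = algebraMap (ResidueField A) F₁ (residue A a)
  /-- `red₂` of a constant -/
  red_const₂ : ∀ (a : A) (h : algebraMap K F (a : K) ∈ V₂),
    red₂ ⟨algebraMap K F (a : K), h⟩ = algebraMap (ResidueField A) F₂ (residue A a)

variable (Q₁ : Place (ResidueField A) F₁) (Q₂ : Place (ResidueField A) F₂)
variable (cen : Place K F → Prop) (u w : F) (κ : K)

/-- the hypotheses at ONE NODE with branches `Q₁`, `Q₂`, annulus `cen`, local parameters `u`, `w`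
and `u w = κ`. -/
structure MrsNode : Prop where
  /-- the local equation of the node -/
  mul : u * w = algebraMap K F κ
  /-- `κ ≠ 0` -/
  kap_ne : κ ≠ 0
  /-- `κ ∈ 𝔪_A` -/
  kap_mem : κ ∈ A.nonunits
  /-- `u` is a unit of `V₁` -/
  u_unit : TtalIsU V₁ u
  /-- `w` is a unit of `V₂` -/
  w_unit : TtalIsU V₂ w
  /-- `red₁ u` is a uniformiser at the branch `Q₁` -/
  u_ord : ∀ h : u ∈ V₁, Q₁.ord (red₁ ⟨u, h⟩) = 1
  /-- `red₂ w` is a uniformiser at the branch `Q₂` -/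
  w_ord : ∀ h : w ∈ V₂, Q₂.ord (red₂ ⟨w, h⟩) = 1
  /-- (LOC-REG + LOC-GLUE), in the shape of the landed `ttru_hN_inst` (helper3): a subring `B` of
  `V₁ ⊓ V₂` such that every `x ∈ V₁ ⊓ V₂` regular on the annulus has a denominator in `B` not
  vanishing at the node, and the two branch values of every `b ∈ B` agree. -/
  loc : ∃ (B : Subring F) (hBO : B ≤ V₁.toSubring ⊓ V₂.toSubring),
    (∀ x ∈ V₁.toSubring ⊓ V₂.toSubring, (∀ v, cen v → x ∈ v.toValuationSubring) →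
      ∃ s : B, ¬ GrdVal Q₁ (red₁ ⟨s, (hBO s.2).1⟩) 0 ∧ (s : F) * x ∈ B) ∧
    ∀ b : B, ∃ c : ResidueField A,
      GrdVal Q₁ (red₁ ⟨b, (hBO b.2).1⟩) c ∧ GrdVal Q₂ (red₂ ⟨b, (hBO b.2).2⟩) c
  /-- (ANNULUS) at a place of the annulus `u` has a value `a` with `|κ| < |a| < 1` -/
  cen_val : ∀ v, cen v → ∃ a : K, GrdVal v u a ∧ a ≠ 0 ∧ a ∈ A.nonunits ∧ κ / a ∈ A.nonunits
  /-- (ONE-ZERO) `u` separates the places of the annulus -/
  cen_sep : ∀ v v', cen v → cen v' → ∀ a : K, GrdVal v u a → GrdVal v' u a → v = v'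
  /-- (SIMPLE) `u - u(v)` is a uniformiser at a place `v` of the annulus -/
  cen_simple : ∀ v, cen v → ∀ a : K, GrdVal v u a → v.ord (u - algebraMap K F a) = 1

/-- **(UNIT)** a function without zeros and poles on the annulus which is a `V₁`-unit whose
reduction has order `0` at `Q₁` is a `V₂`-unit whose reduction has order `0` at `Q₂`, and the two
branch values agree. -/
def MrsUnitSpec : Prop :=
  MrsModel A V₁ V₂ red₁ red₂ → MrsNode A V₁ V₂ red₁ red₂ Q₁ Q₂ cen u w κ →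
  ∀ (ε : F) (hε : ε ≠ 0) (hcen : ∀ v, cen v → v.ord ε = 0) (h₁ : TtalIsU V₁ ε)
    (hQ : Q₁.ord (red₁ ⟨ε, h₁.1⟩) = 0),
    ∃ h₂ : TtalIsU V₂ ε, Q₂.ord (red₂ ⟨ε, h₂.1⟩) = 0 ∧
      ∀ c : ResidueField A, GrdVal Q₁ (red₁ ⟨ε, h₁.1⟩) c → GrdVal Q₂ (red₂ ⟨ε, h₂.1⟩) c

/-- **(SLOPE) the slope formula with zeros.**  `f ≠ 0`, `c₁ f` a `V₁`-unit, `c₂ f` a `V₂`-unit,
`T` a finite set of places of the annulus containing all zeros and poles of `f` on the annulus,
`a v = u(v)`.  Then with `m₁ = ord_{Q₁} red₁ (c₁ f)` and `n_v = ord_v f`: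
`ord_{Q₂} red₂ (c₂ f) = Σ n_v - m₁` and
`val c₁ / val c₂ = val κ ^ (m₁ - Σ n_v) * ∏ val (a v) ^ n_v` in the value group of `A`. -/
def MrsSlopeSpec : Prop :=
  MrsModel A V₁ V₂ red₁ red₂ → MrsNode A V₁ V₂ red₁ red₂ Q₁ Q₂ cen u w κ →
  ∀ (f : F) (hf : f ≠ 0) (c₁ c₂ : K) (hc₁ : c₁ ≠ 0) (hc₂ : c₂ ≠ 0)
    (h₁ : TtalIsU V₁ (algebraMap K F c₁ * f)) (h₂ : TtalIsU V₂ (algebraMap K F c₂ * f))
    (T : Finset (Place K F)) (hT : ∀ v ∈ T, cen v)
    (hsupp : ∀ v, cen v → v.ord f ≠ 0 → v ∈ T)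
    (a : Place K F → K) (ha : ∀ v ∈ T, GrdVal v u (a v)),
    Q₂.ord (red₂ ⟨algebraMap K F c₂ * f, h₂.1⟩) =
        ∑ v ∈ T, v.ord f - Q₁.ord (red₁ ⟨algebraMap K F c₁ * f, h₁.1⟩) ∧
      A.valuation c₁ / A.valuation c₂ =
        A.valuation κ ^ (Q₁.ord (red₁ ⟨algebraMap K F c₁ * f, h₁.1⟩) - ∑ v ∈ T, v.ord f) *
          ∏ v ∈ T, A.valuation (a v) ^ (v.ord f)

/-- **(LOC-EQ)** `q = ∏_{v ∈ T} (u - a_v)^{n_v}` is a local equation on the annulus of the
divisor `Σ n_v [v]`: it is a `V₁`-unit with `ord_{Q₁} red₁ q = Σ n_v`, and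
`(∏ (-a_v)^{-n_v}) q` is a `V₂`-unit with `ord_{Q₂} red₂ = 0`. -/
def MrsLocalEqSpec : Prop :=
  MrsModel A V₁ V₂ red₁ red₂ → MrsNode A V₁ V₂ red₁ red₂ Q₁ Q₂ cen u w κ →
  ∀ (T : Finset (Place K F)) (hT : ∀ v ∈ T, cen v) (n : Place K F → ℤ)
    (a : Place K F → K) (ha : ∀ v ∈ T, GrdVal v u (a v)),
    (∏ v ∈ T, (u - algebraMap K F (a v)) ^ n v) ≠ 0 ∧
    (∀ v ∈ T, v.ord (∏ v ∈ T, (u - algebraMap K F (a v)) ^ n v) = n v) ∧
    (∀ v, cen v → v ∉ T → v.ord (∏ v ∈ T, (u - algebraMap K F (a v)) ^ n v) = 0) ∧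
    ∃ h₁ : TtalIsU V₁ (∏ v ∈ T, (u - algebraMap K F (a v)) ^ n v),
      Q₁.ord (red₁ ⟨_, h₁.1⟩) = ∑ v ∈ T, n v ∧
    ∃ h₂ : TtalIsU V₂ (algebraMap K F (∏ v ∈ T, (-(a v)) ^ (-(n v))) *
        ∏ v ∈ T, (u - algebraMap K F (a v)) ^ n v),
      Q₂.ord (red₂ ⟨_, h₂.1⟩) = 0

end Fermat.Agent.MR
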