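import Mathlib
import Fermat.Agent.MR.Slope.Spec
import Fermat.Agent.G.Red.Atlas

/-!
# Program MR (S44), block `mrs` : the SLOPE FORMULA WITH ZEROS at a node.  PROOFS

Owner: helper29.  Namespace `Fermat.Agent.MR`, prefix `mrs` / `Mrs`.

* `mrs_unit`     : `MrsUnitSpec`;
* `mrs_local_eq` : `MrsLocalEqSpec`;
* `mrs_slope`    : `MrsSlopeSpec`.
-/

set_option autoImplicit false
set_option linter.unusedSectionVars false
set_option linter.unusedVariables false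

noncomputable section

namespace Fermat.Agent.MR

open AlgebraicCurve IsLocalRing Fermat.Agent.G Fermat.Agent.TT Fermat.Agent.S24

/-! ### values and orders at a place -/

section Generic

variable {K F : Type*} [Field K] [Field F] [Algebra K F]

/-- a function with a nonzero value at a place is a unit there. -/
theorem mrs_ord_of_val (P : Place K F) {x : F} {c : K} (h : GrdVal P x c) (hc : c ≠ 0) :
    x ≠ 0 ∧ P.ord x = 0 := by
  have hx : x ≠ 0 := by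
    rintro rfl
    have h0 : GrdVal P (0 : F) (0 : K) := by
      have := grdg_val_algebraMap (F := F) P (0 : K)
      rwa [map_zero] at this
    exact hc (grdg_val_unique P h h0)
  refine ⟨hx, ?_⟩
  have h1 : 0 ≤ P.ord x := (grdg_mem_iff_ord P hx).1 (grdg_val_mem P h)
  have h2 : ¬ 0 < P.ord x := fun h0 =>
    hc (grdg_val_unique P h ((grdg_val_zero_iff_ord P hx).2 h0))
  omega

/-- the value of a unit at a place is nonzero. -/
theorem mrs_val_ne_of_ord (P : Place K F) {x : F} {c : K} (h : GrdVal P x c) (hx : x ≠ 0)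
    (h0 : P.ord x = 0) : c ≠ 0 := by
  rintro rfl
  have := (grdg_val_zero_iff_ord P hx).1 h
  omega

/-- `x ∈ V`, `y ∈ 𝔪_V` ⟹ `x y ∈ 𝔪_V`. -/
theorem mrs_mul_nonunits {V : ValuationSubring F} {x y : F} (hx : x ∈ V) (hy : y ∈ V.nonunits) :
    x * y ∈ V.nonunits := by
  rw [ValuationSubring.mem_nonunits_iff] at hy ⊢
  rw [map_mul]
  have hx' : V.valuation x ≤ 1 := (V.valuation_le_one_iff _).2 hx
  calc V.valuation x * V.valuation y ≤ 1 * V.valuation y := by gcongr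
    _ < 1 := by rw [one_mul]; exact hy

/-- an element of `V` outside `𝔪_V` is a unit. -/
theorem mrs_isU_of_not_nonunits {V : ValuationSubring F} {x : F} (hx : x ∈ V)
    (hx' : x ∉ V.nonunits) : TtalIsU V x := by
  refine ⟨hx, ?_⟩
  rw [ValuationSubring.mem_nonunits_iff, not_lt] at hx'
  have h1 : V.valuation x ≤ 1 := (V.valuation_le_one_iff _).2 hx
  have h2 : V.valuation x = 1 := le_antisymm h1 hx'
  rw [← V.valuation_le_one_iff, map_inv₀, h2, inv_one]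

/-- a nonzero unit of `V` is not in `𝔪_V`. -/
theorem mrs_not_nonunits_of_isU {V : ValuationSubring F} {x : F} (h : TtalIsU V x) (hx0 : x ≠ 0) :
    x ∉ V.nonunits := by
  intro hx
  have h1 := mrs_mul_nonunits h.2 hx
  rw [inv_mul_cancel₀ hx0, ValuationSubring.mem_nonunits_iff, map_one] at h1
  exact lt_irrefl _ h1

end Generic

/-! ### the calculus of `V`-units and the orders of their reductions -/

section Unit

variable {F F' k : Type*} [Field F] [Field F'] [Field k] [Algebra k F']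
variable (V : ValuationSubring F) (red : V →+* F') (Q : Place k F')

/-- `x ≠ 0` is a unit of `V` whose reduction has order `n` at `Q`. -/
def MrsU (x : F) (n : ℤ) : Prop := x ≠ 0 ∧ ∃ h : TtalIsU V x, Q.ord (red ⟨x, h.1⟩) = n

variable {V}

theorem mrs_red_mul_inv {x : F} (h : TtalIsU V x) (hx0 : x ≠ 0) :
    red ⟨x, h.1⟩ * red ⟨x⁻¹, h.2⟩ = 1 := by
  rw [← map_mul]
  have : (⟨x, h.1⟩ * ⟨x⁻¹, h.2⟩ : V) = 1 := Subtype.ext (mul_inv_cancel₀ hx0)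
  rw [this, map_one]

theorem mrs_red_ne {x : F} (h : TtalIsU V x) (hx0 : x ≠ 0) : red ⟨x, h.1⟩ ≠ 0 := by
  intro h0
  have := mrs_red_mul_inv red h hx0
  rw [h0, zero_mul] at this
  exact zero_ne_one this

theorem mrs_isU_inv {x : F} (h : TtalIsU V x) : TtalIsU V x⁻¹ := ⟨h.2, by rw [inv_inv]; exact h.1⟩

theorem mrs_red_inv {x : F} (h : TtalIsU V x) (hx0 : x ≠ 0) :
    red ⟨x⁻¹, h.2⟩ = (red ⟨x, h.1⟩)⁻¹ :=
  eq_inv_of_mul_eq_one_right (mrs_red_mul_inv red h hx0)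

variable {red Q}

theorem mrsU_unique {x : F} {n m : ℤ} (h₁ : MrsU V red Q x n) (h₂ : MrsU V red Q x m) : n = m := by
  obtain ⟨-, h, rfl⟩ := h₁
  obtain ⟨-, h', rfl⟩ := h₂
  rfl

theorem mrsU_one : MrsU V red Q 1 0 := by
  refine ⟨one_ne_zero, ⟨V.one_mem, by rw [inv_one]; exact V.one_mem⟩, ?_⟩
  have : (⟨1, V.one_mem⟩ : V) = 1 := rfl
  rw [this, map_one, Place.ord_one]

theorem mrsU_mul {x y : F} {n m : ℤ} (hx : MrsU V red Q x n) (hy : MrsU V red Q y m) :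
    MrsU V red Q (x * y) (n + m) := by
  obtain ⟨hx0, h, rfl⟩ := hx
  obtain ⟨hy0, h', rfl⟩ := hy
  refine ⟨mul_ne_zero hx0 hy0, ttal_isU_mul h h', ?_⟩
  have : (⟨x * y, (ttal_isU_mul h h').1⟩ : V) = ⟨x, h.1⟩ * ⟨y, h'.1⟩ := rfl
  rw [this, map_mul, Q.ord_mul (mrs_red_ne red h hx0) (mrs_red_ne red h' hy0)]

theorem mrsU_inv {x : F} {n : ℤ} (hx : MrsU V red Q x n) : MrsU V red Q x⁻¹ (-n) := by
  obtain ⟨hx0, h, rfl⟩ := hx
  refine ⟨inv_ne_zero hx0, mrs_isU_inv h, ?_⟩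
  rw [mrs_red_inv red h hx0, Q.ord_inv]

theorem mrsU_pow {x : F} {n : ℤ} (hx : MrsU V red Q x n) (j : ℕ) :
    MrsU V red Q (x ^ j) (j * n) := by
  induction j with
  | zero => simpa using mrsU_one
  | succ j ih =>
    rw [pow_succ]
    have := mrsU_mul ih hx
    have e : (j : ℤ) * n + n = ((j + 1 : ℕ) : ℤ) * n := by push_cast; ring
    rwa [e] at this

theorem mrsU_zpow {x : F} {n : ℤ} (hx : MrsU V red Q x n) (j : ℤ) :
    MrsU V red Q (x ^ j) (j * n) := by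
  obtain ⟨i, rfl | rfl⟩ := j.eq_nat_or_neg
  · rw [zpow_natCast]; exact mrsU_pow hx i
  · rw [zpow_neg, zpow_natCast]
    have := mrsU_inv (mrsU_pow hx i)
    rwa [← neg_mul] at this

theorem mrsU_prod {ι : Type*} (T : Finset ι) (x : ι → F) (n : ι → ℤ)
    (h : ∀ i ∈ T, MrsU V red Q (x i) (n i)) :
    MrsU V red Q (∏ i ∈ T, x i) (∑ i ∈ T, n i) := by
  classical
  induction T using Finset.induction_on with
  | empty => simpa using mrsU_one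
  | insert i T hi ih =>
    rw [Finset.prod_insert hi, Finset.sum_insert hi]
    exact mrsU_mul (h i (Finset.mem_insert_self i T))
      (ih fun j hj => h j (Finset.mem_insert_of_mem hj))

/-- a one-unit reduces to `1`. -/
theorem mrsU_of_one_unit (hker : ∀ x : V, red x = 0 ↔ (x : F) ∈ V.nonunits) {x : F}
    (hx : x - 1 ∈ V.nonunits) : MrsU V red Q x 0 := by
  have hU : TtalIsU V x := ttal_isU_of_one hx
  have hx0 : x ≠ 0 := by
    rintro rfl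
    rw [zero_sub, ValuationSubring.mem_nonunits_iff, Valuation.map_neg, map_one] at hx
    exact lt_irrefl _ hx
  refine ⟨hx0, hU, ?_⟩
  have h1 : red (⟨x, hU.1⟩ - 1) = 0 := (hker _).2 hx
  rw [map_sub, map_one, sub_eq_zero] at h1
  rw [h1, Place.ord_one]

end Unit

/-! ### (UNIT) -/

section UnitLemma

variable {K F F₁ F₂ k : Type*} [Field K] [Field F] [Algebra K F] [Field k]
variable [Field F₁] [Algebra k F₁] [Field F₂] [Algebra k F₂]
variable {V₁ V₂ : ValuationSubring F} {red₁ : V₁ →+* F₁} {red₂ : V₂ →+* F₂}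
variable {Q₁ : Place k F₁} {Q₂ : Place k F₂} {cen : Place K F → Prop}

/-- the core of (UNIT): an element of `V₁ ⊓ V₂`, regular on the annulus, which is a `V₁`-unit with
reduction of order `0` at `Q₁`, has a `red₂` of order `0` at `Q₂` with the same value. -/
theorem mrs_unit_aux
    (B : Subring F) (hBO : B ≤ V₁.toSubring ⊓ V₂.toSubring)
    (hloc : ∀ x ∈ V₁.toSubring ⊓ V₂.toSubring, (∀ v, cen v → x ∈ v.toValuationSubring) →
      ∃ s : B, ¬ GrdVal Q₁ (red₁ ⟨s, (hBO s.2).1⟩) 0 ∧ (s : F) * x ∈ B)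
    (hglue : ∀ b : B, ∃ c : k,
      GrdVal Q₁ (red₁ ⟨b, (hBO b.2).1⟩) c ∧ GrdVal Q₂ (red₂ ⟨b, (hBO b.2).2⟩) c)
    {x : F} (hx0 : x ≠ 0) (hreg : ∀ v, cen v → x ∈ v.toValuationSubring)
    (h₁ : TtalIsU V₁ x) (hx₂ : x ∈ V₂) (hQ : Q₁.ord (red₁ ⟨x, h₁.1⟩) = 0) :
    red₂ ⟨x, hx₂⟩ ≠ 0 ∧ Q₂.ord (red₂ ⟨x, hx₂⟩) = 0 ∧
      ∀ c : k, GrdVal Q₁ (red₁ ⟨x, h₁.1⟩) c → GrdVal Q₂ (red₂ ⟨x, hx₂⟩) c := by
  obtain ⟨s, hs0, hsx⟩ := hloc x ⟨h₁.1, hx₂⟩ hreg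
  obtain ⟨cs, hcs₁, hcs₂⟩ := hglue s
  have hcs : cs ≠ 0 := by
    rintro rfl
    exact hs0 hcs₁
  obtain ⟨cb, hcb₁, hcb₂⟩ := hglue ⟨(s : F) * x, hsx⟩
  have e₁ : red₁ ⟨(s : F) * x, (hBO hsx).1⟩ = red₁ ⟨s, (hBO s.2).1⟩ * red₁ ⟨x, h₁.1⟩ := by
    rw [← map_mul]; rfl
  have e₂ : red₂ ⟨(s : F) * x, (hBO hsx).2⟩ = red₂ ⟨s, (hBO s.2).2⟩ * red₂ ⟨x, hx₂⟩ := by
    rw [← map_mul]; rfl
  change GrdVal Q₁ (red₁ ⟨(s : F) * x, (hBO hsx).1⟩) cb at hcb₁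
  change GrdVal Q₂ (red₂ ⟨(s : F) * x, (hBO hsx).2⟩) cb at hcb₂
  rw [e₁] at hcb₁
  rw [e₂] at hcb₂
  obtain ⟨hs₁ne, hs₁ord⟩ := mrs_ord_of_val Q₁ hcs₁ hcs
  obtain ⟨hs₂ne, hs₂ord⟩ := mrs_ord_of_val Q₂ hcs₂ hcs
  have hx₁ne : red₁ ⟨x, h₁.1⟩ ≠ 0 := mrs_red_ne red₁ h₁ hx0
  have hb₁ord : Q₁.ord (red₁ ⟨s, (hBO s.2).1⟩ * red₁ ⟨x, h₁.1⟩) = 0 := by
    rw [Q₁.ord_mul hs₁ne hx₁ne, hs₁ord, hQ]; rfl
  have hcb : cb ≠ 0 := mrs_val_ne_of_ord Q₁ hcb₁ (mul_ne_zero hs₁ne hx₁ne) hb₁ord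
  obtain ⟨hb₂ne, hb₂ord⟩ := mrs_ord_of_val Q₂ hcb₂ hcb
  have hx₂ne : red₂ ⟨x, hx₂⟩ ≠ 0 := right_ne_zero_of_mul hb₂ne
  refine ⟨hx₂ne, ?_, ?_⟩
  · rw [Q₂.ord_mul hs₂ne hx₂ne, hs₂ord, zero_add] at hb₂ord
    exact hb₂ord
  · intro c hc
    have h1 := grdg_val_mul Q₁ hcs₁ hc
    have h2 : cb = cs * c := grdg_val_unique Q₁ hcb₁ h1
    rw [h2] at hcb₂
    exact grda_val_of_mul Q₂ hcs₂ hcs hcb₂

/-- **(UNIT)**, hypothesis-first (only `loc` and `ker₂` are used). -/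
theorem mrs_unit_core
    (hker₂ : ∀ x : V₂, red₂ x = 0 ↔ (x : F) ∈ V₂.nonunits)
    (hlocglue : ∃ (B : Subring F) (hBO : B ≤ V₁.toSubring ⊓ V₂.toSubring),
      (∀ x ∈ V₁.toSubring ⊓ V₂.toSubring, (∀ v, cen v → x ∈ v.toValuationSubring) →
        ∃ s : B, ¬ GrdVal Q₁ (red₁ ⟨s, (hBO s.2).1⟩) 0 ∧ (s : F) * x ∈ B) ∧
      ∀ b : B, ∃ c : k,
        GrdVal Q₁ (red₁ ⟨b, (hBO b.2).1⟩) c ∧ GrdVal Q₂ (red₂ ⟨b, (hBO b.2).2⟩) c)
    {ε : F} (hε : ε ≠ 0) (hcen : ∀ v, cen v → v.ord ε = 0) (h₁ : TtalIsU V₁ ε)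
    (hQ : Q₁.ord (red₁ ⟨ε, h₁.1⟩) = 0) :
    ∃ h₂ : TtalIsU V₂ ε, Q₂.ord (red₂ ⟨ε, h₂.1⟩) = 0 ∧
      ∀ c : k, GrdVal Q₁ (red₁ ⟨ε, h₁.1⟩) c → GrdVal Q₂ (red₂ ⟨ε, h₂.1⟩) c := by
  obtain ⟨B, hBO, hloc, hglue⟩ := hlocglue
  have hreg : ∀ v, cen v → ε ∈ v.toValuationSubring := fun v hv =>
    PlaceOrd.mem_of_ord_nonneg v (by rw [hcen v hv])
  -- `ε ∈ V₂`
  have hε₂ : ε ∈ V₂ := by
    rcases V₂.mem_or_inv_mem ε with h | h
    · exact h
    · have hreg' : ∀ v, cen v → ε⁻¹ ∈ v.toValuationSubring := fun v hv =>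
        PlaceOrd.mem_of_ord_nonneg v (by rw [Place.ord_inv, hcen v hv]; rfl)
      have hQ' : Q₁.ord (red₁ ⟨ε⁻¹, (mrs_isU_inv h₁).1⟩) = 0 := by
        rw [mrs_red_inv red₁ h₁ hε, Place.ord_inv, hQ]; rfl
      obtain ⟨hne, -, -⟩ := mrs_unit_aux B hBO hloc hglue (inv_ne_zero hε) hreg'
        (mrs_isU_inv h₁) h hQ'
      have hnn : ε⁻¹ ∉ V₂.nonunits := fun hn => hne ((hker₂ ⟨ε⁻¹, h⟩).2 hn)
      have := (mrs_isU_of_not_nonunits h hnn).2
      rwa [inv_inv] at this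
  obtain ⟨hne, hord, hval⟩ := mrs_unit_aux B hBO hloc hglue hε hreg h₁ hε₂ hQ
  have hnn : ε ∉ V₂.nonunits := fun hn => hne ((hker₂ ⟨ε, hε₂⟩).2 hn)
  exact ⟨mrs_isU_of_not_nonunits hε₂ hnn, hord, hval⟩

end UnitLemma

/-! ### the annulus -/

section Annulus

variable {K F F₁ F₂ : Type*} [Field K] [Field F] [Algebra K F]
variable {A : ValuationSubring K}
variable [Field F₁] [Algebra (ResidueField A) F₁] [Field F₂] [Algebra (ResidueField A) F₂]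
variable {V₁ V₂ : ValuationSubring F} {red₁ : V₁ →+* F₁} {red₂ : V₂ →+* F₂}
variable {Q₁ : Place (ResidueField A) F₁} {Q₂ : Place (ResidueField A) F₂}
variable {cen : Place K F → Prop} {u w : F} {κ : K}

theorem mrs_neg_nonunits {V : ValuationSubring F} {x : F} (hx : x ∈ V.nonunits) :
    -x ∈ V.nonunits := by
  rw [ValuationSubring.mem_nonunits_iff] at hx ⊢
  rwa [Valuation.map_neg]

/-- **(UNIT)** -/
theorem mrs_unit : MrsUnitSpec A V₁ V₂ red₁ red₂ Q₁ Q₂ cen u w κ := by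
  intro hM hN ε hε hcen h₁ hQ
  exact mrs_unit_core hM.ker₂ hN.loc hε hcen h₁ hQ

variable (hM : MrsModel A V₁ V₂ red₁ red₂) (hN : MrsNode A V₁ V₂ red₁ red₂ Q₁ Q₂ cen u w κ)

include hN in
theorem mrs_u_ne : u ≠ 0 := by
  rintro rfl
  have := hN.mul
  rw [zero_mul] at this
  exact hN.kap_ne (by simpa using this.symm)

include hN in
theorem mrs_w_ne : w ≠ 0 := by
  rintro rfl
  have := hN.mul
  rw [mul_zero] at this
  exact hN.kap_ne (by simpa using this.symm)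

include hN in
theorem mrsU_u : MrsU V₁ red₁ Q₁ u 1 := ⟨mrs_u_ne hN, hN.u_unit, hN.u_ord _⟩

include hN in
theorem mrsU_w : MrsU V₂ red₂ Q₂ w 1 := ⟨mrs_w_ne hN, hN.w_unit, hN.w_ord _⟩

include hN in
/-- the value of `u` at a place of the annulus lies in the open annulus. -/
theorem mrs_cen_val {v : Place K F} (hv : cen v) {a : K} (ha : GrdVal v u a) :
    a ≠ 0 ∧ a ∈ A.nonunits ∧ κ / a ∈ A.nonunits := by
  obtain ⟨a', ha', h1, h2, h3⟩ := hN.cen_val v hv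
  obtain rfl := grdg_val_unique v ha ha'
  exact ⟨h1, h2, h3⟩

include hN in
theorem mrs_ord_u {v : Place K F} (hv : cen v) : v.ord u = 0 := by
  obtain ⟨a, ha, ha0, -, -⟩ := hN.cen_val v hv
  exact (mrs_ord_of_val v ha ha0).2

/-- `u - b` at a place where `u` has a value `a ≠ b`. -/
theorem mrs_ord_sub_of_ne {v : Place K F} {a b : K} (ha : GrdVal v u a) (hab : a ≠ b) :
    u - algebraMap K F b ≠ 0 ∧ v.ord (u - algebraMap K F b) = 0 := by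
  have h : GrdVal v (u - algebraMap K F b) (a - b) := by
    have := grdg_val_add v ha (grdg_val_neg v (grdg_val_algebraMap v b))
    rwa [← sub_eq_add_neg, ← sub_eq_add_neg] at this
  exact mrs_ord_of_val v h (sub_ne_zero.2 hab)

include hN in
theorem mrs_sub_ne {v : Place K F} (hv : cen v) {a : K} (ha : GrdVal v u a) :
    u - algebraMap K F a ≠ 0 := by
  intro h0
  have := hN.cen_simple v hv a ha
  rw [h0, Place.ord_zero] at this
  exact zero_ne_one this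

include hM hN in
/-- on `V₁` : `u - a` is a unit with reduction `red₁ u` for `a ∈ 𝔪_A`. -/
theorem mrsU_sub₁ {a : K} (ha : a ∈ A.nonunits) :
    MrsU V₁ red₁ Q₁ (u - algebraMap K F a) 1 := by
  have hu0 := mrs_u_ne hN
  have h1 : u⁻¹ * algebraMap K F a ∈ V₁.nonunits := mrs_mul_nonunits hN.u_unit.2 (hM.max₁ a ha)
  have h2 : (1 - u⁻¹ * algebraMap K F a) - 1 ∈ V₁.nonunits := by
    have := mrs_neg_nonunits h1
    rwa [show (1 - u⁻¹ * algebraMap K F a) - 1 = -(u⁻¹ * algebraMap K F a) by ring]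
  have h3 := mrsU_mul (mrsU_u hN) (mrsU_of_one_unit (Q := Q₁) hM.ker₁ h2)
  have e : u * (1 - u⁻¹ * algebraMap K F a) = u - algebraMap K F a := by
    rw [mul_sub, mul_one, mul_inv_cancel_left₀ hu0]
  rwa [e, add_zero] at h3

include hM hN in
/-- on `V₂` : `(-a)⁻¹ (u - a) = 1 - (κ/a) w⁻¹` is a one-unit for `κ/a ∈ 𝔪_A`. -/
theorem mrsU_sub₂ {a : K} (ha0 : a ≠ 0) (ha : κ / a ∈ A.nonunits) :
    MrsU V₂ red₂ Q₂ (algebraMap K F (-a)⁻¹ * (u - algebraMap K F a)) 0 := by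
  have hw0 := mrs_w_ne hN
  have h1 : w⁻¹ * algebraMap K F (κ / a) ∈ V₂.nonunits :=
    mrs_mul_nonunits hN.w_unit.2 (hM.max₂ _ ha)
  have h2 : (1 - w⁻¹ * algebraMap K F (κ / a)) - 1 ∈ V₂.nonunits := by
    have := mrs_neg_nonunits h1
    rwa [show (1 - w⁻¹ * algebraMap K F (κ / a)) - 1 = -(w⁻¹ * algebraMap K F (κ / a)) by ring]
  have h3 := mrsU_of_one_unit (Q := Q₂) hM.ker₂ h2
  have haF : algebraMap K F a ≠ 0 := by simpa using ha0
  have hu : u = algebraMap K F κ * w⁻¹ := by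
    rw [← hN.mul, mul_assoc, mul_inv_cancel₀ hw0, mul_one]
  have e : algebraMap K F (-a)⁻¹ * (u - algebraMap K F a) =
      1 - w⁻¹ * algebraMap K F (κ / a) := by
    rw [map_inv₀, map_neg, map_div₀, hu]
    field_simp
    ring
  rwa [e]

/-! ### (LOC-EQ) -/

/-- orders of a product of powers. -/
theorem mrs_ord_prod_zpow (v : Place K F) (T : Finset (Place K F)) (x : Place K F → F)
    (n : Place K F → ℤ) (hx : ∀ i ∈ T, x i ≠ 0) :
    v.ord (∏ i ∈ T, x i ^ n i) = ∑ i ∈ T, n i * v.ord (x i) := by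
  classical
  induction T using Finset.induction_on with
  | empty => simp
  | insert i T hi ih =>
    rw [Finset.prod_insert hi, Finset.sum_insert hi]
    have h1 : x i ^ n i ≠ 0 := zpow_ne_zero _ (hx i (Finset.mem_insert_self i T))
    have h2 : ∏ j ∈ T, x j ^ n j ≠ 0 :=
      Finset.prod_ne_zero_iff.2 fun j hj =>
        zpow_ne_zero _ (hx j (Finset.mem_insert_of_mem hj))
    rw [v.ord_mul h1 h2, v.ord_zpow, ih fun j hj => hx j (Finset.mem_insert_of_mem hj)]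

include hN in
/-- the local equation is nonzero. -/
theorem mrs_q_ne (T : Finset (Place K F)) (hT : ∀ v ∈ T, cen v) (n : Place K F → ℤ)
    (a : Place K F → K) (ha : ∀ v ∈ T, GrdVal v u (a v)) :
    (∏ v ∈ T, (u - algebraMap K F (a v)) ^ n v) ≠ 0 :=
  Finset.prod_ne_zero_iff.2 fun v hv => zpow_ne_zero _ (mrs_sub_ne hN (hT v hv) (ha v hv))

include hN in
/-- the order of the local equation at a place of `T`. -/
theorem mrs_q_ord_mem (T : Finset (Place K F)) (hT : ∀ v ∈ T, cen v) (n : Place K F → ℤ)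
    (a : Place K F → K) (ha : ∀ v ∈ T, GrdVal v u (a v)) {v : Place K F} (hv : v ∈ T) :
    v.ord (∏ v ∈ T, (u - algebraMap K F (a v)) ^ n v) = n v := by
  rw [mrs_ord_prod_zpow v T _ n fun i hi => mrs_sub_ne hN (hT i hi) (ha i hi)]
  rw [Finset.sum_eq_single v]
  · rw [hN.cen_simple v (hT v hv) (a v) (ha v hv), mul_one]
  · intro i hi hiv
    have hne : a v ≠ a i := by
      intro h
      apply hiv
      have h' := ha i hi
      rw [← h] at h'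
      exact hN.cen_sep i v (hT i hi) (hT v hv) (a v) h' (ha v hv)
    rw [(mrs_ord_sub_of_ne (ha v hv) hne).2, mul_zero]
  · intro h
    exact absurd hv h

include hN in
/-- the order of the local equation at a place of the annulus outside `T`. -/
theorem mrs_q_ord_not_mem (T : Finset (Place K F)) (hT : ∀ v ∈ T, cen v) (n : Place K F → ℤ)
    (a : Place K F → K) (ha : ∀ v ∈ T, GrdVal v u (a v)) {v : Place K F} (hv : cen v)
    (hvT : v ∉ T) :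
    v.ord (∏ v ∈ T, (u - algebraMap K F (a v)) ^ n v) = 0 := by
  rw [mrs_ord_prod_zpow v T _ n fun i hi => mrs_sub_ne hN (hT i hi) (ha i hi)]
  obtain ⟨b, hb, -⟩ := hN.cen_val v hv
  refine Finset.sum_eq_zero fun i hi => ?_
  have hne : b ≠ a i := by
    intro h
    apply hvT
    have h' := ha i hi
    rw [← h] at h'
    rw [← hN.cen_sep i v (hT i hi) hv b h' hb]
    exact hi
  rw [(mrs_ord_sub_of_ne hb hne).2, mul_zero]

include hM hN in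
/-- the local equation on `V₁`. -/
theorem mrsU_q₁ (T : Finset (Place K F)) (hT : ∀ v ∈ T, cen v) (n : Place K F → ℤ)
    (a : Place K F → K) (ha : ∀ v ∈ T, GrdVal v u (a v)) :
    MrsU V₁ red₁ Q₁ (∏ v ∈ T, (u - algebraMap K F (a v)) ^ n v) (∑ v ∈ T, n v) := by
  refine mrsU_prod T _ n fun v hv => ?_
  have h := mrsU_zpow (mrsU_sub₁ hM hN (mrs_cen_val hN (hT v hv) (ha v hv)).2.1) (n v)
  rwa [mul_one] at h

include hM hN in
/-- the local equation on `V₂`. -/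
theorem mrsU_q₂ (T : Finset (Place K F)) (hT : ∀ v ∈ T, cen v) (n : Place K F → ℤ)
    (a : Place K F → K) (ha : ∀ v ∈ T, GrdVal v u (a v)) :
    MrsU V₂ red₂ Q₂ (algebraMap K F (∏ v ∈ T, (-(a v)) ^ n v)⁻¹ *
      ∏ v ∈ T, (u - algebraMap K F (a v)) ^ n v) 0 := by
  have h := mrsU_prod (V := V₂) (red := red₂) (Q := Q₂) T
    (fun v => (algebraMap K F (-(a v))⁻¹ * (u - algebraMap K F (a v))) ^ n v) (fun _ => 0)
    fun v hv => by
      have hv' := mrs_cen_val hN (hT v hv) (ha v hv)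
      have h := mrsU_zpow (mrsU_sub₂ hM hN hv'.1 hv'.2.2) (n v)
      rwa [mul_zero] at h
  rw [Finset.sum_const_zero] at h
  have e : (∏ v ∈ T, (algebraMap K F (-(a v))⁻¹ * (u - algebraMap K F (a v))) ^ n v) =
      algebraMap K F (∏ v ∈ T, (-(a v)) ^ n v)⁻¹ *
        ∏ v ∈ T, (u - algebraMap K F (a v)) ^ n v := by
    rw [map_inv₀, map_prod, ← Finset.prod_inv_distrib, ← Finset.prod_mul_distrib]
    refine Finset.prod_congr rfl fun v _ => ?_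
    rw [mul_zpow, map_zpow₀, map_inv₀, inv_zpow]
  rwa [e] at h

include hM hN in
/-- **(LOC-EQ)** -/
theorem mrs_local_eq_aux (T : Finset (Place K F)) (hT : ∀ v ∈ T, cen v) (n : Place K F → ℤ)
    (a : Place K F → K) (ha : ∀ v ∈ T, GrdVal v u (a v)) :
    (∏ v ∈ T, (u - algebraMap K F (a v)) ^ n v) ≠ 0 ∧
    (∀ v ∈ T, v.ord (∏ v ∈ T, (u - algebraMap K F (a v)) ^ n v) = n v) ∧
    (∀ v, cen v → v ∉ T → v.ord (∏ v ∈ T, (u - algebraMap K F (a v)) ^ n v) = 0) ∧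
    ∃ h₁ : TtalIsU V₁ (∏ v ∈ T, (u - algebraMap K F (a v)) ^ n v),
      Q₁.ord (red₁ ⟨_, h₁.1⟩) = ∑ v ∈ T, n v ∧
    ∃ h₂ : TtalIsU V₂ (algebraMap K F (∏ v ∈ T, (-(a v)) ^ (-(n v))) *
        ∏ v ∈ T, (u - algebraMap K F (a v)) ^ n v),
      Q₂.ord (red₂ ⟨_, h₂.1⟩) = 0 := by
  refine ⟨mrs_q_ne hN T hT n a ha, fun v hv => mrs_q_ord_mem hN T hT n a ha hv,
    fun v hv hvT => mrs_q_ord_not_mem hN T hT n a ha hv hvT, ?_⟩
  obtain ⟨-, h₁, hord₁⟩ := mrsU_q₁ hM hN T hT n a ha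
  refine ⟨h₁, hord₁, ?_⟩
  have h2 := mrsU_q₂ hM hN T hT n a ha
  have e : (∏ v ∈ T, (-(a v)) ^ (-(n v))) = (∏ v ∈ T, (-(a v)) ^ n v)⁻¹ := by
    rw [← Finset.prod_inv_distrib]
    exact Finset.prod_congr rfl fun v _ => zpow_neg _ _
  rw [← e] at h2
  obtain ⟨-, h₂, hord₂⟩ := h2
  exact ⟨h₂, hord₂⟩

theorem mrs_local_eq : MrsLocalEqSpec A V₁ V₂ red₁ red₂ Q₁ Q₂ cen u w κ := by
  intro hM hN T hT n a ha
  exact mrs_local_eq_aux hM hN T hT n a ha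

/-! ### (SLOPE) -/

theorem mrs_inv_nonunits_of_not_mem {A : ValuationSubring K} {d : K} (h : d ∉ A) :
    d⁻¹ ∈ A.nonunits := by
  rw [ValuationSubring.mem_nonunits_iff, map_inv₀]
  have h1 : 1 < A.valuation d := not_le.1 (mt (A.valuation_le_one_iff d).1 h)
  exact inv_lt_one_of_one_lt₀ h1

theorem mrs_one_not_nonunits {V : ValuationSubring F} : (1 : F) ∉ V.nonunits := by
  rw [ValuationSubring.mem_nonunits_iff, map_one]
  exact lt_irrefl _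

theorem mrs_valuation_eq_one {A : ValuationSubring K} {d : K} (hd0 : d ≠ 0) (h1 : d ∈ A)
    (h2 : d⁻¹ ∈ A) : A.valuation d = 1 := by
  have h3 : d ∉ A.nonunits := mrs_not_nonunits_of_isU (V := A) ⟨h1, h2⟩ hd0
  rw [ValuationSubring.mem_nonunits_iff, not_lt] at h3
  exact le_antisymm ((A.valuation_le_one_iff d).2 h1) h3

include hM in
/-- a constant which is a unit of `V₂` is a unit of `A`. -/
theorem mrs_const_unit₂ {d : K} (hd0 : d ≠ 0) (h : TtalIsU V₂ (algebraMap K F d)) :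
    d ∈ A ∧ d⁻¹ ∈ A := by
  have hdF : algebraMap K F d ≠ 0 := by simpa using hd0
  constructor
  · by_contra hd
    have h1 := hM.max₂ _ (mrs_inv_nonunits_of_not_mem hd)
    have h2 := mrs_mul_nonunits h.1 h1
    rw [map_inv₀, mul_inv_cancel₀ hdF] at h2
    exact mrs_one_not_nonunits h2
  · by_contra hd
    have h1 := hM.max₂ _ (mrs_inv_nonunits_of_not_mem hd)
    rw [inv_inv] at h1
    have h2 := mrs_mul_nonunits h.2 h1
    rw [inv_mul_cancel₀ hdF] at h2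
    exact mrs_one_not_nonunits h2

include hM hN in
/-- **(FACTOR)** : `g := c₁ f u^{-m} q⁻¹` (`m = m₁ - Σ n_v`, `q = ∏ (u - a_v)^{n_v}`) is a unit of
`O_s` : nonzero, without zeros and poles on the annulus, a unit of `V₁` and of `V₂` with reductions
of order `0` at the two branches.  So `f = c₁⁻¹ u^m q g`. -/
theorem mrs_factor (f : F) (hf : f ≠ 0) (c₁ : K) (hc₁ : c₁ ≠ 0)
    (h₁ : TtalIsU V₁ (algebraMap K F c₁ * f))
    (T : Finset (Place K F)) (hT : ∀ v ∈ T, cen v)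
    (hsupp : ∀ v, cen v → v.ord f ≠ 0 → v ∈ T)
    (a : Place K F → K) (ha : ∀ v ∈ T, GrdVal v u (a v)) :
    (∀ v, cen v → v.ord (algebraMap K F c₁ * f *
        u ^ (-(Q₁.ord (red₁ ⟨algebraMap K F c₁ * f, h₁.1⟩) - ∑ v ∈ T, v.ord f)) *
        (∏ v ∈ T, (u - algebraMap K F (a v)) ^ (v.ord f))⁻¹) = 0) ∧
      MrsU V₁ red₁ Q₁ (algebraMap K F c₁ * f *
        u ^ (-(Q₁.ord (red₁ ⟨algebraMap K F c₁ * f, h₁.1⟩) - ∑ v ∈ T, v.ord f)) *
        (∏ v ∈ T, (u - algebraMap K F (a v)) ^ (v.ord f))⁻¹) 0 ∧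
      MrsU V₂ red₂ Q₂ (algebraMap K F c₁ * f *
        u ^ (-(Q₁.ord (red₁ ⟨algebraMap K F c₁ * f, h₁.1⟩) - ∑ v ∈ T, v.ord f)) *
        (∏ v ∈ T, (u - algebraMap K F (a v)) ^ (v.ord f))⁻¹) 0 := by
  set m₁ : ℤ := Q₁.ord (red₁ ⟨algebraMap K F c₁ * f, h₁.1⟩) with hm₁
  set N : ℤ := ∑ v ∈ T, v.ord f with hN'
  set q : F := ∏ v ∈ T, (u - algebraMap K F (a v)) ^ (v.ord f) with hq
  have hq0 : q ≠ 0 := mrs_q_ne hN T hT _ a ha
  have hc₁F : algebraMap K F c₁ ≠ 0 := by simpa using hc₁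
  have hu0 := mrs_u_ne hN
  have hU₁ : MrsU V₁ red₁ Q₁ (algebraMap K F c₁ * f) m₁ := ⟨mul_ne_zero hc₁F hf, h₁, rfl⟩
  have hg₁ : MrsU V₁ red₁ Q₁ (algebraMap K F c₁ * f * u ^ (-(m₁ - N)) * q⁻¹) 0 := by
    have h := mrsU_mul (mrsU_mul hU₁ (mrsU_zpow (mrsU_u hN) (-(m₁ - N))))
      (mrsU_inv (mrsU_q₁ hM hN T hT (fun v => v.ord f) a ha))
    have e : m₁ + -(m₁ - N) * 1 + -N = 0 := by ring
    rwa [e] at h
  have hgcen : ∀ v, cen v → v.ord (algebraMap K F c₁ * f * u ^ (-(m₁ - N)) * q⁻¹) = 0 := by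
    intro v hv
    rw [v.ord_mul (mul_ne_zero (mul_ne_zero hc₁F hf) (zpow_ne_zero _ hu0)) (inv_ne_zero hq0),
      v.ord_mul (mul_ne_zero hc₁F hf) (zpow_ne_zero _ hu0), v.ord_mul hc₁F hf,
      PlaceOrd.ord_algebraMap, v.ord_zpow, mrs_ord_u hN hv, v.ord_inv]
    by_cases hvT : v ∈ T
    · rw [mrs_q_ord_mem hN T hT (fun v => v.ord f) a ha hvT]; ring
    · rw [mrs_q_ord_not_mem hN T hT (fun v => v.ord f) a ha hv hvT]
      have : v.ord f = 0 := by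
        by_contra h
        exact hvT (hsupp v hv h)
      rw [this]; ring
  obtain ⟨hg0, hgU, hgQ⟩ := hg₁
  obtain ⟨h₂g, hg₂ord, -⟩ := mrs_unit_core hM.ker₂ hN.loc hg0 hgcen hgU hgQ
  exact ⟨hgcen, ⟨hg0, hgU, hgQ⟩, ⟨hg0, h₂g, hg₂ord⟩⟩

include hM hN in
/-- **(SLOPE), core form**: the order at `Q₂` and the comparison of the normalising constants up
to a unit `d` of `A`. -/
theorem mrs_slope_core (f : F) (hf : f ≠ 0) (c₁ c₂ : K) (hc₁ : c₁ ≠ 0) (hc₂ : c₂ ≠ 0)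
    (h₁ : TtalIsU V₁ (algebraMap K F c₁ * f)) (h₂ : TtalIsU V₂ (algebraMap K F c₂ * f))
    (T : Finset (Place K F)) (hT : ∀ v ∈ T, cen v)
    (hsupp : ∀ v, cen v → v.ord f ≠ 0 → v ∈ T)
    (a : Place K F → K) (ha : ∀ v ∈ T, GrdVal v u (a v)) :
    Q₂.ord (red₂ ⟨algebraMap K F c₂ * f, h₂.1⟩) =
        ∑ v ∈ T, v.ord f - Q₁.ord (red₁ ⟨algebraMap K F c₁ * f, h₁.1⟩) ∧
      ∃ d : K, d ≠ 0 ∧ d ∈ A ∧ d⁻¹ ∈ A ∧
        c₂ * (κ ^ (Q₁.ord (red₁ ⟨algebraMap K F c₁ * f, h₁.1⟩) - ∑ v ∈ T, v.ord f) *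
          ∏ v ∈ T, (-(a v)) ^ (v.ord f)) = d * c₁ := by
  set m₁ : ℤ := Q₁.ord (red₁ ⟨algebraMap K F c₁ * f, h₁.1⟩) with hm₁
  set N : ℤ := ∑ v ∈ T, v.ord f with hN'
  set q : F := ∏ v ∈ T, (u - algebraMap K F (a v)) ^ (v.ord f) with hq
  set Y : K := ∏ v ∈ T, (-(a v)) ^ (v.ord f) with hY
  have hq0 : q ≠ 0 := mrs_q_ne hN T hT _ a ha
  have hc₁F : algebraMap K F c₁ ≠ 0 := by simpa using hc₁
  have hc₂F : algebraMap K F c₂ ≠ 0 := by simpa using hc₂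
  have hκ0 := hN.kap_ne
  have hY0 : Y ≠ 0 := Finset.prod_ne_zero_iff.2 fun v hv =>
    zpow_ne_zero _ (neg_ne_zero.2 (mrs_cen_val hN (hT v hv) (ha v hv)).1)
  have hu0 := mrs_u_ne hN
  have hw0 := mrs_w_ne hN
  have hU₁ : MrsU V₁ red₁ Q₁ (algebraMap K F c₁ * f) m₁ := ⟨mul_ne_zero hc₁F hf, h₁, rfl⟩
  -- the auxiliary function `g`
  obtain ⟨-, -, hg₂⟩ := mrs_factor hM hN f hf c₁ hc₁ h₁ T hT hsupp a ha
  have hc' := mrsU_mul (mrsU_mul hg₂ (mrsU_zpow (mrsU_w hN) (-(m₁ - N))))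
    (mrsU_q₂ hM hN T hT (fun v => v.ord f) a ha)
  have e1 : algebraMap K F c₁ * f * u ^ (-(m₁ - N)) * q⁻¹ * w ^ (-(m₁ - N)) *
      (algebraMap K F Y⁻¹ * q) = algebraMap K F (c₁ * (κ ^ (m₁ - N) * Y)⁻¹) * f := by
    have e2 : u ^ (-(m₁ - N)) * w ^ (-(m₁ - N)) = algebraMap K F (κ ^ (m₁ - N))⁻¹ := by
      rw [← mul_zpow, hN.mul, zpow_neg, map_inv₀, map_zpow₀]
    calc algebraMap K F c₁ * f * u ^ (-(m₁ - N)) * q⁻¹ * w ^ (-(m₁ - N)) *
          (algebraMap K F Y⁻¹ * q)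
        = algebraMap K F c₁ * f * (u ^ (-(m₁ - N)) * w ^ (-(m₁ - N))) *
          algebraMap K F Y⁻¹ * (q⁻¹ * q) := by ring
      _ = algebraMap K F (c₁ * (κ ^ (m₁ - N) * Y)⁻¹) * f := by
        rw [e2, inv_mul_cancel₀ hq0, mul_one, mul_inv, map_mul, map_mul]
        ring
  rw [e1] at hc'
  have e3 : (0 : ℤ) + -(m₁ - N) * 1 + 0 = N - m₁ := by ring
  rw [e3] at hc'
  -- the constant `d`
  set c' : K := c₁ * (κ ^ (m₁ - N) * Y)⁻¹ with hc'def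
  have hc'0 : c' ≠ 0 :=
    mul_ne_zero hc₁ (inv_ne_zero (mul_ne_zero (zpow_ne_zero _ hκ0) hY0))
  have hc'F : algebraMap K F c' ≠ 0 := by simpa using hc'0
  have hd0 : c₂ / c' ≠ 0 := div_ne_zero hc₂ hc'0
  have hdU : TtalIsU V₂ (algebraMap K F (c₂ / c')) := by
    have h := ttal_isU_mul h₂ (mrs_isU_inv hc'.2.1)
    have e : algebraMap K F c₂ * f * (algebraMap K F c' * f)⁻¹ = algebraMap K F (c₂ / c') := by
      rw [map_div₀]
      field_simp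
    rwa [e] at h
  obtain ⟨hdA, hdA'⟩ := mrs_const_unit₂ hM hd0 hdU
  have hdord : MrsU V₂ red₂ Q₂ (algebraMap K F (c₂ / c')) 0 := by
    refine ⟨by simpa using hd0, hdU, ?_⟩
    have := hM.red_const₂ ⟨c₂ / c', hdA⟩ hdU.1
    rw [this, PlaceOrd.ord_algebraMap]
  have hfin := mrsU_mul hdord hc'
  have e4 : algebraMap K F (c₂ / c') * (algebraMap K F c' * f) = algebraMap K F c₂ * f := by
    rw [← mul_assoc, ← map_mul, div_mul_cancel₀ _ hc'0]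
  rw [e4, zero_add] at hfin
  refine ⟨mrsU_unique ⟨mul_ne_zero hc₂F hf, h₂, rfl⟩ hfin, c₂ / c', hd0, hdA, hdA', ?_⟩
  rw [hc'def]
  field_simp

/-- **(SLOPE)** -/
theorem mrs_slope : MrsSlopeSpec A V₁ V₂ red₁ red₂ Q₁ Q₂ cen u w κ := by
  intro hM hN f hf c₁ c₂ hc₁ hc₂ h₁ h₂ T hT hsupp a ha
  obtain ⟨hord, d, hd0, hdA, hdA', hd⟩ :=
    mrs_slope_core hM hN f hf c₁ c₂ hc₁ hc₂ h₁ h₂ T hT hsupp a ha
  refine ⟨hord, ?_⟩
  have hv := congrArg A.valuation hd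
  rw [map_mul, map_mul, map_mul, mrs_valuation_eq_one hd0 hdA hdA', one_mul, map_zpow₀,
    map_prod] at hv
  have hv2 : A.valuation c₂ ≠ 0 := (Valuation.ne_zero_iff _).2 hc₂
  rw [div_eq_iff hv2, ← hv, mul_comm]
  congr 2
  refine Finset.prod_congr rfl fun v _ => ?_
  rw [map_zpow₀, Valuation.map_neg]

end Annulus

end Fermat.Agent.MR
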