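import Mathlib
import Fermat.Agent.MR.Slope.Main

/-!
# Program MR (S44), block `mrs` : COROLLARIES of the slope formula (abstract)

Owner: helper29.  Namespace `Fermat.Agent.MR`, prefix `mrs` / `Mrs`.

* `mrs_glue`          : (GLUE) for every `x ∈ V₁ ⊓ V₂` regular on the annulus (from `loc`);
* `mrs_node_of_coord` : `MrsNode` from coordinates with `u w = κ ε`, `ε ∈ O_sˣ`, and (ONE-ZERO) in
  the shape of `MrnCoord` / `MrnOneZeroSpec` (block `mrn`);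
* `mrs_factor`        : (FACTOR) `f = c₁⁻¹ u^m q g` with `g ∈ O_sˣ`;
* `mrs_slope_zero_free` : the slope formula for a function without zeros and poles on the annulus;
* `mrs_slope_add`     : the ADDITIVE form for any `val : K → Γ` additive on `Kˣ` killing `Aˣ`;
* `MrsSlopeFor`, `mrs_slope_for` : the form consumed by block `mrt` (`MrtSlopeFor`, verbatim).
-/

set_option autoImplicit false
set_option linter.unusedSectionVars false
set_option linter.unusedVariables false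

noncomputable section

namespace Fermat.Agent.MR

open AlgebraicCurve IsLocalRing Fermat.Agent.G Fermat.Agent.TT Fermat.Agent.S24

/-! ### (GLUE) -/

section Glue

variable {K F F₁ F₂ k : Type*} [Field K] [Field F] [Algebra K F] [Field k]
variable [Field F₁] [Algebra k F₁] [Field F₂] [Algebra k F₂]
variable {V₁ V₂ : ValuationSubring F} {red₁ : V₁ →+* F₁} {red₂ : V₂ →+* F₂}
variable {Q₁ : Place k F₁} {Q₂ : Place k F₂} {cen : Place K F → Prop}

/-- **(GLUE)** every `x ∈ V₁ ⊓ V₂` regular on the annulus has ONE value on the two branches. -/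
theorem mrs_glue
    (hlocglue : ∃ (B : Subring F) (hBO : B ≤ V₁.toSubring ⊓ V₂.toSubring),
      (∀ x ∈ V₁.toSubring ⊓ V₂.toSubring, (∀ v, cen v → x ∈ v.toValuationSubring) →
        ∃ s : B, ¬ GrdVal Q₁ (red₁ ⟨s, (hBO s.2).1⟩) 0 ∧ (s : F) * x ∈ B) ∧
      ∀ b : B, ∃ c : k,
        GrdVal Q₁ (red₁ ⟨b, (hBO b.2).1⟩) c ∧ GrdVal Q₂ (red₂ ⟨b, (hBO b.2).2⟩) c)
    {x : F} (h₁ : x ∈ V₁) (h₂ : x ∈ V₂) (hreg : ∀ v, cen v → x ∈ v.toValuationSubring) :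
    ∃ c : k, GrdVal Q₁ (red₁ ⟨x, h₁⟩) c ∧ GrdVal Q₂ (red₂ ⟨x, h₂⟩) c := by
  obtain ⟨B, hBO, hloc, hglue⟩ := hlocglue
  obtain ⟨s, hs0, hsx⟩ := hloc x ⟨h₁, h₂⟩ hreg
  obtain ⟨cs, hcs₁, hcs₂⟩ := hglue s
  have hcs : cs ≠ 0 := by
    rintro rfl
    exact hs0 hcs₁
  obtain ⟨cb, hcb₁, hcb₂⟩ := hglue ⟨(s : F) * x, hsx⟩
  have e₁ : red₁ ⟨(s : F) * x, (hBO hsx).1⟩ = red₁ ⟨s, (hBO s.2).1⟩ * red₁ ⟨x, h₁⟩ := by
    rw [← map_mul]; rfl
  have e₂ : red₂ ⟨(s : F) * x, (hBO hsx).2⟩ = red₂ ⟨s, (hBO s.2).2⟩ * red₂ ⟨x, h₂⟩ := by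
    rw [← map_mul]; rfl
  change GrdVal Q₁ (red₁ ⟨(s : F) * x, (hBO hsx).1⟩) cb at hcb₁
  change GrdVal Q₂ (red₂ ⟨(s : F) * x, (hBO hsx).2⟩) cb at hcb₂
  rw [e₁] at hcb₁
  rw [e₂] at hcb₂
  have hcb : cb = cs * (cs⁻¹ * cb) := by rw [mul_inv_cancel_left₀ hcs]
  rw [hcb] at hcb₁ hcb₂
  exact ⟨cs⁻¹ * cb, grda_val_of_mul Q₁ hcs₁ hcs hcb₁, grda_val_of_mul Q₂ hcs₂ hcs hcb₂⟩

end Glue

section Node

variable {K F F₁ F₂ : Type*} [Field K] [Field F] [Algebra K F]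
variable {A : ValuationSubring K}
variable [Field F₁] [Algebra (ResidueField A) F₁] [Field F₂] [Algebra (ResidueField A) F₂]
variable {V₁ V₂ : ValuationSubring F} {red₁ : V₁ →+* F₁} {red₂ : V₂ →+* F₂}
variable {Q₁ : Place (ResidueField A) F₁} {Q₂ : Place (ResidueField A) F₂}
variable {cen : Place K F → Prop}

/-! ### `MrsNode` from coordinates with `u w = κ ε` -/

/-- **`MrsNode` from `mrn`-coordinates** : `u ∈ V₁`, `w ∈ V₂`, `ε ∈ O_s` with nonzero node value,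
`u w = κ ε`, `red₁ u`, `red₂ w` uniformisers at the branches, (ONE-ZERO) in the shape of
`MrnOneZeroSpec`, and `loc` (the landed `hN`).  The second parameter is `w ε⁻¹`. -/
theorem mrs_node_of_coord (hM : MrsModel A V₁ V₂ red₁ red₂)
    (hlocglue : ∃ (B : Subring F) (hBO : B ≤ V₁.toSubring ⊓ V₂.toSubring),
      (∀ x ∈ V₁.toSubring ⊓ V₂.toSubring, (∀ v, cen v → x ∈ v.toValuationSubring) →
        ∃ s : B, ¬ GrdVal Q₁ (red₁ ⟨s, (hBO s.2).1⟩) 0 ∧ (s : F) * x ∈ B) ∧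
      ∀ b : B, ∃ c : ResidueField A,
        GrdVal Q₁ (red₁ ⟨b, (hBO b.2).1⟩) c ∧ GrdVal Q₂ (red₂ ⟨b, (hBO b.2).2⟩) c)
    (u w ε : F) (κ : K) (hu₁ : u ∈ V₁) (hw₂ : w ∈ V₂) (hε₁ : ε ∈ V₁) (hε₂ : ε ∈ V₂)
    (hεreg : ∀ v, cen v → ε ∈ v.toValuationSubring)
    (hεu : ¬ GrdVal Q₁ (red₁ ⟨ε, hε₁⟩) 0)
    (κ_mem : κ ∈ A.nonunits) (κ_ne : κ ≠ 0) (mul : u * w = algebraMap K F κ * ε)
    (u_ord : Q₁.ord (red₁ ⟨u, hu₁⟩) = 1) (w_ord : Q₂.ord (red₂ ⟨w, hw₂⟩) = 1)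
    (onezero : ∀ R, cen R → ∃ c : K, c ∈ A.nonunits ∧ c ≠ 0 ∧ κ / c ∈ A.nonunits ∧
      GrdVal R u c ∧ R.ord (u - algebraMap K F c) = 1 ∧
      ∀ R', cen R' → R' ≠ R → R'.ord (u - algebraMap K F c) = 0) :
    MrsNode A V₁ V₂ red₁ red₂ Q₁ Q₂ cen u (w * ε⁻¹) κ := by
  -- `u` is a unit of `V₁`, `w` a unit of `V₂`
  have hu_red : red₁ ⟨u, hu₁⟩ ≠ 0 := by
    intro h0
    rw [h0, Place.ord_zero] at u_ord
    exact zero_ne_one u_ord
  have hw_red : red₂ ⟨w, hw₂⟩ ≠ 0 := by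
    intro h0
    rw [h0, Place.ord_zero] at w_ord
    exact zero_ne_one w_ord
  have huU : TtalIsU V₁ u :=
    mrs_isU_of_not_nonunits hu₁ fun hn => hu_red ((hM.ker₁ ⟨u, hu₁⟩).2 hn)
  have hwU : TtalIsU V₂ w :=
    mrs_isU_of_not_nonunits hw₂ fun hn => hw_red ((hM.ker₂ ⟨w, hw₂⟩).2 hn)
  have hw0 : w ≠ 0 := by
    rintro rfl
    exact hw_red (map_zero red₂)
  -- `ε` is a unit of `V₂` with reduction of order `0` at `Q₂`
  obtain ⟨c, hc₁, hc₂⟩ := mrs_glue hlocglue hε₁ hε₂ hεreg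
  have hc : c ≠ 0 := by
    rintro rfl
    exact hεu hc₁
  obtain ⟨hε_red, hε_ord⟩ := mrs_ord_of_val Q₂ hc₂ hc
  have hεU : TtalIsU V₂ ε :=
    mrs_isU_of_not_nonunits hε₂ fun hn => hε_red ((hM.ker₂ ⟨ε, hε₂⟩).2 hn)
  have hε0 : ε ≠ 0 := by
    rintro rfl
    exact hε_red (map_zero red₂)
  have hεMU : MrsU V₂ red₂ Q₂ ε 0 := ⟨hε0, hεU, hε_ord⟩
  have hwMU : MrsU V₂ red₂ Q₂ w 1 := ⟨hw0, hwU, w_ord⟩
  have hw'MU : MrsU V₂ red₂ Q₂ (w * ε⁻¹) 1 := by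
    have := mrsU_mul hwMU (mrsU_inv hεMU)
    rwa [neg_zero, add_zero] at this
  obtain ⟨hw'0, hw'U, hw'ord⟩ := hw'MU
  refine
    { mul := by rw [← mul_assoc, mul, mul_assoc, mul_inv_cancel₀ hε0, mul_one]
      kap_ne := κ_ne
      kap_mem := κ_mem
      u_unit := huU
      w_unit := hw'U
      u_ord := fun _ => u_ord
      w_ord := fun _ => hw'ord
      loc := hlocglue
      cen_val := ?_
      cen_sep := ?_
      cen_simple := ?_ }
  · intro v hv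
    obtain ⟨c, hc1, hc2, hc3, hc4, -, -⟩ := onezero v hv
    exact ⟨c, hc4, hc2, hc1, hc3⟩
  · intro v v' hv hv' a ha ha'
    obtain ⟨c, -, -, -, hc4, hc5, hc6⟩ := onezero v hv
    obtain rfl := grdg_val_unique v ha hc4
    by_contra hne
    have h0 := hc6 v' hv' (fun h => hne h.symm)
    have hne0 : u - algebraMap K F a ≠ 0 := by
      intro h
      rw [h, Place.ord_zero] at hc5
      exact zero_ne_one hc5
    have hpos : 0 < v'.ord (u - algebraMap K F a) := by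
      rw [← grdg_val_zero_iff_ord v' hne0, grdg_val_zero_iff]
      exact ha'
    omega
  · intro v hv a ha
    obtain ⟨c, -, -, -, hc4, hc5, -⟩ := onezero v hv
    obtain rfl := grdg_val_unique v ha hc4
    exact hc5

end Node

/-! ### the zero-free case -/

section ZeroFree

variable {K F F₁ F₂ : Type*} [Field K] [Field F] [Algebra K F]
variable {A : ValuationSubring K}
variable [Field F₁] [Algebra (ResidueField A) F₁] [Field F₂] [Algebra (ResidueField A) F₂]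
variable {V₁ V₂ : ValuationSubring F} {red₁ : V₁ →+* F₁} {red₂ : V₂ →+* F₂}
variable {Q₁ : Place (ResidueField A) F₁} {Q₂ : Place (ResidueField A) F₂}
variable {cen : Place K F → Prop} {u w : F} {κ : K}

/-- **the slope formula for a function without zeros and poles on the annulus** :
`ord_{Q₂} red₂ (c₂ f) = - ord_{Q₁} red₁ (c₁ f)`, `c₂ κ^{m₁} = d c₁` with `d ∈ Aˣ`, and
`val c₁ / val c₂ = val κ ^ m₁`. -/
theorem mrs_slope_zero_free (hM : MrsModel A V₁ V₂ red₁ red₂)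
    (hN : MrsNode A V₁ V₂ red₁ red₂ Q₁ Q₂ cen u w κ)
    (f : F) (hf : f ≠ 0) (c₁ c₂ : K) (hc₁ : c₁ ≠ 0) (hc₂ : c₂ ≠ 0)
    (h₁ : TtalIsU V₁ (algebraMap K F c₁ * f)) (h₂ : TtalIsU V₂ (algebraMap K F c₂ * f))
    (hfree : ∀ v, cen v → v.ord f = 0) :
    Q₂.ord (red₂ ⟨algebraMap K F c₂ * f, h₂.1⟩) =
        -Q₁.ord (red₁ ⟨algebraMap K F c₁ * f, h₁.1⟩) ∧
      (∃ d : K, d ≠ 0 ∧ d ∈ A ∧ d⁻¹ ∈ A ∧
        c₂ * κ ^ (Q₁.ord (red₁ ⟨algebraMap K F c₁ * f, h₁.1⟩)) = d * c₁) ∧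
      A.valuation c₁ / A.valuation c₂ =
        A.valuation κ ^ (Q₁.ord (red₁ ⟨algebraMap K F c₁ * f, h₁.1⟩)) := by
  obtain ⟨hord, d, hd0, hdA, hdA', hd⟩ := mrs_slope_core hM hN f hf c₁ c₂ hc₁ hc₂ h₁ h₂ ∅
    (fun v hv => absurd hv (Finset.notMem_empty v))
    (fun v hv h => absurd (hfree v hv) h) (fun _ => 0)
    (fun v hv => absurd hv (Finset.notMem_empty v))
  have hs := mrs_slope hM hN f hf c₁ c₂ hc₁ hc₂ h₁ h₂ ∅
    (fun v hv => absurd hv (Finset.notMem_empty v))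
    (fun v hv h => absurd (hfree v hv) h) (fun _ => 0)
    (fun v hv => absurd hv (Finset.notMem_empty v))
  rw [Finset.sum_empty, zero_sub] at hord
  rw [Finset.sum_empty, Finset.prod_empty, sub_zero, mul_one] at hd
  refine ⟨hord, ⟨d, hd0, hdA, hdA', hd⟩, ?_⟩
  have h2 := hs.2
  rwa [Finset.sum_empty, Finset.prod_empty, sub_zero, mul_one] at h2

end ZeroFree

/-! ### the additive form -/

section Additive

variable {K : Type*} [Field K] {Γ : Type*} [AddCommGroup Γ] (val : K → Γ)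
  (val_mul : ∀ a b : K, a ≠ 0 → b ≠ 0 → val (a * b) = val a + val b)

include val_mul

theorem mrs_val_one : val 1 = 0 := by
  have h := val_mul 1 1 one_ne_zero one_ne_zero
  rw [mul_one] at h
  exact left_eq_add.1 h

theorem mrs_val_inv {x : K} (hx : x ≠ 0) : val x⁻¹ = -val x := by
  have h := val_mul x x⁻¹ hx (inv_ne_zero hx)
  rw [mul_inv_cancel₀ hx, mrs_val_one val val_mul] at h
  exact (neg_eq_of_add_eq_zero_right h.symm).symm

theorem mrs_val_pow {x : K} (hx : x ≠ 0) (n : ℕ) : val (x ^ n) = n • val x := by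
  induction n with
  | zero => rw [pow_zero, zero_smul, mrs_val_one val val_mul]
  | succ n ih => rw [pow_succ, val_mul _ _ (pow_ne_zero n hx) hx, ih, succ_nsmul]

theorem mrs_val_zpow {x : K} (hx : x ≠ 0) (n : ℤ) : val (x ^ n) = n • val x := by
  obtain ⟨i, rfl | rfl⟩ := n.eq_nat_or_neg
  · rw [zpow_natCast, mrs_val_pow val val_mul hx, natCast_zsmul]
  · rw [zpow_neg, zpow_natCast, mrs_val_inv val val_mul (pow_ne_zero i hx),
      mrs_val_pow val val_mul hx, neg_smul, natCast_zsmul]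

theorem mrs_val_prod_zpow {ι : Type*} (T : Finset ι) (x : ι → K) (n : ι → ℤ)
    (hx : ∀ i ∈ T, x i ≠ 0) :
    val (∏ i ∈ T, x i ^ n i) = ∑ i ∈ T, n i • val (x i) := by
  classical
  induction T using Finset.induction_on with
  | empty => rw [Finset.prod_empty, Finset.sum_empty, mrs_val_one val val_mul]
  | insert i T hi ih =>
    rw [Finset.prod_insert hi, Finset.sum_insert hi]
    have h1 : x i ^ n i ≠ 0 := zpow_ne_zero _ (hx i (Finset.mem_insert_self i T))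
    have h2 : ∏ j ∈ T, x j ^ n j ≠ 0 :=
      Finset.prod_ne_zero_iff.2 fun j hj =>
        zpow_ne_zero _ (hx j (Finset.mem_insert_of_mem hj))
    rw [val_mul _ _ h1 h2, mrs_val_zpow val val_mul (hx i (Finset.mem_insert_self i T)),
      ih fun j hj => hx j (Finset.mem_insert_of_mem hj)]

end Additive

section SlopeAdd

variable {K F F₁ F₂ : Type*} [Field K] [Field F] [Algebra K F]
variable {A : ValuationSubring K}
variable [Field F₁] [Algebra (ResidueField A) F₁] [Field F₂] [Algebra (ResidueField A) F₂]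
variable {V₁ V₂ : ValuationSubring F} {red₁ : V₁ →+* F₁} {red₂ : V₂ →+* F₂}
variable {Q₁ : Place (ResidueField A) F₁} {Q₂ : Place (ResidueField A) F₂}
variable {cen : Place K F → Prop} {u w : F} {κ : K}
variable {Γ : Type*} [AddCommGroup Γ]

/-- **the slope formula, ADDITIVE form** : for any `val : K → Γ` additive on `Kˣ` and killing the
units of `A` : `val c₁ - val c₂ = m₁ • val κ - ∑_{v ∈ T} n_v • (val κ - val (a v))`. -/
theorem mrs_slope_add (val : K → Γ)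
    (val_mul : ∀ a b : K, a ≠ 0 → b ≠ 0 → val (a * b) = val a + val b)
    (val_unit : ∀ d : K, d ≠ 0 → d ∈ A → d⁻¹ ∈ A → val d = 0)
    (hM : MrsModel A V₁ V₂ red₁ red₂)
    (hN : MrsNode A V₁ V₂ red₁ red₂ Q₁ Q₂ cen u w κ)
    (f : F) (hf : f ≠ 0) (c₁ c₂ : K) (hc₁ : c₁ ≠ 0) (hc₂ : c₂ ≠ 0)
    (h₁ : TtalIsU V₁ (algebraMap K F c₁ * f)) (h₂ : TtalIsU V₂ (algebraMap K F c₂ * f))
    (T : Finset (Place K F)) (hT : ∀ v ∈ T, cen v)
    (hsupp : ∀ v, cen v → v.ord f ≠ 0 → v ∈ T)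
    (a : Place K F → K) (ha : ∀ v ∈ T, GrdVal v u (a v)) :
    val c₁ - val c₂ = Q₁.ord (red₁ ⟨algebraMap K F c₁ * f, h₁.1⟩) • val κ -
      ∑ v ∈ T, v.ord f • (val κ - val (a v)) := by
  obtain ⟨-, d, hd0, hdA, hdA', hd⟩ :=
    mrs_slope_core hM hN f hf c₁ c₂ hc₁ hc₂ h₁ h₂ T hT hsupp a ha
  have ha0 : ∀ v ∈ T, a v ≠ 0 := fun v hv => (mrs_cen_val hN (hT v hv) (ha v hv)).1
  have hneg1 : val (-1 : K) = 0 :=
    val_unit (-1) (by simp) (A.neg_mem _ A.one_mem)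
      (by rw [inv_neg, inv_one]; exact A.neg_mem _ A.one_mem)
  have hneg : ∀ v ∈ T, val (-(a v)) = val (a v) := by
    intro v hv
    rw [neg_eq_neg_one_mul, val_mul _ _ (by simp) (ha0 v hv), hneg1, zero_add]
  have hY0 : (∏ v ∈ T, (-(a v)) ^ (v.ord f)) ≠ 0 := Finset.prod_ne_zero_iff.2 fun v hv =>
    zpow_ne_zero _ (neg_ne_zero.2 (ha0 v hv))
  have hκm : κ ^ (Q₁.ord (red₁ ⟨algebraMap K F c₁ * f, h₁.1⟩) - ∑ v ∈ T, v.ord f) ≠ 0 :=
    zpow_ne_zero _ hN.kap_ne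
  have hsum : ∑ v ∈ T, v.ord f • val (-(a v)) = ∑ v ∈ T, v.ord f • val (a v) :=
    Finset.sum_congr rfl fun v hv => by rw [hneg v hv]
  have hv := congrArg val hd
  rw [val_mul _ _ hc₂ (mul_ne_zero hκm hY0), val_mul _ _ hκm hY0, val_mul _ _ hd0 hc₁,
    val_unit d hd0 hdA hdA', zero_add, mrs_val_zpow val val_mul hN.kap_ne,
    mrs_val_prod_zpow val val_mul T _ _ fun v hv => neg_ne_zero.2 (ha0 v hv), hsum] at hv
  rw [← hv]
  simp only [smul_sub, Finset.sum_sub_distrib, ← Finset.sum_smul, sub_smul]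
  abel

/-- the value of `u` at `R` (junk `0` if there is none). -/
def mrsVal (u : F) (R : Place K F) : K := by
  classical exact if h : ∃ a : K, GrdVal R u a then h.choose else 0

theorem mrsVal_eq {u : F} {R : Place K F} {a : K} (h : GrdVal R u a) : mrsVal u R = a := by
  classical
  have hex : ∃ a : K, GrdVal R u a := ⟨a, h⟩
  unfold mrsVal
  rw [dif_pos hex]
  exact grdg_val_unique R hex.choose_spec h

theorem mrsVal_spec (hN : MrsNode A V₁ V₂ red₁ red₂ Q₁ Q₂ cen u w κ) {R : Place K F}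
    (hR : cen R) : GrdVal R u (mrsVal u R) := by
  obtain ⟨a, ha, -⟩ := hN.cen_val R hR
  rw [mrsVal_eq ha]
  exact ha

/-- **the form of the slope formula consumed by block `mrt`** (`MrtSlopeFor` of
`MR/Thick/Spec.lean`, verbatim up to the names). -/
def MrsSlopeFor {k : Type*} [Field k] {G₁ G₂ : Type*} [Field G₁] [Algebra k G₁] [Field G₂]
    [Algebra k G₂] (v : K → Γ) (O₁ O₂ : ValuationSubring F) (r₁ : ↥O₁ →+* G₁)
    (r₂ : ↥O₂ →+* G₂) (s₁ : Place k G₁) (Ann : Set (Place K F)) (ν : Place K F → Γ) (E : Γ)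
    (h : F) (c₁ c₂ : K) : Prop :=
  ∀ (x₁ : ↥O₁) (x₂ : ↥O₂) (T : Finset (Place K F)),
    (x₁ : F) = algebraMap K F c₁ * h → r₁ x₁ ≠ 0 →
    (x₂ : F) = algebraMap K F c₂ * h → r₂ x₂ ≠ 0 →
    (∀ R ∈ T, R ∈ Ann) → (∀ R ∈ Ann, R.ord h ≠ 0 → R ∈ T) →
    v c₁ - v c₂ = s₁.ord (r₁ x₁) • E - ∑ R ∈ T, R.ord h • (E - ν R)

/-- **`MrtSlopeFor` holds for every function and all normalising constants**, with
`Ann = {R | cen R}`, `ν R = val (u(R))`, `E = val κ`. -/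
theorem mrs_slope_for (val : K → Γ)
    (val_mul : ∀ a b : K, a ≠ 0 → b ≠ 0 → val (a * b) = val a + val b)
    (val_unit : ∀ d : K, d ≠ 0 → d ∈ A → d⁻¹ ∈ A → val d = 0)
    (hM : MrsModel A V₁ V₂ red₁ red₂)
    (hN : MrsNode A V₁ V₂ red₁ red₂ Q₁ Q₂ cen u w κ)
    (h : F) (hh : h ≠ 0) (c₁ c₂ : K) (hc₁ : c₁ ≠ 0) (hc₂ : c₂ ≠ 0) :
    MrsSlopeFor val V₁ V₂ red₁ red₂ Q₁ {R | cen R} (fun R => val (mrsVal u R)) (val κ)
      h c₁ c₂ := by
  intro x₁ x₂ T e₁ hr₁ e₂ hr₂ hT hsupp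
  have hU₁ : TtalIsU V₁ (algebraMap K F c₁ * h) := by
    rw [← e₁]
    exact mrs_isU_of_not_nonunits x₁.2 fun hn => hr₁ ((hM.ker₁ x₁).2 hn)
  have hU₂ : TtalIsU V₂ (algebraMap K F c₂ * h) := by
    rw [← e₂]
    exact mrs_isU_of_not_nonunits x₂.2 fun hn => hr₂ ((hM.ker₂ x₂).2 hn)
  have hx₁ : x₁ = ⟨algebraMap K F c₁ * h, hU₁.1⟩ := Subtype.ext e₁
  have := mrs_slope_add val val_mul val_unit hM hN h hh c₁ c₂ hc₁ hc₂ hU₁ hU₂ T
    (fun v hv => hT v hv) (fun v hv hne => hsupp v hv hne) (mrsVal u)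
    (fun v hv => mrsVal_spec hN (hT v hv))
  rw [hx₁]
  exact this

end SlopeAdd

section Depth

variable {K F F₁ F₂ : Type*} [Field K] [Field F] [Algebra K F]
variable {A : ValuationSubring K}
variable [Field F₁] [Algebra (ResidueField A) F₁] [Field F₂] [Algebra (ResidueField A) F₂]
variable {V₁ V₂ : ValuationSubring F} {red₁ : V₁ →+* F₁} {red₂ : V₂ →+* F₂}
variable {Q₁ : Place (ResidueField A) F₁} {Q₂ : Place (ResidueField A) F₂}
variable {cen : Place K F → Prop} {u w : F} {κ : K}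
variable {Γ : Type*} [AddCommGroup Γ] [LinearOrder Γ] [IsOrderedAddMonoid Γ]

/-- the depth of a place of the annulus lies in `[0, val κ]`. -/
theorem mrs_depth (val : K → Γ)
    (val_mul : ∀ a b : K, a ≠ 0 → b ≠ 0 → val (a * b) = val a + val b)
    (val_nonneg : ∀ d : K, d ≠ 0 → d ∈ A → 0 ≤ val d)
    (hN : MrsNode A V₁ V₂ red₁ red₂ Q₁ Q₂ cen u w κ) {R : Place K F} (hR : cen R) :
    0 ≤ val (mrsVal u R) ∧ val (mrsVal u R) ≤ val κ := by
  obtain ⟨h0, h1, h2⟩ := mrs_cen_val hN hR (mrsVal_spec hN hR)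
  refine ⟨val_nonneg _ h0 (A.nonunits_subset h1), ?_⟩
  have h3 := val_nonneg _ (div_ne_zero hN.kap_ne h0) (A.nonunits_subset h2)
  rw [div_eq_mul_inv, val_mul _ _ hN.kap_ne (inv_ne_zero h0), mrs_val_inv val val_mul h0] at h3
  have : val (mrsVal u R) = 0 + val (mrsVal u R) := (zero_add _).symm
  rw [this]
  calc 0 + val (mrsVal u R) ≤ (val κ + -val (mrsVal u R)) + val (mrsVal u R) := by gcongr
    _ = val κ := by abel

end Depth

/-! ### thickness is multiplicative -/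

section ThickMul

variable {K F F₁ F₂ : Type*} [Field K] [Field F] [Algebra K F]
variable {A : ValuationSubring K}
variable [Field F₁] [Algebra (ResidueField A) F₁] [Field F₂] [Algebra (ResidueField A) F₂]
variable {V₁ V₂ : ValuationSubring F} {red₁ : V₁ →+* F₁} {red₂ : V₂ →+* F₂}
variable {Q₁ : Place (ResidueField A) F₁} {Q₂ : Place (ResidueField A) F₂}
variable {cen : Place K F → Prop} {u w : F} {κ : K}

/-- **THICKNESS IS MULTIPLICATIVE** (abstract form).  `(F, V_i, red_i, Q_i, cen, u, w, κ)` a node of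
an (upper) model; `U W : F` (the images of the parameters `u_s`, `w_s` of a node `s` of a lower
model) with `U W = κ_s`, `U` a unit of `V₁`, `W` a unit of `V₂`, `U` without zeros and poles on the
annulus.  Then with `e := ord_{Q₁} red₁ U` (the ramification index of the first branch) :
`val κ_s = val κ ^ e`, and `ord_{Q₂} red₂ W = e` too. -/
theorem mrs_thick_mul (hM : MrsModel A V₁ V₂ red₁ red₂)
    (hN : MrsNode A V₁ V₂ red₁ red₂ Q₁ Q₂ cen u w κ)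
    (U W : F) (κs : K) (hκs : κs ≠ 0) (hUW : U * W = algebraMap K F κs)
    (hU : TtalIsU V₁ U) (hW : TtalIsU V₂ W) (hfree : ∀ v, cen v → v.ord U = 0) :
    A.valuation κs = A.valuation κ ^ (Q₁.ord (red₁ ⟨U, hU.1⟩)) ∧
      Q₂.ord (red₂ ⟨W, hW.1⟩) = Q₁.ord (red₁ ⟨U, hU.1⟩) ∧
      ∃ d : K, d ≠ 0 ∧ d ∈ A ∧ d⁻¹ ∈ A ∧ κ ^ (Q₁.ord (red₁ ⟨U, hU.1⟩)) = d * κs := by
  have hκsF : algebraMap K F κs ≠ 0 := by simpa using hκs
  have hU0 : U ≠ 0 := left_ne_zero_of_mul (hUW ▸ hκsF)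
  have hW0 : W ≠ 0 := right_ne_zero_of_mul (hUW ▸ hκsF)
  have e1 : algebraMap K F (1 : K) * U = U := by rw [map_one, one_mul]
  have e2 : algebraMap K F κs⁻¹ * U = W⁻¹ := by
    rw [map_inv₀, ← hUW, mul_inv, mul_comm U⁻¹, mul_assoc, inv_mul_cancel₀ hU0, mul_one]
  have h₁ : TtalIsU V₁ (algebraMap K F (1 : K) * U) := by rw [e1]; exact hU
  have h₂ : TtalIsU V₂ (algebraMap K F κs⁻¹ * U) := by rw [e2]; exact mrs_isU_inv hW
  obtain ⟨hord, ⟨d, hd0, hdA, hdA', hd⟩, hval⟩ := mrs_slope_zero_free hM hN U hU0 1 κs⁻¹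
    one_ne_zero (inv_ne_zero hκs) h₁ h₂ hfree
  have hx₁ : (⟨algebraMap K F (1 : K) * U, h₁.1⟩ : V₁) = ⟨U, hU.1⟩ := Subtype.ext e1
  have hx₂ : (⟨algebraMap K F κs⁻¹ * U, h₂.1⟩ : V₂) = ⟨W⁻¹, (mrs_isU_inv hW).1⟩ :=
    Subtype.ext e2
  rw [hx₁] at hord hval hd
  rw [hx₂, mrs_red_inv red₂ hW hW0, Place.ord_inv, neg_inj] at hord
  refine ⟨?_, hord, d, hd0, hdA, hdA', ?_⟩
  · rw [← hval, map_one, map_inv₀, one_div, inv_inv]
  · rw [mul_one] at hd
    field_simp at hd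
    rw [hd]; ring

end ThickMul

end Fermat.Agent.MR
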