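import Mathlib
import Fermat.Agent.MR.Slope.Cor
import Fermat.Agent.TT.Red2.IntoNodeS
import Fermat.Agent.TT.Red2.IntoInst
import Fermat.Agent.TT.Red2.Red2All
import Fermat.Agent.TT.Red2.RedPack

/-!
# Program MR (S44), block `mrs` : INSTANTIATION at the landed TT model of `X₀(M p)`

Owner: helper29.  Namespace `Fermat.Agent.MR`, prefix `mrs` / `Mrs`.

`F = F_ℚ̄(M p)`, `V₁ = ttrV1`, `V₂ = ttraV2`, `red₁ = ttraRed1`, `red₂ = ttraRed2`, the canonical
nodes `i : ttrkS M p 𝔸 hpM h𝔸 hat` with branches `ttrkSν₁ i`, `ttrkSν₂ i` and annulus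
`ttruCenS … i`.

* `mrs_model_inst` : `MrsModel` (closed, from the landed `ttrvp_tb1'`, `ttra_*`);
* `mrs_node_inst`  : `MrsNode … u (w ε⁻¹) κ` at the node `i` from coordinates `u w ε κ` with the
  fields of `MrnCoord` and the conclusion of `MrnOneZeroSpec` (block `mrn`, helper19), `loc` being
  the landed `ttru_hN_S`;
* `mrs_slope_inst`, `mrs_factor_inst` : the slope formula and (FACTOR) at the node `i`.
-/

set_option autoImplicit false
set_option linter.unusedSectionVars false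
set_option linter.unusedVariables false

noncomputable section

namespace Fermat.Agent.MR

open Polynomial ModularCurve AlgebraicCurve IsLocalRing IntermediateField
  Fermat.Agent.G Fermat.Agent.S18 Fermat.Agent.S24 Fermat.Agent.FF Fermat.Agent.TT

local notation "Qb" => AlgebraicClosure ℚ

variable (M : ℕ) [NeZero M] {p : ℕ} [Fact p.Prime] [NeZero p]
variable (A : ValuationSubring Qb) (hpM : ¬ p ∣ M) (hA : A.LiesOverPrime p)

/-- **`MrsModel` at the TT model**, closed. -/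
theorem mrs_model_inst :
    MrsModel A (ttrV1 M A hpM hA) (ttraV2 M A hpM hA) (ttraRed1 M A hpM hA)
      (ttraRed2 M A hpM hA) where
  const₁ := (ttra_idem M A hpM hA (ttrvp_tb1' M A hpM hA)).const₁
  const₂ := (ttra_idem M A hpM hA (ttrvp_tb1' M A hpM hA)).const₂
  max₁ := (ttra_idem M A hpM hA (ttrvp_tb1' M A hpM hA)).max₁
  max₂ := (ttra_idem M A hpM hA (ttrvp_tb1' M A hpM hA)).max₂
  ker₁ := ttra_ker₁ M A hpM hA (ttrvp_tb1' M A hpM hA)
  ker₂ := ttra_ker₂ M A hpM hA (ttrvp_tb1' M A hpM hA)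
  red_const₁ := fun a _ => (ttrvp_tb1' M A hpM hA).red_const a
  red_const₂ := fun a _ => (ttra_red₂ M A hpM hA (ttrvp_tb1' M A hpM hA)).red_const a

variable {τ τ' : LaurentSeries ℤ} (hat : GrdAtlas M A τ τ')

/-- **`MrsNode` at the canonical node `i`** from `mrn`-coordinates (fields of `MrnCoord`, in the
`ttrglRed_j` spelling) and (ONE-ZERO) (conclusion of `MrnOneZeroSpec`). -/
theorem mrs_node_inst (i : ttrkS M p A hpM hA hat)
    (u w ε : ↥(modularFunctionFieldBar (M * p))) (κ : Qb)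
    (hu : u ∈ ttrglO2 M A hpM hA) (hw : w ∈ ttrglO2 M A hpM hA) (hε : ε ∈ ttrglO2 M A hpM hA)
    (hεreg : ∀ v, ttruCenS M A hpM hA hat i v → ε ∈ v.toValuationSubring)
    (hεu : ¬ GrdVal (ttrkSν₁ M p A hpM hA hat i) (ttrglRed₁ M A hpM hA ⟨ε, hε⟩) 0)
    (κ_mem : κ ∈ A.nonunits) (κ_ne : κ ≠ 0)
    (mul : u * w = algebraMap Qb ↥(modularFunctionFieldBar (M * p)) κ * ε)
    (u_ord : (ttrkSν₁ M p A hpM hA hat i).ord (ttrglRed₁ M A hpM hA ⟨u, hu⟩) = 1)
    (w_ord : (ttrkSν₂ M p A hpM hA hat i).ord (ttrglRed₂ M A hpM hA ⟨w, hw⟩) = 1)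
    (onezero : ∀ R, ttruCenS M A hpM hA hat i R →
      ∃ c : Qb, c ∈ A.nonunits ∧ c ≠ 0 ∧ κ / c ∈ A.nonunits ∧ GrdVal R u c ∧
        R.ord (u - algebraMap Qb ↥(modularFunctionFieldBar (M * p)) c) = 1 ∧
        ∀ R', ttruCenS M A hpM hA hat i R' → R' ≠ R →
          R'.ord (u - algebraMap Qb ↥(modularFunctionFieldBar (M * p)) c) = 0) :
    MrsNode A (ttrV1 M A hpM hA) (ttraV2 M A hpM hA) (ttraRed1 M A hpM hA)
      (ttraRed2 M A hpM hA) (ttrkSν₁ M p A hpM hA hat i) (ttrkSν₂ M p A hpM hA hat i)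
      (ttruCenS M A hpM hA hat i) u (w * ε⁻¹) κ :=
  mrs_node_of_coord (mrs_model_inst M A hpM hA) (ttru_hN_S M A hpM hA hat i) u w ε κ
    hu.1 hw.2 hε.1 hε.2 hεreg hεu κ_mem κ_ne mul u_ord w_ord onezero

end Fermat.Agent.MR
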