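import Mathlib
import Fermat.Agent.MR.Slope.Inst
import Fermat.Agent.MR.Node.Spec
import Fermat.Agent.G.FF.Hecke

/-!
# Program MR (S44), block `mrs` : PLUG of block `mrn` (helper19's `MR/Node/Spec.lean`) into `mrs`

Owner: helper29.  Namespace `Fermat.Agent.MR`, prefix `mrs` / `Mrs`.

* `mrs_node_of_mrn` : `MrnOneZeroSpec` + `MrnCoord i u w ε κ` ⟹ `MrsNode … u (w ε⁻¹) κ`;
* `mrs_slope_of_mrn` : the slope formula at the node `i` for every `f ≠ 0` (the finite set `T` is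
  the part of the support of `div f` on the annulus);
* `mrn_factor_of_mrs` : **`MrnFactorSpec` follows from `MrnOneZeroSpec`** (a corollary of (FACTOR)).
-/

set_option autoImplicit false
set_option linter.unusedSectionVars false
set_option linter.unusedVariables false

noncomputable section

namespace Fermat.Agent.MR

open Polynomial ModularCurve AlgebraicCurve IsLocalRing IntermediateField
  Fermat.Agent.G Fermat.Agent.S18 Fermat.Agent.S24 Fermat.Agent.FF Fermat.Agent.TT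

open scoped Classical

local notation "Qb" => AlgebraicClosure ℚ

variable (M : ℕ) [NeZero M] {p : ℕ} [Fact p.Prime] [NeZero p]
variable (A : ValuationSubring Qb) (hpM : ¬ p ∣ M) (hA : A.LiesOverPrime p)
variable {τ τ' : LaurentSeries ℤ} (hat : GrdAtlas M A τ τ')

/-- **`MrsNode` from block `mrn`.** -/
theorem mrs_node_of_mrn (hOZ : MrnOneZeroSpec M A hpM hA hat) (i : ttrkS M p A hpM hA hat)
    (u w ε : ↥(modularFunctionFieldBar (M * p))) (κ : Qb)
    (hC : MrnCoord M A hpM hA hat i u w ε κ) :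
    MrsNode A (ttrV1 M A hpM hA) (ttraV2 M A hpM hA) (ttraRed1 M A hpM hA)
      (ttraRed2 M A hpM hA) (ttrkSν₁ M p A hpM hA hat i) (ttrkSν₂ M p A hpM hA hat i)
      (ttruCenS M A hpM hA hat i) u (w * ε⁻¹) κ :=
  mrs_node_inst M A hpM hA hat i u w ε κ hC.hu.1 hC.hw.1 hC.hε.1 hC.hε.2 hC.hεu hC.κ_mem hC.κ_ne
    hC.mul hC.u_ord hC.w_ord (hOZ i u w ε κ hC)

/-- a finite set of places of the annulus containing the zeros and poles of `f` there. -/
theorem mrs_exists_T (i : ttrkS M p A hpM hA hat) (f : ↥(modularFunctionFieldBar (M * p)))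
    (hf : f ≠ 0) :
    ∃ T : Finset (Place Qb ↥(modularFunctionFieldBar (M * p))),
      (∀ v ∈ T, ttruCenS M A hpM hA hat i v) ∧
      ∀ v, ttruCenS M A hpM hA hat i v → v.ord f ≠ 0 → v ∈ T := by
  classical
  haveI := gff_hasPrincipalDivisors (M * p)
  obtain ⟨D, hD, -⟩ := HasPrincipalDivisors.exists_divisor (K := Qb) f hf
  refine ⟨D.support.filter fun v => ttruCenS M A hpM hA hat i v, fun v hv => ?_, fun v hv h => ?_⟩
  · exact (Finset.mem_filter.1 hv).2
  · refine Finset.mem_filter.2 ⟨?_, hv⟩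
    rw [Finsupp.mem_support_iff, hD]
    exact h

/-- **`MrnFactorSpec` is a corollary of (ONE-ZERO)** via (FACTOR) of block `mrs`. -/
theorem mrn_factor_of_mrs (hOZ : MrnOneZeroSpec M A hpM hA hat) :
    MrnFactorSpec M A hpM hA hat := by
  intro i u w ε κ hC f hf
  have hM := mrs_model_inst M A hpM hA
  have hN := mrs_node_of_mrn M A hpM hA hat hOZ i u w ε κ hC
  obtain ⟨c₁, hc₁, hU₁⟩ := ttra_sc₁ M A hpM hA (ttrvp_tb1' M A hpM hA) f hf
  obtain ⟨T, hT, hsupp⟩ := mrs_exists_T M A hpM hA hat i f hf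
  have ha : ∀ v ∈ T, GrdVal v u (mrsVal u v) := fun v hv => mrsVal_spec hN (hT v hv)
  obtain ⟨hgcen, hg₁, hg₂⟩ := mrs_factor hM hN f hf c₁ hc₁ hU₁ T hT hsupp (mrsVal u) ha
  set m : ℤ := (ttrkSν₁ M p A hpM hA hat i).ord (ttraRed1 M A hpM hA
    ⟨algebraMap Qb ↥(modularFunctionFieldBar (M * p)) c₁ * f, hU₁.1⟩) - ∑ v ∈ T, v.ord f with hm
  set q : ↥(modularFunctionFieldBar (M * p)) :=
    ∏ v ∈ T, (u - algebraMap Qb ↥(modularFunctionFieldBar (M * p)) (mrsVal u v)) ^ (v.ord f)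
    with hq
  have hq0 : q ≠ 0 := mrs_q_ne hN T hT _ (mrsVal u) ha
  have hu0 : u ≠ 0 := mrs_u_ne hN
  have hc₁F : algebraMap Qb ↥(modularFunctionFieldBar (M * p)) c₁ ≠ 0 := by simpa using hc₁
  obtain ⟨hg0, hgU₁, -⟩ := hg₁
  obtain ⟨-, hgU₂, -⟩ := hg₂
  refine ⟨c₁⁻¹, m, q, _, inv_ne_zero hc₁, hq0, ?_,
    (mrsU_q₁ hM hN T hT (fun v => v.ord f) (mrsVal u) ha).2.1,
    ⟨⟨hgU₁.1, hgU₂.1⟩, fun v hv => PlaceOrd.mem_of_ord_nonneg v (by rw [hgcen v hv])⟩,
    ⟨⟨hgU₁.2, hgU₂.2⟩, fun v hv =>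
      PlaceOrd.mem_of_ord_nonneg v (by rw [Place.ord_inv, hgcen v hv]; rfl)⟩, ?_⟩
  · intro R hR
    by_cases hRT : R ∈ T
    · exact mrs_q_ord_mem hN T hT (fun v => v.ord f) (mrsVal u) ha hRT
    · rw [mrs_q_ord_not_mem hN T hT (fun v => v.ord f) (mrsVal u) ha hR hRT]
      by_contra h
      exact hRT (hsupp R hR (fun h0 => h h0.symm))
  · have e1 : u ^ m * u ^ (-m) = 1 := by
      rw [zpow_neg, mul_inv_cancel₀ (zpow_ne_zero _ hu0)]
    calc f = (algebraMap Qb ↥(modularFunctionFieldBar (M * p)) c₁)⁻¹ *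
          algebraMap Qb ↥(modularFunctionFieldBar (M * p)) c₁ * f * (u ^ m * u ^ (-m)) *
          (q * q⁻¹) := by
          rw [e1, mul_inv_cancel₀ hq0, inv_mul_cancel₀ hc₁F, one_mul, mul_one, mul_one]
      _ = algebraMap Qb ↥(modularFunctionFieldBar (M * p)) c₁⁻¹ * u ^ m * q *
          (algebraMap Qb ↥(modularFunctionFieldBar (M * p)) c₁ * f * u ^ (-m) * q⁻¹) := by
          rw [map_inv₀]; ring

/-- **`MrnJumpSpec` minus its rationality clause is a corollary of (ONE-ZERO)** via (LOC-EQ) of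
block `mrs` : for ANY divisor `D`, with `T` the part of its support on the annulus and
`c R = u(R)`, the local equation `q = ∏_{R ∈ T} (u - c R)^{D R}` is nonzero, has `ord_R q = D R` on
the annulus, is a unit of `V₁`, and `q / ∏ (c R)^{D R}` is a unit of `V₂`. -/
theorem mrn_jump_units_of_mrs (hOZ : MrnOneZeroSpec M A hpM hA hat)
    (i : ttrkS M p A hpM hA hat) (u w ε : ↥(modularFunctionFieldBar (M * p))) (κ : Qb)
    (hC : MrnCoord M A hpM hA hat i u w ε κ)
    (D : Divisor Qb ↥(modularFunctionFieldBar (M * p))) :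
    (∏ R ∈ D.support.filter (fun R => ttruCenS M A hpM hA hat i R),
        (u - algebraMap Qb ↥(modularFunctionFieldBar (M * p)) (mrsVal u R)) ^ D R) ≠ 0 ∧
    (∀ R, ttruCenS M A hpM hA hat i R →
      R.ord (∏ R ∈ D.support.filter (fun R => ttruCenS M A hpM hA hat i R),
        (u - algebraMap Qb ↥(modularFunctionFieldBar (M * p)) (mrsVal u R)) ^ D R) = D R) ∧
    (∀ R, ttruCenS M A hpM hA hat i R → GrdVal R u (mrsVal u R) ∧ mrsVal u R ≠ 0) ∧
    TtalIsU (ttrV1 M A hpM hA)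
      (∏ R ∈ D.support.filter (fun R => ttruCenS M A hpM hA hat i R),
        (u - algebraMap Qb ↥(modularFunctionFieldBar (M * p)) (mrsVal u R)) ^ D R) ∧
    TtalIsU (ttraV2 M A hpM hA)
      ((∏ R ∈ D.support.filter (fun R => ttruCenS M A hpM hA hat i R),
        (u - algebraMap Qb ↥(modularFunctionFieldBar (M * p)) (mrsVal u R)) ^ D R) *
        (algebraMap Qb ↥(modularFunctionFieldBar (M * p))
          (∏ R ∈ D.support.filter (fun R => ttruCenS M A hpM hA hat i R),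
            mrsVal u R ^ D R))⁻¹) := by
  classical
  have hM := mrs_model_inst M A hpM hA
  have hN := mrs_node_of_mrn M A hpM hA hat hOZ i u w ε κ hC
  set T := D.support.filter (fun R => ttruCenS M A hpM hA hat i R) with hTdef
  have hT : ∀ v ∈ T, ttruCenS M A hpM hA hat i v := fun v hv => (Finset.mem_filter.1 hv).2
  have ha : ∀ v ∈ T, GrdVal v u (mrsVal u v) := fun v hv => mrsVal_spec hN (hT v hv)
  refine ⟨mrs_q_ne hN T hT _ (mrsVal u) ha, fun R hR => ?_, fun R hR =>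
    ⟨mrsVal_spec hN hR, (mrs_cen_val hN hR (mrsVal_spec hN hR)).1⟩,
    (mrsU_q₁ hM hN T hT (fun v => D v) (mrsVal u) ha).2.1, ?_⟩
  · by_cases hRT : R ∈ T
    · exact mrs_q_ord_mem hN T hT (fun v => D v) (mrsVal u) ha hRT
    · rw [mrs_q_ord_not_mem hN T hT (fun v => D v) (mrsVal u) ha hR hRT]
      by_contra h
      exact hRT (Finset.mem_filter.2 ⟨Finsupp.mem_support_iff.2 (fun h0 => h h0.symm), hR⟩)
  · -- the sign `s = ∏ (-1)^{D R}` is a unit of `A`
    have hpm : ∀ n : ℤ, ((-1 : Qb)) ^ n ∈ A := by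
      intro n
      rcases Int.even_or_odd n with h | h
      · rw [h.neg_one_zpow]; exact A.one_mem
      · rw [h.neg_one_zpow]; exact A.neg_mem _ A.one_mem
    have hs : (∏ R ∈ T, ((-1 : Qb)) ^ D R) ∈ A := prod_mem fun R _ => hpm _
    have hs' : (∏ R ∈ T, ((-1 : Qb)) ^ D R)⁻¹ ∈ A := by
      rw [← Finset.prod_inv_distrib]
      refine prod_mem fun R _ => ?_
      rw [← zpow_neg]
      exact hpm _
    have hs0 : (∏ R ∈ T, ((-1 : Qb)) ^ D R) ≠ 0 :=
      Finset.prod_ne_zero_iff.2 fun R _ => zpow_ne_zero _ (by simp)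
    have hsU : TtalIsU (ttraV2 M A hpM hA)
        (algebraMap Qb ↥(modularFunctionFieldBar (M * p)) (∏ R ∈ T, ((-1 : Qb)) ^ D R)) :=
      ⟨hM.const₂ _ hs, by rw [← map_inv₀]; exact hM.const₂ _ hs'⟩
    have h2 := (mrsU_q₂ hM hN T hT (fun v => D v) (mrsVal u) ha).2.1
    have hsplit : (∏ v ∈ T, (-(mrsVal u v)) ^ D v) =
        (∏ R ∈ T, ((-1 : Qb)) ^ D R) * ∏ R ∈ T, mrsVal u R ^ D R := by
      rw [← Finset.prod_mul_distrib]
      refine Finset.prod_congr rfl fun v _ => ?_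
      rw [← mul_zpow, neg_one_mul]
    have hP0 : (∏ R ∈ T, mrsVal u R ^ D R) ≠ 0 :=
      Finset.prod_ne_zero_iff.2 fun R hR =>
        zpow_ne_zero _ (mrs_cen_val hN (hT R hR) (ha R hR)).1
    have h3 := ttal_isU_mul hsU h2
    have e : algebraMap Qb ↥(modularFunctionFieldBar (M * p)) (∏ R ∈ T, ((-1 : Qb)) ^ D R) *
        (algebraMap Qb ↥(modularFunctionFieldBar (M * p))
          (∏ v ∈ T, (-(mrsVal u v)) ^ D v)⁻¹ *
          ∏ v ∈ T, (u - algebraMap Qb ↥(modularFunctionFieldBar (M * p)) (mrsVal u v)) ^ D v) =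
        (∏ v ∈ T, (u - algebraMap Qb ↥(modularFunctionFieldBar (M * p)) (mrsVal u v)) ^ D v) *
        (algebraMap Qb ↥(modularFunctionFieldBar (M * p)) (∏ R ∈ T, mrsVal u R ^ D R))⁻¹ := by
      rw [hsplit, mul_inv, map_mul, map_inv₀, map_inv₀]
      have hsF : algebraMap Qb ↥(modularFunctionFieldBar (M * p))
          (∏ R ∈ T, ((-1 : Qb)) ^ D R) ≠ 0 := (_root_.map_ne_zero _).2 hs0
      field_simp
    rwa [e] at h3

end Fermat.Agent.MR
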