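import Mathlib
import Fermat.Agent.MR.Slope.PlugNode
import Fermat.Agent.MR.Rigid.All

/-!
# Program MR (S44), block `mrs` : PLUG into block `mrr` (helper12's `MR/Rigid/All.lean`)

Owner: helper29.  Namespace `Fermat.Agent.MR`, prefix `mrs`.

* `mrs_slope0_abs`  : `MrrSlope0` (the hypothesis `hslope` of `mrr_W1_key`, `mrr_W1_all_tame`,
  `mrr_W1_all_wild`) from a family of `MrsNode`s, abstract;
* `mrs_slope0_inst` : `MrrSlope0` at the TT model of `X₀(M p)`, nodes `ttrkS`, annuli `ttruCenS`,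
  from `MrnOneZeroSpec` and a family of `MrnCoord`s (block `mrn`).
-/

set_option autoImplicit false
set_option linter.unusedSectionVars false
set_option linter.unusedVariables false

noncomputable section

namespace Fermat.Agent.MR

open Polynomial ModularCurve AlgebraicCurve IsLocalRing IntermediateField
  Fermat.Agent.G Fermat.Agent.S18 Fermat.Agent.S24 Fermat.Agent.FF Fermat.Agent.TT

section Abs

variable {K F F₁ F₂ : Type*} [Field K] [Field F] [Algebra K F]
variable {A : ValuationSubring K}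
variable [Field F₁] [Algebra (ResidueField A) F₁] [Field F₂] [Algebra (ResidueField A) F₂]
variable {V₁ V₂ : ValuationSubring F} {red₁ : V₁ →+* F₁} {red₂ : V₂ →+* F₂}
variable {S : Type*}

/-- **`MrrSlope0` from a family of `MrsNode`s.** -/
theorem mrs_slope0_abs (hM : MrsModel A V₁ V₂ red₁ red₂)
    (ν₁ : S → Place (ResidueField A) F₁) (ν₂ : S → Place (ResidueField A) F₂)
    (cenN : S → Set (Place K F)) (u w : S → F) (κ : S → K)
    (hN : ∀ s, MrsNode A V₁ V₂ red₁ red₂ (ν₁ s) (ν₂ s) (fun R => R ∈ cenN s) (u s) (w s) (κ s)) :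
    MrrSlope0 (A := A) V₁ V₂ red₁ ν₁ cenN κ := by
  intro s g hg hfree c₁ c₂ hc₁ hc₂ h₁ h₂
  exact (mrs_slope_zero_free hM (hN s) g hg c₁ c₂ hc₁ hc₂ h₁ h₂ hfree).2.2

end Abs

local notation "Qb" => AlgebraicClosure ℚ

variable (M : ℕ) [NeZero M] {p : ℕ} [Fact p.Prime] [NeZero p]
variable (A : ValuationSubring Qb) (hpM : ¬ p ∣ M) (hA : A.LiesOverPrime p)
variable {τ τ' : LaurentSeries ℤ} (hat : GrdAtlas M A τ τ')

/-- **`MrrSlope0` at the TT model**, from block `mrn`. -/
theorem mrs_slope0_inst (hOZ : MrnOneZeroSpec M A hpM hA hat)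
    (u w ε : ttrkS M p A hpM hA hat → ↥(modularFunctionFieldBar (M * p)))
    (κ : ttrkS M p A hpM hA hat → Qb)
    (hC : ∀ i, MrnCoord M A hpM hA hat i (u i) (w i) (ε i) (κ i)) :
    MrrSlope0 (A := A) (ttrV1 M A hpM hA) (ttraV2 M A hpM hA) (ttraRed1 M A hpM hA)
      (ttrkSν₁ M p A hpM hA hat) (fun i => {R | ttruCenS M A hpM hA hat i R}) κ :=
  mrs_slope0_abs (mrs_model_inst M A hpM hA) (ttrkSν₁ M p A hpM hA hat)
    (ttrkSν₂ M p A hpM hA hat) _ u (fun i => w i * (ε i)⁻¹) κ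
    fun i => mrs_node_of_mrn M A hpM hA hat hOZ i (u i) (w i) (ε i) (κ i) (hC i)

end Fermat.Agent.MR
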