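import Mathlib
import Fermat.Agent.MR.Slope.Main

/-!
# Program MR (S44), block `mrs` : the DISC FORMULA (slope formula at a smooth point), abstract

Owner: helper29.  Namespace `Fermat.Agent.MR`, prefix `mrsd` / `Mrsd`.

`K ⊃ A`, `k = A/𝔪`, `F/K`, ONE valuation subring `V` of `F` (the Gauss valuation of the component
through the point) with reduction `red : V →+* F'`, `Q : Place k F'` a closed point of that
component lying on NO other component, `cen` the places of `F/K` centred at `Q` (the residue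
disc), `t ∈ V` a coordinate with the one-zero property on the disc.

* `MrsdDisc`  : the hypotheses (`max`, `ker`, the `V`-ONLY regularity `reg`, `t`, (ONE-ZERO) in the
  shape of `MrnDisc₁Spec`);
* `mrsd_disc` : **for a unit `f ≠ 0` of `V` : `ord_Q red f = Σ_{v ∈ T} ord_v f`**, `T` any finite
  set of places of the disc containing the zeros and poles of `f` there;
* `mrsd_factor` : `f = q g`, `q = ∏ (t - t(v))^{ord_v f}`, `g` a unit of `V` regular and
  non-vanishing on the disc with `ord_Q red g = 0`.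
-/

set_option autoImplicit false
set_option linter.unusedSectionVars false
set_option linter.unusedVariables false

noncomputable section

namespace Fermat.Agent.MR

open AlgebraicCurve IsLocalRing Fermat.Agent.G Fermat.Agent.TT Fermat.Agent.S24

variable {K F F' : Type*} [Field K] [Field F] [Algebra K F]
variable (A : ValuationSubring K) [Field F'] [Algebra (ResidueField A) F']
variable (V : ValuationSubring F) (red : V →+* F') (Q : Place (ResidueField A) F')
variable (cen : Place K F → Prop) (t : F)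

/-- the hypotheses of the disc formula at ONE smooth closed point `Q`. -/
structure MrsdDisc : Prop where
  /-- constants of `𝔪_A` lie in `𝔪_V` -/
  max : ∀ a : K, a ∈ A.nonunits → algebraMap K F a ∈ V.nonunits
  /-- the kernel of `red` is `𝔪_V` -/
  ker : ∀ x : V, red x = 0 ↔ (x : F) ∈ V.nonunits
  /-- (LOC-REG), `V`-ONLY form : an element of `V` without poles on the disc has a reduction
  regular at `Q` -/
  reg : ∀ (f : F) (hf : f ∈ V), (∀ R, cen R → f ∈ R.toValuationSubring) →
    red ⟨f, hf⟩ ∈ Q.toValuationSubring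
  /-- the coordinate lies in `V` -/
  t_mem : t ∈ V
  /-- `red t` is a uniformiser at `Q` -/
  t_ord : ∀ h : t ∈ V, Q.ord (red ⟨t, h⟩) = 1
  /-- (ONE-ZERO) on the disc -/
  onezero : ∀ R, cen R → ∃ c : K, c ∈ A.nonunits ∧ GrdVal R t c ∧
    R.ord (t - algebraMap K F c) = 1 ∧
    ∀ R', cen R' → R' ≠ R → R'.ord (t - algebraMap K F c) = 0

variable {A V red Q cen t}

namespace MrsdDisc

variable (h : MrsdDisc A V red Q cen t)

include h

theorem val_mem {R : Place K F} (hR : cen R) {a : K} (ha : GrdVal R t a) : a ∈ A.nonunits := by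
  obtain ⟨c, hc, hc', -⟩ := h.onezero R hR
  rwa [grdg_val_unique R ha hc']

theorem simple {R : Place K F} (hR : cen R) {a : K} (ha : GrdVal R t a) :
    R.ord (t - algebraMap K F a) = 1 := by
  obtain ⟨c, -, hc', hc1, -⟩ := h.onezero R hR
  rwa [grdg_val_unique R ha hc']

theorem sub_ne {R : Place K F} (hR : cen R) {a : K} (ha : GrdVal R t a) :
    t - algebraMap K F a ≠ 0 := by
  intro h0
  have := h.simple hR ha
  rw [h0, Place.ord_zero] at this
  exact zero_ne_one this

theorem sep {R R' : Place K F} (hR : cen R) (hR' : cen R') {a : K} (ha : GrdVal R t a)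
    (ha' : GrdVal R' t a) : R = R' := by
  obtain ⟨c, -, hc', hc1, hc0⟩ := h.onezero R hR
  obtain rfl := grdg_val_unique R ha hc'
  by_contra hne
  have h0 := hc0 R' hR' (fun e => hne e.symm)
  have hpos : 0 < R'.ord (t - algebraMap K F a) := by
    rw [← grdg_val_zero_iff_ord R' (h.sub_ne hR ha), grdg_val_zero_iff]
    exact ha'
  omega

/-- `t - a` is a unit of `V` with `ord_Q red = 1` for `a ∈ 𝔪_A`. -/
theorem mrsU_sub {a : K} (ha : a ∈ A.nonunits) : MrsU V red Q (t - algebraMap K F a) 1 := by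
  have hmem : t - algebraMap K F a ∈ V := sub_mem h.t_mem (V.nonunits_subset (h.max a ha))
  have hred : red ⟨t - algebraMap K F a, hmem⟩ = red ⟨t, h.t_mem⟩ := by
    have e : (⟨t - algebraMap K F a, hmem⟩ : V) =
        ⟨t, h.t_mem⟩ - ⟨algebraMap K F a, V.nonunits_subset (h.max a ha)⟩ := rfl
    rw [e, map_sub, (h.ker ⟨algebraMap K F a, _⟩).2 (h.max a ha), sub_zero]
  have hord : Q.ord (red ⟨t - algebraMap K F a, hmem⟩) = 1 := by rw [hred]; exact h.t_ord _
  have hne : red ⟨t - algebraMap K F a, hmem⟩ ≠ 0 := by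
    intro h0
    rw [h0, Place.ord_zero] at hord
    exact zero_ne_one hord
  have hx0 : t - algebraMap K F a ≠ 0 := by
    intro h0
    apply hne
    have : (⟨t - algebraMap K F a, hmem⟩ : V) = 0 := Subtype.ext h0
    rw [this, map_zero]
  exact ⟨hx0, mrs_isU_of_not_nonunits hmem fun hn => hne ((h.ker _).2 hn), hord⟩

/-- the local equation is nonzero. -/
theorem q_ne (T : Finset (Place K F)) (hT : ∀ v ∈ T, cen v) (n : Place K F → ℤ)
    (a : Place K F → K) (ha : ∀ v ∈ T, GrdVal v t (a v)) :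
    (∏ v ∈ T, (t - algebraMap K F (a v)) ^ n v) ≠ 0 :=
  Finset.prod_ne_zero_iff.2 fun v hv => zpow_ne_zero _ (h.sub_ne (hT v hv) (ha v hv))

/-- the order of the local equation at a place of `T`. -/
theorem q_ord_mem (T : Finset (Place K F)) (hT : ∀ v ∈ T, cen v) (n : Place K F → ℤ)
    (a : Place K F → K) (ha : ∀ v ∈ T, GrdVal v t (a v)) {v : Place K F} (hv : v ∈ T) :
    v.ord (∏ v ∈ T, (t - algebraMap K F (a v)) ^ n v) = n v := by
  rw [mrs_ord_prod_zpow v T _ n fun i hi => h.sub_ne (hT i hi) (ha i hi)]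
  rw [Finset.sum_eq_single v]
  · rw [h.simple (hT v hv) (ha v hv), mul_one]
  · intro i hi hiv
    have hne : a v ≠ a i := by
      intro e
      apply hiv
      have h' := ha i hi
      rw [← e] at h'
      exact h.sep (hT i hi) (hT v hv) h' (ha v hv)
    rw [(mrs_ord_sub_of_ne (ha v hv) hne).2, mul_zero]
  · intro hn
    exact absurd hv hn

/-- the order of the local equation at a place of the disc outside `T`. -/
theorem q_ord_not_mem (T : Finset (Place K F)) (hT : ∀ v ∈ T, cen v) (n : Place K F → ℤ)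
    (a : Place K F → K) (ha : ∀ v ∈ T, GrdVal v t (a v)) {v : Place K F} (hv : cen v)
    (hvT : v ∉ T) :
    v.ord (∏ v ∈ T, (t - algebraMap K F (a v)) ^ n v) = 0 := by
  rw [mrs_ord_prod_zpow v T _ n fun i hi => h.sub_ne (hT i hi) (ha i hi)]
  obtain ⟨b, -, hb, -⟩ := h.onezero v hv
  refine Finset.sum_eq_zero fun i hi => ?_
  have hne : b ≠ a i := by
    intro e
    apply hvT
    have h' := ha i hi
    rw [← e] at h'
    rw [← h.sep (hT i hi) hv h' hb]
    exact hi
  rw [(mrs_ord_sub_of_ne hb hne).2, mul_zero]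

/-- the local equation is a unit of `V` with `ord_Q red q = Σ n_v`. -/
theorem mrsU_q (T : Finset (Place K F)) (hT : ∀ v ∈ T, cen v) (n : Place K F → ℤ)
    (a : Place K F → K) (ha : ∀ v ∈ T, GrdVal v t (a v)) :
    MrsU V red Q (∏ v ∈ T, (t - algebraMap K F (a v)) ^ n v) (∑ v ∈ T, n v) := by
  refine mrsU_prod T _ n fun v hv => ?_
  have h1 := mrsU_zpow (h.mrsU_sub (h.val_mem (hT v hv) (ha v hv))) (n v)
  rwa [mul_one] at h1

end MrsdDisc

/-- **(FACTOR) at a smooth point** : `g := f q⁻¹` is a unit of `V` without zeros and poles on the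
disc, with `ord_Q red g = 0`. -/
theorem mrsd_factor (h : MrsdDisc A V red Q cen t) (f : F) (hf : f ≠ 0) (hU : TtalIsU V f)
    (T : Finset (Place K F)) (hT : ∀ v ∈ T, cen v)
    (hsupp : ∀ v, cen v → v.ord f ≠ 0 → v ∈ T)
    (a : Place K F → K) (ha : ∀ v ∈ T, GrdVal v t (a v)) :
    (∀ v, cen v → v.ord (f * (∏ v ∈ T, (t - algebraMap K F (a v)) ^ (v.ord f))⁻¹) = 0) ∧
      MrsU V red Q (f * (∏ v ∈ T, (t - algebraMap K F (a v)) ^ (v.ord f))⁻¹) 0 ∧
      Q.ord (red ⟨f, hU.1⟩) = ∑ v ∈ T, v.ord f := by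
  set q : F := ∏ v ∈ T, (t - algebraMap K F (a v)) ^ (v.ord f) with hq
  have hq0 : q ≠ 0 := h.q_ne T hT _ a ha
  have hUf : MrsU V red Q f (Q.ord (red ⟨f, hU.1⟩)) := ⟨hf, hU, rfl⟩
  have hg := mrsU_mul hUf (mrsU_inv (h.mrsU_q T hT (fun v => v.ord f) a ha))
  have hgcen : ∀ v, cen v → v.ord (f * q⁻¹) = 0 := by
    intro v hv
    rw [v.ord_mul hf (inv_ne_zero hq0), v.ord_inv]
    by_cases hvT : v ∈ T
    · rw [h.q_ord_mem T hT (fun v => v.ord f) a ha hvT]; ring
    · rw [h.q_ord_not_mem T hT (fun v => v.ord f) a ha hv hvT]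
      have : v.ord f = 0 := by
        by_contra h0
        exact hvT (hsupp v hv h0)
      rw [this]; ring
  obtain ⟨hg0, hgU, hgord⟩ := hg
  -- `red g` and `red g⁻¹` are regular at `Q`
  have hreg1 : red ⟨f * q⁻¹, hgU.1⟩ ∈ Q.toValuationSubring :=
    h.reg _ hgU.1 fun R hR => PlaceOrd.mem_of_ord_nonneg R (by rw [hgcen R hR])
  have hreg2 : red ⟨(f * q⁻¹)⁻¹, hgU.2⟩ ∈ Q.toValuationSubring :=
    h.reg _ hgU.2 fun R hR =>
      PlaceOrd.mem_of_ord_nonneg R (by rw [Place.ord_inv, hgcen R hR]; rfl)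
  rw [mrs_red_inv red hgU hg0] at hreg2
  have hz : Q.ord (red ⟨f * q⁻¹, hgU.1⟩) = 0 :=
    (PlaceOrd.ord_eq_zero_iff Q (mrs_red_ne red hgU hg0)).2 ⟨hreg1, hreg2⟩
  refine ⟨hgcen, ⟨hg0, hgU, hz⟩, ?_⟩
  rw [hz] at hgord
  omega

/-- **(DISC) the disc formula** : `ord_Q red f = Σ_{v ∈ T} ord_v f` for a unit `f ≠ 0` of `V`. -/
theorem mrsd_disc (h : MrsdDisc A V red Q cen t) (f : F) (hf : f ≠ 0) (hU : TtalIsU V f)
    (T : Finset (Place K F)) (hT : ∀ v ∈ T, cen v)
    (hsupp : ∀ v, cen v → v.ord f ≠ 0 → v ∈ T) :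
    Q.ord (red ⟨f, hU.1⟩) = ∑ v ∈ T, v.ord f := by
  classical
  have hex : ∀ v, cen v → ∃ a : K, GrdVal v t a := fun v hv => by
    obtain ⟨c, -, hc, -⟩ := h.onezero v hv
    exact ⟨c, hc⟩
  exact (mrsd_factor h f hf hU T hT hsupp (fun v => if hv : cen v then (hex v hv).choose else 0)
    fun v hv => by
      rw [dif_pos (hT v hv)]
      exact (hex v (hT v hv)).choose_spec).2.2

end Fermat.Agent.MR
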