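import Mathlib
import Fermat.Agent.MR.Slope.Disc
import Fermat.Agent.MR.Slope.Inst
import Fermat.Agent.MR.M.Spec

/-!
# Program MR (S44), block `mrs` : PLUG of the disc formula into block `mrm` (`MrmDisc`)

Owner: helper29.  Namespace `Fermat.Agent.MR`, prefix `mrsd`.

* `mrsd_mrmDisc` : **`MrmDisc M 𝔸 hpM h𝔸 node disc`** (helper26's literal, `MR/M/Spec.lean`) from, at
  every `Q ∉ node` : the `V₁`-ONLY regularity at `Q` (helper12's `mrr_regOfValSpec` output /
  `MrrModel.reg₁`) and a one-zero coordinate `t` on `disc Q` (helper19's `MrnDisc₁Spec` /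
  helper23's count), `disc Q = {R | ttrglCen₁ … Q R}` or any other family of sets.
-/

set_option autoImplicit false
set_option linter.unusedSectionVars false
set_option linter.unusedVariables false

noncomputable section

namespace Fermat.Agent.MR

open Polynomial ModularCurve AlgebraicCurve IsLocalRing IntermediateField
  Fermat.Agent.G Fermat.Agent.S18 Fermat.Agent.S24 Fermat.Agent.FF Fermat.Agent.TT

local notation "Qb" => AlgebraicClosure ℚ

variable (M : ℕ) [NeZero M] {p : ℕ} [Fact p.Prime] [NeZero p]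
variable (A : ValuationSubring Qb) (hpM : ¬ p ∣ M) (hA : A.LiesOverPrime p)

/-- **`MrmDisc` from (LOC-REG, `V₁`-only) + (ONE-ZERO) at every non-node closed point.** -/
theorem mrsd_mrmDisc (node : Set (Place (ResidueField A) (MrmFk M A)))
    (disc : Place (ResidueField A) (MrmFk M A) →
      Set (Place Qb ↥(modularFunctionFieldBar (M * p))))
    (hreg : ∀ Q : Place (ResidueField A) (MrmFk M A), Q ∉ node →
      ∀ (f : ↥(modularFunctionFieldBar (M * p))) (hf : f ∈ ttrV1 M A hpM hA),
        (∀ R, R ∈ disc Q → f ∈ R.toValuationSubring) →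
        ttraRed1 M A hpM hA ⟨f, hf⟩ ∈ Q.toValuationSubring)
    (hcoord : ∀ Q : Place (ResidueField A) (MrmFk M A), Q ∉ node →
      ∃ (t : ↥(modularFunctionFieldBar (M * p))) (ht : t ∈ ttrV1 M A hpM hA),
        Q.ord (ttraRed1 M A hpM hA ⟨t, ht⟩) = 1 ∧
        ∀ R, R ∈ disc Q → ∃ c : Qb, c ∈ A.nonunits ∧ GrdVal R t c ∧
          R.ord (t - algebraMap Qb ↥(modularFunctionFieldBar (M * p)) c) = 1 ∧
          ∀ R', R' ∈ disc Q → R' ≠ R →
            R'.ord (t - algebraMap Qb ↥(modularFunctionFieldBar (M * p)) c) = 0) :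
    MrmDisc M A hpM hA node disc := by
  classical
  intro f hf D hD Q hQ
  rcases eq_or_ne f 0 with rfl | hf0
  · have hD0 : D = 0 := by
      ext P
      rw [hD P, Place.ord_zero]; rfl
    rw [hD0]
    have : (⟨0, hf.1⟩ : ↥(ttrV1 M A hpM hA)) = 0 := rfl
    rw [this, map_zero, Place.ord_zero]
    simp
  obtain ⟨t, ht, htord, hoz⟩ := hcoord Q hQ
  have hM := mrs_model_inst M A hpM hA
  have hdisc : MrsdDisc A (ttrV1 M A hpM hA) (ttraRed1 M A hpM hA) Q (fun R => R ∈ disc Q) t :=
    { max := hM.max₁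
      ker := hM.ker₁
      reg := hreg Q hQ
      t_mem := ht
      t_ord := fun _ => htord
      onezero := hoz }
  have := mrsd_disc hdisc f hf0 hf (D.support.filter (fun P => P ∈ disc Q))
    (fun v hv => (Finset.mem_filter.1 hv).2)
    (fun v hv h => Finset.mem_filter.2 ⟨by rw [Finsupp.mem_support_iff, hD]; exact h, hv⟩)
  rw [this]
  exact Finset.sum_congr rfl fun P _ => (hD P).symm

end Fermat.Agent.MR
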