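import Mathlib
import Fermat.Agent.MR.Slope.PlugDisc
import Fermat.Agent.MR.Node.Spec
import Fermat.Agent.TT.Alpha.Rank

/-!
# Program MR (S44), block `mrs` : the DISC LEAF of `MrmLeafSpec` at the canonical nodes

Owner: helper29.  Namespace `Fermat.Agent.MR`, prefix `mrsd` / `Mrsd`.

* `MrsdSep₁` : (SEP) the literal this file needs from block `mrn` : at every closed point `Q` of
  the first component which is NOT a node there is `e ∈ O2 = V₁ ⊓ V₂`, regular on the residue disc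
  `ttrglCen₁ Q`, vanishing on the second component (`red₂ e = 0`) and not at `Q`
  (`red₁ e (Q) ≠ 0`);
* `mrsd_rank`   : rank one : `e ∈ 𝔪_{V₂}`, `e ≠ 0` ⟹ `∀ f, ∃ m, e^m f ∈ V₂`;
* `mrsd_reg_v1` : **(LOC-REG) in the `V₁`-ONLY form** at every non-node, from `MrnReg₁Spec` (the
  `O2`-form) and `MrsdSep₁`;
* `mrsd_discLeaf` : **`MrmDisc M 𝔸 hpM h𝔸 (Set.range ν₁) (fun Q => {R | ttrglCen₁ … Q R})`**
  (= helper26's `MrmDiscLeaf`, `MR/M/Leaf.lean`, unfolded) from `MrnReg₁Spec`, `MrnDisc₁Spec`,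
  `MrsdSep₁`.
-/

set_option autoImplicit false
set_option linter.unusedSectionVars false
set_option linter.unusedVariables false

noncomputable section

namespace Fermat.Agent.MR

open Polynomial ModularCurve AlgebraicCurve IsLocalRing IntermediateField
  Fermat.Agent.G Fermat.Agent.S18 Fermat.Agent.S24 Fermat.Agent.FF Fermat.Agent.TT

local notation "Qb" => AlgebraicClosure ℚ

variable (M : ℕ) [NeZero M] {p : ℕ} [Fact p.Prime] [NeZero p]
variable (A : ValuationSubring Qb) (hpM : ¬ p ∣ M) (hA : A.LiesOverPrime p)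
variable {τ τ' : LaurentSeries ℤ} (hat : GrdAtlas M A τ τ')

/-- **(SEP)** separating elements at the non-nodes of the first component. -/
def MrsdSep₁ : Prop :=
  ∀ Q : Place (ResidueField A) ↥(modularFunctionFieldFullC (ResidueField A) M),
    (∀ i, ttrkSν₁ M p A hpM hA hat i ≠ Q) →
    ∃ (e : ↥(modularFunctionFieldBar (M * p))) (he : e ∈ ttrglO2 M A hpM hA),
      (∀ v, ttrglCen₁ M A hpM hA hat Q v → e ∈ v.toValuationSubring) ∧
      ttrglRed₂ M A hpM hA ⟨e, he⟩ = 0 ∧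
      ¬ GrdVal Q (ttrglRed₁ M A hpM hA ⟨e, he⟩) 0

/-- rank one : a nonzero element of `𝔪_{V₂}` pushes every function into `V₂`. -/
theorem mrsd_rank (f e : ↥(modularFunctionFieldBar (M * p))) (he0 : e ≠ 0)
    (he : e ∈ (ttraV2 M A hpM hA).nonunits) :
    ∃ m : ℕ, e ^ m * f ∈ ttraV2 M A hpM hA := by
  have hM := mrs_model_inst M A hpM hA
  rcases eq_or_ne f 0 with rfl | hf0
  · exact ⟨0, by rw [mul_zero]; exact zero_mem _⟩
  obtain ⟨cf, hcf0, hUf⟩ := ttra_sc₂ M A hpM hA (ttrvp_tb1' M A hpM hA) f hf0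
  obtain ⟨ce, hce0, hUe⟩ := ttra_sc₂ M A hpM hA (ttrvp_tb1' M A hpM hA) e he0
  have hceF : algebraMap Qb ↥(modularFunctionFieldBar (M * p)) ce ≠ 0 := by simpa using hce0
  have hcfF : algebraMap Qb ↥(modularFunctionFieldBar (M * p)) cf ≠ 0 := by simpa using hcf0
  -- `ce⁻¹ ∈ 𝔪_A`
  have hce : ce⁻¹ ∈ A.nonunits := by
    by_contra hn
    have h1 : ce ∈ A := by
      rw [ValuationSubring.mem_nonunits_iff, not_lt, map_inv₀] at hn
      rw [← A.valuation_le_one_iff]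
      have hv0 : A.valuation ce ≠ 0 := (Valuation.ne_zero_iff _).2 hce0
      exact (one_le_inv₀ (zero_lt_iff.2 hv0)).1 hn
    have h2 := mrs_mul_nonunits (hM.const₂ ce h1) he
    exact mrs_not_nonunits_of_isU hUe (mul_ne_zero hceF he0) h2
  obtain ⟨m0, hm0⟩ := ttal_rank_lt A (Fact.out : p.Prime) hA ttal_isAlgebraic_int_qbar cf⁻¹
    (inv_ne_zero hce0) hce
  have hmem : cf⁻¹ * ce⁻¹ ^ m0 ∈ A := by
    rw [← A.valuation_le_one_iff, map_mul, map_pow]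
    exact le_of_lt (hm0 m0 le_rfl)
  refine ⟨m0, ?_⟩
  have e1 : e ^ m0 * f =
      (algebraMap Qb ↥(modularFunctionFieldBar (M * p)) ce * e) ^ m0 *
        (algebraMap Qb ↥(modularFunctionFieldBar (M * p)) cf * f) *
        algebraMap Qb ↥(modularFunctionFieldBar (M * p)) (cf⁻¹ * ce⁻¹ ^ m0) := by
    rw [map_mul, map_pow, map_inv₀, map_inv₀, mul_pow, inv_pow]
    have hp0 : (algebraMap Qb ↥(modularFunctionFieldBar (M * p)) ce) ^ m0 ≠ 0 :=
      pow_ne_zero _ hceF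
    field_simp
  rw [e1]
  exact (ttraV2 M A hpM hA).mul_mem _ _
    ((ttraV2 M A hpM hA).mul_mem _ _ (pow_mem hUe.1 m0) hUf.1) (hM.const₂ _ hmem)

/-- **(LOC-REG), `V₁`-ONLY form, at every non-node of the first component.** -/
theorem mrsd_reg_v1 (hReg : MrnReg₁Spec M A hpM hA hat) (hSep : MrsdSep₁ M A hpM hA hat)
    (Q : Place (ResidueField A) ↥(modularFunctionFieldFullC (ResidueField A) M))
    (hQ : ∀ i, ttrkSν₁ M p A hpM hA hat i ≠ Q)
    (f : ↥(modularFunctionFieldBar (M * p))) (hf : f ∈ ttrV1 M A hpM hA)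
    (hreg : ∀ R, ttrglCen₁ M A hpM hA hat Q R → f ∈ R.toValuationSubring) :
    ttraRed1 M A hpM hA ⟨f, hf⟩ ∈ Q.toValuationSubring := by
  have hM := mrs_model_inst M A hpM hA
  obtain ⟨e, he, hereg, he₂, he₁⟩ := hSep Q hQ
  -- `e ≠ 0`, `e ∈ 𝔪_{V₂}`, `red₁ e` a unit at `Q`
  obtain ⟨ce, hce, -⟩ := hReg Q e he hereg
  have hce0 : ce ≠ 0 := by
    rintro rfl
    exact he₁ hce
  obtain ⟨hre0, hreord⟩ := mrs_ord_of_val Q hce hce0
  have he0 : e ≠ 0 := by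
    rintro rfl
    exact hre0 (map_zero (ttrglRed₁ M A hpM hA))
  have heV₂ : e ∈ (ttraV2 M A hpM hA).nonunits := (hM.ker₂ ⟨e, he.2⟩).1 he₂
  have heinv : (ttrglRed₁ M A hpM hA ⟨e, he⟩)⁻¹ ∈ Q.toValuationSubring :=
    ((PlaceOrd.ord_eq_zero_iff Q hre0).1 hreord).2
  obtain ⟨m, hm⟩ := mrsd_rank M A hpM hA f e he0 heV₂
  have hx : e ^ m * f ∈ ttrglO2 M A hpM hA :=
    ⟨(ttrV1 M A hpM hA).mul_mem _ _ (pow_mem he.1 m) hf, hm⟩
  obtain ⟨cx, hcx, -⟩ := hReg Q (e ^ m * f) hx fun v hv =>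
    v.toValuationSubring.mul_mem _ _ (pow_mem (hereg v hv) m) (hreg v hv)
  have hxmem : ttraRed1 M A hpM hA ⟨e ^ m * f, hx.1⟩ ∈ Q.toValuationSubring :=
    grdg_val_mem Q hcx
  have hre0' : ttraRed1 M A hpM hA ⟨e, he.1⟩ ≠ 0 := hre0
  have heinv' : (ttraRed1 M A hpM hA ⟨e, he.1⟩)⁻¹ ∈ Q.toValuationSubring := heinv
  have e1 : ttraRed1 M A hpM hA ⟨e ^ m * f, hx.1⟩ =
      (ttraRed1 M A hpM hA ⟨e, he.1⟩) ^ m * ttraRed1 M A hpM hA ⟨f, hf⟩ := by
    rw [← map_pow, ← map_mul]; rfl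
  rw [e1] at hxmem
  have e2 : ttraRed1 M A hpM hA ⟨f, hf⟩ =
      ((ttraRed1 M A hpM hA ⟨e, he.1⟩)⁻¹) ^ m *
        ((ttraRed1 M A hpM hA ⟨e, he.1⟩) ^ m * ttraRed1 M A hpM hA ⟨f, hf⟩) := by
    rw [← mul_assoc, ← mul_pow, inv_mul_cancel₀ hre0', one_pow, one_mul]
  rw [e2]
  exact Q.toValuationSubring.mul_mem _ _ (pow_mem heinv' m) hxmem

/-- **THE DISC LEAF** : `MrmDisc` at `node = Set.range ν₁`, `disc Q = {R | ttrglCen₁ … Q R}`. -/
theorem mrsd_discLeaf (hReg : MrnReg₁Spec M A hpM hA hat) (hDisc : MrnDisc₁Spec M A hpM hA hat)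
    (hSep : MrsdSep₁ M A hpM hA hat) :
    MrmDisc M A hpM hA (Set.range (ttrkSν₁ M p A hpM hA hat))
      (fun Q => {R | ttrglCen₁ M A hpM hA hat Q R}) := by
  refine mrsd_mrmDisc M A hpM hA _ _ (fun Q hQ f hf hreg => ?_) (fun Q hQ => ?_)
  · exact mrsd_reg_v1 M A hpM hA hat hReg hSep Q (fun i h => hQ ⟨i, h⟩) f hf hreg
  · obtain ⟨t, ht, -, htord, hoz⟩ := hDisc Q (fun i h => hQ ⟨i, h⟩)
    exact ⟨t, ht.1, htord, hoz⟩

end Fermat.Agent.MR
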