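/-
PROGRAM MR (S44), block `mrs`, the RATIONALITY corollaries (owner helper28, prefix `mrsr`).

Setting of `MR/Slope/Spec.lean` (helper29): `u` the germ coordinate at a node, `T` a finite set of
places of the annulus, `a v = u(v)` (`GrdVal v u (a v)`), `n v` multiplicities, local equation
`q = ∏_{v ∈ T} (u - a v) ^ n v`, constant `c = ∏_{v ∈ T} (a v) ^ n v`.

* `mrsr_val_eq`       : `a (g • v) = baseAut g (a v)` when `g • u = u`;
* `mrsr_localEq_fixed`: if a semilinear automorphism `g` fixes `u`, stabilises `T` and preserves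
  `n` on `T`, then `g • q = q` (so `q` lies in the field of `L`-rational functions);
* `mrsr_const_fixed`  : under the same hypotheses `baseAut g c = c` (so `c ∈ L`);
* `mrsr_zpow_inj`     : `x ^ a = x ^ b → a = b` for `0 < x < 1` in a linearly ordered commutative
  group with zero (no torsion in the value group);
* `mrsr_w1_arith`     : **the arithmetic of (W1)** : from the multiplicative slope identity of
  `MrsSlopeSpec` with `val c₁ = val ϖ ^ (-F₁)`, `val c₂ = val ϖ ^ (-F₂)`,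
  `val κ = val ϖ ^ (p * ((p - 1) * e))`, `∏ val (a v) ^ (p * D v) = val ϖ ^ (p * δ)`:
  `F₂ - F₁ = p * ((m₁ - p * ∑ D) * ((p - 1) * e) + δ)`, hence
  `p ∣ F₂ - F₁` and `(p : ℤ) ∣ e * m₁ - δ + (F₂ - F₁) / p`.
-/
import Mathlib
import Fermat.Agent.G.Red.KRat

set_option autoImplicit false
set_option linter.unusedSectionVars false
set_option linter.unusedVariables false

noncomputable section

namespace Fermat.Agent.MR

open AlgebraicCurve Fermat.Agent.G

section Fixed

variable {K F : Type*} [Field K] [Field F] [Algebra K F]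

/-- the value of a `g`-fixed function at `g • v` is the conjugate of its value at `v` -/
theorem mrsr_val_eq (g : SemilinearAut K F) (u : F) (hu : g • u = u) (v : Place K F) {a b : K}
    (ha : GrdVal v u a) (hb : GrdVal (g • v) u b) : b = SemilinearAut.baseAut g a := by
  have h1 := grdkr_val_smul g v ha
  rw [hu] at h1
  exact grdg_val_unique (g • v) hb h1

/-- `g` permutes a finite set it maps into itself -/
theorem mrsr_image_eq [DecidableEq (Place K F)] (g : SemilinearAut K F) (T : Finset (Place K F))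
    (hT : ∀ v ∈ T, g • v ∈ T) : T.image (fun v => g • v) = T := by
  apply Finset.eq_of_subset_of_card_le
  · intro w hw
    obtain ⟨v, hv, rfl⟩ := Finset.mem_image.1 hw
    exact hT v hv
  · rw [Finset.card_image_of_injective _ (MulAction.injective g)]

/-- **the local equation of a Galois-stable divisor on the annulus is Galois-fixed.** -/
theorem mrsr_localEq_fixed (g : SemilinearAut K F) (u : F) (hu : g • u = u)
    (T : Finset (Place K F)) (hT : ∀ v ∈ T, g • v ∈ T)
    (n : Place K F → ℤ) (hn : ∀ v ∈ T, n (g • v) = n v)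
    (a : Place K F → K) (ha : ∀ v ∈ T, GrdVal v u (a v)) :
    g • (∏ v ∈ T, (u - algebraMap K F (a v)) ^ n v) =
      ∏ v ∈ T, (u - algebraMap K F (a v)) ^ n v := by
  classical
  let φ : F →+* F := MulSemiringAction.toRingHom (SemilinearAut K F) F g
  have hφ : ∀ x : F, g • x = φ x := fun x => rfl
  rw [hφ, map_prod]
  have h1 : ∀ v ∈ T, φ ((u - algebraMap K F (a v)) ^ n v) =
      (u - algebraMap K F (a (g • v))) ^ n (g • v) := by
    intro v hv
    rw [map_zpow₀, hn v hv, ← hφ, smul_sub, hu, SemilinearAut.smul_algebraMap,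
      mrsr_val_eq g u hu v (ha v hv) (ha _ (hT v hv))]
  rw [Finset.prod_congr rfl h1]
  conv_rhs => rw [← mrsr_image_eq g T hT]
  rw [Finset.prod_image (fun x _ y _ h => MulAction.injective g h)]

/-- **the constant `∏ (a v) ^ n v` of a Galois-stable divisor on the annulus is Galois-fixed.** -/
theorem mrsr_const_fixed (g : SemilinearAut K F) (u : F) (hu : g • u = u)
    (T : Finset (Place K F)) (hT : ∀ v ∈ T, g • v ∈ T)
    (n : Place K F → ℤ) (hn : ∀ v ∈ T, n (g • v) = n v)
    (a : Place K F → K) (ha : ∀ v ∈ T, GrdVal v u (a v)) :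
    SemilinearAut.baseAut g (∏ v ∈ T, (a v) ^ n v) = ∏ v ∈ T, (a v) ^ n v := by
  classical
  rw [map_prod]
  have h1 : ∀ v ∈ T, SemilinearAut.baseAut g ((a v) ^ n v) = (a (g • v)) ^ n (g • v) := by
    intro v hv
    rw [map_zpow₀, hn v hv, mrsr_val_eq g u hu v (ha v hv) (ha _ (hT v hv))]
  rw [Finset.prod_congr rfl h1]
  conv_rhs => rw [← mrsr_image_eq g T hT]
  rw [Finset.prod_image (fun x _ y _ h => MulAction.injective g h)]

end Fixed

section Arith

variable {Γ₀ : Type*} [LinearOrderedCommGroupWithZero Γ₀]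

/-- no torsion in the value group: `x ^ a = x ^ b → a = b` for `0 < x < 1`. -/
theorem mrsr_zpow_inj {x : Γ₀} (hx0 : x ≠ 0) (hx1 : x < 1) {a b : ℤ} (h : x ^ a = x ^ b) :
    a = b := by
  by_contra hne
  have key : ∀ m : ℤ, 0 < m → x ^ m < 1 := by
    intro m hm
    obtain ⟨k, rfl⟩ := Int.eq_ofNat_of_zero_le hm.le
    rw [zpow_natCast]
    exact pow_lt_one₀ zero_le hx1 (by omega)
  rcases lt_or_gt_of_ne hne with hlt | hgt
  · have h2 : x ^ (b - a) = 1 := by
      rw [zpow_sub₀ hx0, h, div_self (zpow_ne_zero _ hx0)]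
    exact absurd h2 (key (b - a) (by omega)).ne
  · have h2 : x ^ (a - b) = 1 := by
      rw [zpow_sub₀ hx0, h, div_self (zpow_ne_zero _ hx0)]
    exact absurd h2 (key (a - b) (by omega)).ne

/-- **the arithmetic of (W1).**  `x = val ϖ`; the multiplicative slope identity
`val c₁ / val c₂ = val κ ^ (m₁ - ∑ n_v) * ∏ val (a v) ^ n_v` with `val c_i = x ^ (-F_i)`,
`val κ = x ^ (p * ((p - 1) * e))`, `∑ n_v = p * d`, `∏ val (a v) ^ n_v = x ^ (p * δ)` gives
`F₂ - F₁ = p * ((m₁ - p * d) * ((p - 1) * e) + δ)` and the congruence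
`e * m₁ ≡ δ - (F₂ - F₁) / p (mod p)`. -/
theorem mrsr_w1_arith {x : Γ₀} (hx0 : x ≠ 0) (hx1 : x < 1) (p e m₁ d δ F₁ F₂ : ℤ)
    (vc₁ vc₂ vκ vP : Γ₀) (hc₁ : vc₁ = x ^ (-F₁)) (hc₂ : vc₂ = x ^ (-F₂))
    (hκ : vκ = x ^ (p * ((p - 1) * e))) (hP : vP = x ^ (p * δ))
    (hslope : vc₁ / vc₂ = vκ ^ (m₁ - p * d) * vP) :
    F₂ - F₁ = p * ((m₁ - p * d) * ((p - 1) * e) + δ) ∧
      ((p : ℤ) ∣ e * m₁ - δ + ((m₁ - p * d) * ((p - 1) * e) + δ)) := by
  have h1 : x ^ (F₂ - F₁) = x ^ (p * ((m₁ - p * d) * ((p - 1) * e) + δ)) := by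
    have e1 : vc₁ / vc₂ = x ^ (F₂ - F₁) := by
      rw [hc₁, hc₂, ← zpow_sub₀ hx0]
      congr 1
      ring
    have e2 : vκ ^ (m₁ - p * d) * vP = x ^ (p * ((m₁ - p * d) * ((p - 1) * e) + δ)) := by
      rw [hκ, hP, ← zpow_mul, ← zpow_add₀ hx0]
      congr 1
      ring
    rw [← e1, hslope, e2]
  refine ⟨mrsr_zpow_inj hx0 hx1 h1, ?_⟩
  refine ⟨m₁ * e - d * ((p - 1) * e), ?_⟩
  ring

end Arith

end Fermat.Agent.MR
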