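/-
PROGRAM MR (S44), block `mrs`, the CONCRETE rationality clause (owner helper28, prefix `mrsr`).

Level `M p`, `F = F_ℚ̄(M p)`, `I = ffI 𝔸` acting through `ρ = ffigRho (M p) 𝔸`.

* `mrsr_alpha_fixed` : the chart coordinate `α υ_ℚ̄` is fixed by `I`;
* `mrsr_grdB_smul`   : the chart ring `grdB (M p) 𝔸 u` is `I`-stable when `u` is `I`-fixed;
* `mrsr_red1_smul`, `mrsr_red2_smul` : `red_j (σ • x) = red_j x` on `V_j` for `σ ∈ I`;
* `mrsr_cenS_smul`   : **the annulus of a node is `I`-stable** : `ttruCenS … i v → ttruCenS … i (ρ σ • v)`;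
* `mrsr_cen1_smul`, `mrsr_cen2_smul` : the discs `ttrglCen_j … Q` are `I`-stable;
* `mrsr_rat_prod_gen`, `mrsr_rat_prod₁`, `mrsr_rat_prod₂` : the `MrnRat` clause on any `I`-stable set / on the discs;
* `mrsr_rat_prod`    : **the `MrnRat` clause** : `u` an `I`-invariant function, `D` an `H`-stable
  divisor (`MrnRatDiv`), `c R = u(R)` on `supp D ∩ annulus` ⟹ the local equation
  `∏_{R ∈ supp D ∩ annulus} (u - c R)^{D R}` is `H`-rational (`MrnRat`) and its constant
  `∏ (c R)^{D R}` is fixed by `H`.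
-/
import Mathlib
import Fermat.Agent.MR.Slope.Rat
import Fermat.Agent.MR.Node.Spec
import Fermat.Agent.TT.Red2.V2Gal

set_option autoImplicit false
set_option linter.unusedSectionVars false
set_option linter.unusedVariables false
set_option linter.style.haveILetI false

noncomputable section

namespace Fermat.Agent.MR

open Polynomial ModularCurve AlgebraicCurve IsLocalRing
  Fermat.Agent.G Fermat.Agent.S18 Fermat.Agent.S24 Fermat.Agent.FF Fermat.Agent.TT

open scoped Classical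

local notation "Qb" => AlgebraicClosure ℚ

variable (M : ℕ) [NeZero M] {p : ℕ} [Fact p.Prime] [NeZero p]
variable (A : ValuationSubring Qb) (hpM : ¬ p ∣ M) (hA : A.LiesOverPrime p)
variable {τ τ' : LaurentSeries ℤ} (hat : GrdAtlas M A τ τ')

/-- the chart coordinate `α υ_ℚ̄` is fixed by inertia. -/
theorem mrsr_alpha_fixed {υ : LaurentSeries ℤ} (hυ : GrdSerMem M υ) (σ : ↥(ffI A)) :
    ffigRho (M * p) A σ • heckeAlphaBar Qb M p (grdQ M hυ) =
      heckeAlphaBar Qb M p (grdQ M hυ) := by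
  have h := gasmhg_alpha_intertwines M p (σ : FfGal) (grdQ M hυ)
  rw [ffig_smul_grdQ M hυ (σ : FfGal)] at h
  exact h

/-- the restriction of an inertial `σ` to `𝔸`, as a ring endomorphism. -/
theorem mrsr_comp_eq {N : ℕ} [NeZero N] (σ : ↥(ffI A)) (u : modularFunctionFieldBar N)
    (hu : ffigRho N A σ • u = u) :
    (MulSemiringAction.toRingHom _ (modularFunctionFieldBar N) (ffigRho N A σ)).comp
        (Polynomial.eval₂RingHom (grdInclA N A) u) =
      (Polynomial.eval₂RingHom (grdInclA N A) u).comp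
        (Polynomial.mapRingHom
          (ffipResA (Fermat.Agent.S05.isInertial_of_mem_inertiaSubgroupIn A σ.1 σ.2))) := by
  apply Polynomial.ringHom_ext
  · intro a
    simp only [RingHom.comp_apply, Polynomial.coe_eval₂RingHom, Polynomial.eval₂_C,
      Polynomial.coe_mapRingHom, Polynomial.map_C]
    show ffigRho N A σ • (algebraMap Qb (modularFunctionFieldBar N) (a : Qb)) = _
    rw [SemilinearAut.smul_algebraMap]
    rfl
  · simp only [RingHom.comp_apply, Polynomial.coe_eval₂RingHom, Polynomial.eval₂_X,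
      Polynomial.coe_mapRingHom, Polynomial.map_X]
    exact hu

/-- **the chart ring is stable under inertia** when the chart coordinate is fixed. -/
theorem mrsr_grdB_smul {N : ℕ} [NeZero N] (σ : ↥(ffI A)) (u x : modularFunctionFieldBar N)
    (hu : ffigRho N A σ • u = u) (hx : x ∈ grdB N A u) : ffigRho N A σ • x ∈ grdB N A u := by
  obtain ⟨P, hP, hP0⟩ := hx
  refine ⟨P.map (Polynomial.mapRingHom
    (ffipResA (Fermat.Agent.S05.isInertial_of_mem_inertiaSubgroupIn A σ.1 σ.2))), hP.map _, ?_⟩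
  rw [Polynomial.eval₂_map, ← mrsr_comp_eq A σ u hu]
  have h := Polynomial.hom_eval₂ P (Polynomial.eval₂RingHom (grdInclA N A) u)
    (MulSemiringAction.toRingHom _ (modularFunctionFieldBar N) (ffigRho N A σ)) x
  rw [hP0, map_zero] at h
  exact h.symm

/-- inertia stabilises `V₁`. -/
theorem mrsr_smul_mem_V1 (σ : ↥(ffI A)) {x : modularFunctionFieldBar (M * p)}
    (hx : x ∈ ttrV1 M A hpM hA) : ffigRho (M * p) A σ • x ∈ ttrV1 M A hpM hA :=
  ffip_smul_mem_grdO (M * p)
    (Fermat.Agent.S05.isInertial_of_mem_inertiaSubgroupIn A σ.1 σ.2) hx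

/-- `red₁ (σ • x) = red₁ x` for `σ ∈ I`. -/
theorem mrsr_red1_smul (σ : ↥(ffI A)) (x : modularFunctionFieldBar (M * p))
    (hx : x ∈ ttrV1 M A hpM hA) :
    ttraRed1 M A hpM hA ⟨ffigRho (M * p) A σ • x, mrsr_smul_mem_V1 M A hpM hA σ hx⟩ =
      ttraRed1 M A hpM hA ⟨x, hx⟩ := by
  have hσ := Fermat.Agent.S05.isInertial_of_mem_inertiaSubgroupIn A σ.1 σ.2
  show ttrResEq M A hA (grdRed (M * p) A _) = ttrResEq M A hA (grdRed (M * p) A _)
  exact congrArg _ (ffip_red_smul (M * p) hσ ⟨x, hx⟩)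

/-- **the annulus of a node is stable under inertia.** -/
theorem mrsr_cenS_smul (σ : ↥(ffI A)) (i : ttrkS M p A hpM hA hat)
    (v : Place Qb ↥(modularFunctionFieldBar (M * p)))
    (hv : ttruCenS M A hpM hA hat i v) :
    ttruCenS M A hpM hA hat i (ffigRho (M * p) A σ • v) := by
  have hσ := Fermat.Agent.S05.isInertial_of_mem_inertiaSubgroupIn A σ.1 σ.2
  have hfix := mrsr_alpha_fixed M (p := p) A hat.c.mem
  obtain ⟨⟨a, ha⟩, h2⟩ := hv
  refine ⟨⟨⟨_, ffig_base_mem (M * p) A σ a a.2⟩, ?_⟩, ?_⟩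
  · have h := grdkr_val_smul (ffigRho (M * p) A σ) v ha
    rw [hfix σ] at h
    exact h
  · intro b hb
    -- `b' = σ⁻¹ • b ∈ B`
    have hb' : ffigRho (M * p) A σ⁻¹ • (b : ↥(modularFunctionFieldBar (M * p))) ∈
        grdB (M * p) A (heckeAlphaBar Qb M p (grdQ M hat.c.mem)) :=
      mrsr_grdB_smul A σ⁻¹ _ _ (hfix σ⁻¹) b.2
    have hbO := ttru_le_inst M A hpM hA hat.c b.2
    have hred : ttalRedO₁ (V₂ := ttraV2 M A hpM hA) (ttraRed1 M A hpM hA)
        ⟨_, ttru_le_inst M A hpM hA hat.c hb'⟩ =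
        ttalRedO₁ (V₂ := ttraV2 M A hpM hA) (ttraRed1 M A hpM hA)
          ⟨b, ttru_le_inst M A hpM hA hat.c b.2⟩ :=
      mrsr_red1_smul M A hpM hA σ⁻¹ b hbO.1
    obtain ⟨a', ha'm, ha'⟩ := h2 ⟨_, hb'⟩ (by rw [hred]; exact hb)
    have ha'' : GrdVal v (ffigRho (M * p) A σ⁻¹ • (b : ↥(modularFunctionFieldBar (M * p))))
        (a' : Qb) := ha'
    have h := grdkr_val_smul (ffigRho (M * p) A σ) v ha''
    rw [map_inv, smul_inv_smul] at h
    refine ⟨⟨_, ffig_base_mem (M * p) A σ a' a'.2⟩, ?_, h⟩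
    have h3 := ffig_base_res (M * p) A σ a'
    rw [← residue_eq_zero_iff] at ha'm ⊢
    rw [h3]
    exact ha'm

/-- an `H`-stable divisor has the same coefficient at `v` and at `σ • v`, `σ ∈ H`. -/
theorem mrsr_ratDiv_apply (H : Subgroup ↥(ffI A))
    (D : Divisor Qb ↥(modularFunctionFieldBar (M * p))) (hD : MrnRatDiv M A H D)
    (σ : ↥(ffI A)) (hσ : σ ∈ H) (v : Place Qb ↥(modularFunctionFieldBar (M * p))) :
    D (ffigRho (M * p) A σ • v) = D v := by
  have h := SemilinearAut.divisor_smul_apply_smul (ffigRho (M * p) A σ) D v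
  rw [hD σ hσ] at h
  exact h

/-- **THE `MrnRat` CLAUSE at a node.**  `u` an `I`-invariant function, `D` an `H`-stable divisor,
`c R = u(R)` at the places of `supp D` in the annulus of the node `i`.  Then the local equation
`∏ (u - c R)^{D R}` is `H`-rational and the constant `∏ (c R)^{D R}` is fixed by `H`. -/
theorem mrsr_rat_prod (i : ttrkS M p A hpM hA hat) (u : ↥(modularFunctionFieldBar (M * p)))
    (hu : ∀ σ : ↥(ffI A), ffigRho (M * p) A σ • u = u)
    (H : Subgroup ↥(ffI A)) (D : Divisor Qb ↥(modularFunctionFieldBar (M * p)))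
    (hD : MrnRatDiv M A H D)
    (c : Place Qb ↥(modularFunctionFieldBar (M * p)) → Qb)
    (hc : ∀ R, ttruCenS M A hpM hA hat i R → D R ≠ 0 → GrdVal R u (c R)) :
    MrnRat M A H (∏ R ∈ D.support.filter (fun R => ttruCenS M A hpM hA hat i R),
        (u - algebraMap Qb ↥(modularFunctionFieldBar (M * p)) (c R)) ^ D R) ∧
      ∀ σ ∈ H, (σ : Qb ≃ₐ[ℚ] Qb)
          (∏ R ∈ D.support.filter (fun R => ttruCenS M A hpM hA hat i R), c R ^ D R) =
        ∏ R ∈ D.support.filter (fun R => ttruCenS M A hpM hA hat i R), c R ^ D R := by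
  have hT : ∀ σ ∈ H, ∀ v ∈ D.support.filter (fun R => ttruCenS M A hpM hA hat i R),
      ffigRho (M * p) A σ • v ∈ D.support.filter (fun R => ttruCenS M A hpM hA hat i R) := by
    intro σ hσ v hv
    rw [Finset.mem_filter, Finsupp.mem_support_iff] at hv ⊢
    exact ⟨by rw [mrsr_ratDiv_apply M A H D hD σ hσ v]; exact hv.1,
      mrsr_cenS_smul M A hpM hA hat σ i v hv.2⟩
  have ha : ∀ v ∈ D.support.filter (fun R => ttruCenS M A hpM hA hat i R),
      GrdVal v u (c v) := by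
    intro v hv
    rw [Finset.mem_filter, Finsupp.mem_support_iff] at hv
    exact hc v hv.2 hv.1
  refine ⟨fun σ hσ => ?_, fun σ hσ => ?_⟩
  · exact mrsr_localEq_fixed (ffigRho (M * p) A σ) u (hu σ) _ (hT σ hσ) (fun v => D v)
      (fun v _ => mrsr_ratDiv_apply M A H D hD σ hσ v) c ha
  · exact mrsr_const_fixed (ffigRho (M * p) A σ) u (hu σ) _ (hT σ hσ) (fun v => D v)
      (fun v _ => mrsr_ratDiv_apply M A H D hD σ hσ v) c ha

/-! ## The smooth discs -/

section Abs

variable {K F : Type*} [Field K] [Field F] [Algebra K F] {A' : ValuationSubring K}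
  {Fk : Type*} [Field Fk] [Algebra (ResidueField A') Fk]

/-- **the places centred at the closed point `𝔫_Q` of a chart are stable under a semilinear
automorphism** fixing the chart coordinate, stabilising `A'`, `𝔪_{A'}`, the chart ring, and
commuting with the reduction. -/
theorem mrsr_cen_smul_abs (O2 B : Subring F) (hBO : B ≤ O2) (red : O2 →+* Fk)
    (Q : Place (ResidueField A') Fk) (u : F) (g : SemilinearAut K F) (hgu : g • u = u)
    (hgA : ∀ a : A', SemilinearAut.baseAut g (a : K) ∈ A')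
    (hgm : ∀ a : A', a ∈ maximalIdeal A' →
      (⟨SemilinearAut.baseAut g (a : K), hgA a⟩ : A') ∈ maximalIdeal A')
    (hB : ∀ b ∈ B, g • b ∈ B) (hB' : ∀ b ∈ B, g⁻¹ • b ∈ B)
    (hred : ∀ (x : F) (hx : x ∈ O2) (hx' : g⁻¹ • x ∈ O2), red ⟨g⁻¹ • x, hx'⟩ = red ⟨x, hx⟩)
    (v : Place K F) (hv : ttruCen A' B u (ttalN O2 B hBO red Q) v) :
    ttruCen A' B u (ttalN O2 B hBO red Q) (g • v) := by
  obtain ⟨⟨a, ha⟩, h2⟩ := hv
  refine ⟨⟨⟨_, hgA a⟩, ?_⟩, ?_⟩
  · have h := grdkr_val_smul g v ha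
    rw [hgu] at h
    exact h
  · intro b hb
    have hb' : (⟨g⁻¹ • (b : F), hB' b b.2⟩ : ↥B) ∈ ttalN O2 B hBO red Q := by
      intro c
      have hmem : g • (c : F) * (b : F) ∈ B := B.mul_mem (hB c c.2) b.2
      have e : ((c * (⟨g⁻¹ • (b : F), hB' b b.2⟩ : ↥B) : ↥B) : F) =
          g⁻¹ • (g • (c : F) * (b : F)) := by
        show (c : F) * g⁻¹ • (b : F) = _
        rw [smul_mul', inv_smul_smul]
      have e' : (⟨((c * (⟨g⁻¹ • (b : F), hB' b b.2⟩ : ↥B) : ↥B) : F), hBO (c * _).2⟩ : O2) =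
          ⟨g⁻¹ • (g • (c : F) * (b : F)), by rw [← e]; exact hBO (c * _).2⟩ :=
        Subtype.ext e
      rw [e', hred _ (hBO hmem)]
      exact hb ⟨g • (c : F), hB c c.2⟩
    obtain ⟨a', ha'm, ha'⟩ := h2 _ hb'
    have ha'' : GrdVal v (g⁻¹ • (b : F)) (a' : K) := ha'
    have h := grdkr_val_smul g v ha''
    rw [smul_inv_smul] at h
    exact ⟨⟨_, hgA a'⟩, hgm a' ha'm, h⟩

end Abs

/-- the chart coordinate `β υ_ℚ̄` is fixed by inertia. -/
theorem mrsr_beta_fixed {υ : LaurentSeries ℤ} (hυ : GrdSerMem M υ) (σ : ↥(ffI A)) :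
    ffigRho (M * p) A σ • heckeBetaBar Qb M p (grdQ M hυ) =
      heckeBetaBar Qb M p (grdQ M hυ) := by
  have h := gasmhg_beta_intertwines M p (σ : FfGal) (grdQ M hυ)
  rw [ffig_smul_grdQ M hυ (σ : FfGal)] at h
  exact h

/-- inertia stabilises `𝔪_𝔸`. -/
theorem mrsr_base_max {N : ℕ} [NeZero N] (σ : ↥(ffI A)) (a : A) (ha : a ∈ maximalIdeal A) :
    (⟨SemilinearAut.baseAut (ffigRho N A σ) (a : Qb), ffig_base_mem N A σ a a.2⟩ : A) ∈
      maximalIdeal A := by
  have h3 := ffig_base_res N A σ a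
  rw [← residue_eq_zero_iff] at ha ⊢
  rw [h3]
  exact ha

/-- inertia stabilises `V₂`. -/
theorem mrsr_smul_mem_V2 (σ : ↥(ffI A)) {x : modularFunctionFieldBar (M * p)}
    (hx : x ∈ ttraV2 M A hpM hA) : ffigRho (M * p) A σ • x ∈ ttraV2 M A hpM hA := by
  show ttrW M hpM (ffigRho (M * p) A σ • x) ∈ ttrV1 M A hpM hA
  have h := ttrw_galois M hpM (σ : FfGal) x
  rw [ttra_rho_smul, ← h]
  exact mrsr_smul_mem_V1 M A hpM hA σ hx

/-- `red₂ (σ • x) = red₂ x` for `σ ∈ I`. -/
theorem mrsr_red2_smul (σ : ↥(ffI A)) (x : modularFunctionFieldBar (M * p))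
    (hx : x ∈ ttraV2 M A hpM hA) :
    ttraRed2 M A hpM hA ⟨ffigRho (M * p) A σ • x, mrsr_smul_mem_V2 M A hpM hA σ hx⟩ =
      ttraRed2 M A hpM hA ⟨x, hx⟩ := by
  have h := ttrw_galois M hpM (σ : FfGal) x
  have hx' : ttrW M hpM x ∈ ttrV1 M A hpM hA := hx
  have h1 := mrsr_red1_smul M A hpM hA σ (ttrW M hpM x) hx'
  show ttraRed1 M A hpM hA ⟨ttrW M hpM (ffigRho (M * p) A σ • x), _⟩ =
    ttraRed1 M A hpM hA ⟨ttrW M hpM x, hx'⟩
  rw [← h1]
  congr 1
  apply Subtype.ext
  show ttrW M hpM (ffigRho (M * p) A σ • x) = ffigRho (M * p) A σ • ttrW M hpM x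
  rw [ttra_rho_smul, ttra_rho_smul, h]

/-- **the disc of a closed point of the first component is stable under inertia** (one chart). -/
theorem mrsr_cenC1_smul {υ : LaurentSeries ℤ} (hc : GrdChart M A υ) (σ : ↥(ffI A))
    (Q : Place (ResidueField A) (modularFunctionFieldFullC (ResidueField A) M))
    (v : Place Qb ↥(modularFunctionFieldBar (M * p)))
    (hv : ttrglCenC₁ M A hpM hA hc Q v) :
    ttrglCenC₁ M A hpM hA hc Q (ffigRho (M * p) A σ • v) := by
  refine mrsr_cen_smul_abs _ _ (ttrgl_le₁ M A hpM hA hc) (ttrglRed₁ M A hpM hA) Q _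
    (ffigRho (M * p) A σ) (mrsr_alpha_fixed M A hc.mem σ)
    (fun a => ffig_base_mem (M * p) A σ a a.2) (fun a ha => mrsr_base_max A σ a ha)
    (fun b hb => mrsr_grdB_smul A σ _ _ (mrsr_alpha_fixed M A hc.mem σ) hb)
    (fun b hb => by
      rw [← map_inv]
      exact mrsr_grdB_smul A σ⁻¹ _ _ (mrsr_alpha_fixed M A hc.mem σ⁻¹) hb)
    (fun x hx hx' => ?_) v hv
  have h := mrsr_red1_smul M A hpM hA σ⁻¹ x hx.1
  have e : (⟨(ffigRho (M * p) A σ)⁻¹ • x, hx'⟩ : ↥(ttrglO2 M A hpM hA)) =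
      ⟨ffigRho (M * p) A σ⁻¹ • x, by rw [map_inv]; exact hx'⟩ := by
    apply Subtype.ext
    show (ffigRho (M * p) A σ)⁻¹ • x = ffigRho (M * p) A σ⁻¹ • x
    rw [map_inv]
  rw [e]
  exact h

/-- **the disc of a closed point of the second component is stable under inertia** (one chart). -/
theorem mrsr_cenC2_smul {υ : LaurentSeries ℤ} (hc : GrdChart M A υ) (σ : ↥(ffI A))
    (Q : Place (ResidueField A) (modularFunctionFieldFullC (ResidueField A) M))
    (v : Place Qb ↥(modularFunctionFieldBar (M * p)))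
    (hv : ttrglCenC₂ M A hpM hA hc Q v) :
    ttrglCenC₂ M A hpM hA hc Q (ffigRho (M * p) A σ • v) := by
  refine mrsr_cen_smul_abs _ _ (ttrgl_le₂ M A hpM hA hc) (ttrglRed₂ M A hpM hA) Q _
    (ffigRho (M * p) A σ) (mrsr_beta_fixed M A hc.mem σ)
    (fun a => ffig_base_mem (M * p) A σ a a.2) (fun a ha => mrsr_base_max A σ a ha)
    (fun b hb => mrsr_grdB_smul A σ _ _ (mrsr_beta_fixed M A hc.mem σ) hb)
    (fun b hb => by
      rw [← map_inv]
      exact mrsr_grdB_smul A σ⁻¹ _ _ (mrsr_beta_fixed M A hc.mem σ⁻¹) hb)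
    (fun x hx hx' => ?_) v hv
  have h := mrsr_red2_smul M A hpM hA σ⁻¹ x hx.2
  have e : (⟨(ffigRho (M * p) A σ)⁻¹ • x, hx'⟩ : ↥(ttrglO2 M A hpM hA)) =
      ⟨ffigRho (M * p) A σ⁻¹ • x, by rw [map_inv]; exact hx'⟩ := by
    apply Subtype.ext
    show (ffigRho (M * p) A σ)⁻¹ • x = ffigRho (M * p) A σ⁻¹ • x
    rw [map_inv]
  rw [e]
  exact h

/-- **the disc of a closed point of the first component is stable under inertia.** -/
theorem mrsr_cen1_smul (σ : ↥(ffI A))
    (Q : Place (ResidueField A) (modularFunctionFieldFullC (ResidueField A) M))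
    (v : Place Qb ↥(modularFunctionFieldBar (M * p)))
    (hv : ttrglCen₁ M A hpM hA hat Q v) :
    ttrglCen₁ M A hpM hA hat Q (ffigRho (M * p) A σ • v) := by
  unfold ttrglCen₁ at hv ⊢
  split_ifs at hv ⊢ with hQ
  · exact mrsr_cenC1_smul M A hpM hA hat.c σ Q v hv
  · exact mrsr_cenC1_smul M A hpM hA hat.c' σ Q v hv

/-- **the disc of a closed point of the second component is stable under inertia.** -/
theorem mrsr_cen2_smul (σ : ↥(ffI A))
    (Q : Place (ResidueField A) (modularFunctionFieldFullC (ResidueField A) M))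
    (v : Place Qb ↥(modularFunctionFieldBar (M * p)))
    (hv : ttrglCen₂ M A hpM hA hat Q v) :
    ttrglCen₂ M A hpM hA hat Q (ffigRho (M * p) A σ • v) := by
  unfold ttrglCen₂ at hv ⊢
  split_ifs at hv ⊢ with hQ
  · exact mrsr_cenC2_smul M A hpM hA hat.c σ Q v hv
  · exact mrsr_cenC2_smul M A hpM hA hat.c' σ Q v hv

/-- the annulus of a node is stable under `(ρ σ)⁻¹` (the form of helper12's `MrrDivSpec`). -/
theorem mrsr_cenS_inv_smul (σ : ↥(ffI A)) (i : ttrkS M p A hpM hA hat)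
    (v : Place Qb ↥(modularFunctionFieldBar (M * p)))
    (hv : ttruCenS M A hpM hA hat i v) :
    ttruCenS M A hpM hA hat i ((ffigRho (M * p) A σ)⁻¹ • v) := by
  rw [← map_inv]
  exact mrsr_cenS_smul M A hpM hA hat σ⁻¹ i v hv

/-- the annulus of a node is stable under inertia, `iff` form. -/
theorem mrsr_cenS_smul_iff (σ : ↥(ffI A)) (i : ttrkS M p A hpM hA hat)
    (v : Place Qb ↥(modularFunctionFieldBar (M * p))) :
    ttruCenS M A hpM hA hat i (ffigRho (M * p) A σ • v) ↔ ttruCenS M A hpM hA hat i v := by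
  refine ⟨fun h => ?_, mrsr_cenS_smul M A hpM hA hat σ i v⟩
  have h' := mrsr_cenS_inv_smul M A hpM hA hat σ i _ h
  rwa [inv_smul_smul] at h'

/-- the disc of a closed point of the first component is stable under `(ρ σ)⁻¹`. -/
theorem mrsr_cen1_inv_smul (σ : ↥(ffI A))
    (Q : Place (ResidueField A) (modularFunctionFieldFullC (ResidueField A) M))
    (v : Place Qb ↥(modularFunctionFieldBar (M * p)))
    (hv : ttrglCen₁ M A hpM hA hat Q v) :
    ttrglCen₁ M A hpM hA hat Q ((ffigRho (M * p) A σ)⁻¹ • v) := by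
  rw [← map_inv]
  exact mrsr_cen1_smul M A hpM hA hat σ⁻¹ Q v hv

/-- the disc of a closed point of the second component is stable under `(ρ σ)⁻¹`. -/
theorem mrsr_cen2_inv_smul (σ : ↥(ffI A))
    (Q : Place (ResidueField A) (modularFunctionFieldFullC (ResidueField A) M))
    (v : Place Qb ↥(modularFunctionFieldBar (M * p)))
    (hv : ttrglCen₂ M A hpM hA hat Q v) :
    ttrglCen₂ M A hpM hA hat Q ((ffigRho (M * p) A σ)⁻¹ • v) := by
  rw [← map_inv]
  exact mrsr_cen2_smul M A hpM hA hat σ⁻¹ Q v hv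

/-- **the `MrnRat` clause for ANY `I`-stable set of places** `cen`. -/
theorem mrsr_rat_prod_gen (cen : Place Qb ↥(modularFunctionFieldBar (M * p)) → Prop)
    (hcen : ∀ (σ : ↥(ffI A)) v, cen v → cen (ffigRho (M * p) A σ • v))
    (u : ↥(modularFunctionFieldBar (M * p)))
    (hu : ∀ σ : ↥(ffI A), ffigRho (M * p) A σ • u = u)
    (H : Subgroup ↥(ffI A)) (D : Divisor Qb ↥(modularFunctionFieldBar (M * p)))
    (hD : MrnRatDiv M A H D)
    (c : Place Qb ↥(modularFunctionFieldBar (M * p)) → Qb)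
    (hc : ∀ R, cen R → D R ≠ 0 → GrdVal R u (c R)) :
    MrnRat M A H (∏ R ∈ D.support.filter (fun R => cen R),
        (u - algebraMap Qb ↥(modularFunctionFieldBar (M * p)) (c R)) ^ D R) ∧
      ∀ σ ∈ H, (σ : Qb ≃ₐ[ℚ] Qb) (∏ R ∈ D.support.filter (fun R => cen R), c R ^ D R) =
        ∏ R ∈ D.support.filter (fun R => cen R), c R ^ D R := by
  have hT : ∀ σ ∈ H, ∀ v ∈ D.support.filter (fun R => cen R),
      ffigRho (M * p) A σ • v ∈ D.support.filter (fun R => cen R) := by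
    intro σ hσ v hv
    rw [Finset.mem_filter, Finsupp.mem_support_iff] at hv ⊢
    exact ⟨by rw [mrsr_ratDiv_apply M A H D hD σ hσ v]; exact hv.1, hcen σ v hv.2⟩
  have ha : ∀ v ∈ D.support.filter (fun R => cen R), GrdVal v u (c v) := by
    intro v hv
    rw [Finset.mem_filter, Finsupp.mem_support_iff] at hv
    exact hc v hv.2 hv.1
  refine ⟨fun σ hσ => ?_, fun σ hσ => ?_⟩
  · exact mrsr_localEq_fixed (ffigRho (M * p) A σ) u (hu σ) _ (hT σ hσ) (fun v => D v)
      (fun v _ => mrsr_ratDiv_apply M A H D hD σ hσ v) c ha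
  · exact mrsr_const_fixed (ffigRho (M * p) A σ) u (hu σ) _ (hT σ hσ) (fun v => D v)
      (fun v _ => mrsr_ratDiv_apply M A H D hD σ hσ v) c ha

/-- **the `MrnRat` clause on the disc of a closed point of the first component** (`t` an
`I`-invariant parameter as in `MrnDisc₁Spec`). -/
theorem mrsr_rat_prod₁
    (Q : Place (ResidueField A) (modularFunctionFieldFullC (ResidueField A) M))
    (t : ↥(modularFunctionFieldBar (M * p)))
    (ht : ∀ σ : ↥(ffI A), ffigRho (M * p) A σ • t = t)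
    (H : Subgroup ↥(ffI A)) (D : Divisor Qb ↥(modularFunctionFieldBar (M * p)))
    (hD : MrnRatDiv M A H D)
    (c : Place Qb ↥(modularFunctionFieldBar (M * p)) → Qb)
    (hc : ∀ R, ttrglCen₁ M A hpM hA hat Q R → D R ≠ 0 → GrdVal R t (c R)) :
    MrnRat M A H (∏ R ∈ D.support.filter (fun R => ttrglCen₁ M A hpM hA hat Q R),
        (t - algebraMap Qb ↥(modularFunctionFieldBar (M * p)) (c R)) ^ D R) ∧
      ∀ σ ∈ H, (σ : Qb ≃ₐ[ℚ] Qb)
          (∏ R ∈ D.support.filter (fun R => ttrglCen₁ M A hpM hA hat Q R), c R ^ D R) =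
        ∏ R ∈ D.support.filter (fun R => ttrglCen₁ M A hpM hA hat Q R), c R ^ D R :=
  mrsr_rat_prod_gen M A _ (fun σ v hv => mrsr_cen1_smul M A hpM hA hat σ Q v hv) t ht H D hD c hc

/-- **the `MrnRat` clause on the disc of a closed point of the second component.** -/
theorem mrsr_rat_prod₂
    (Q : Place (ResidueField A) (modularFunctionFieldFullC (ResidueField A) M))
    (t : ↥(modularFunctionFieldBar (M * p)))
    (ht : ∀ σ : ↥(ffI A), ffigRho (M * p) A σ • t = t)
    (H : Subgroup ↥(ffI A)) (D : Divisor Qb ↥(modularFunctionFieldBar (M * p)))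
    (hD : MrnRatDiv M A H D)
    (c : Place Qb ↥(modularFunctionFieldBar (M * p)) → Qb)
    (hc : ∀ R, ttrglCen₂ M A hpM hA hat Q R → D R ≠ 0 → GrdVal R t (c R)) :
    MrnRat M A H (∏ R ∈ D.support.filter (fun R => ttrglCen₂ M A hpM hA hat Q R),
        (t - algebraMap Qb ↥(modularFunctionFieldBar (M * p)) (c R)) ^ D R) ∧
      ∀ σ ∈ H, (σ : Qb ≃ₐ[ℚ] Qb)
          (∏ R ∈ D.support.filter (fun R => ttrglCen₂ M A hpM hA hat Q R), c R ^ D R) =
        ∏ R ∈ D.support.filter (fun R => ttrglCen₂ M A hpM hA hat Q R), c R ^ D R :=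
  mrsr_rat_prod_gen M A _ (fun σ v hv => mrsr_cen2_smul M A hpM hA hat σ Q v hv) t ht H D hD c hc

end Fermat.Agent.MR
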