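/-
PROGRAM MR (S44), block `mrs` : the LOCAL-EQUATION Props of block `mrn` CLOSED
(owner helper28, prefix `mrsr`).

On top of helper29's `mrn_jump_units_of_mrs` (`MR/Slope/PlugNode.lean`) and of the rationality
clause `mrsr_rat_prod` (`MR/Slope/RatInst.lean`) :

* `mrsr_jump`       : `MrnOneZeroSpec → MrnJumpSpec`;
* `mrsr_locEqNode`  : `MrnCoordSpec → MrnOneZeroSpec → MrnLocEqNodeSpec`;
* `mrsr_locEq₁`     : `MrnDisc₁Spec → MrnLocEq₁Spec`;
* `mrsr_locEq₂`     : `MrnDisc₂Spec → MrnLocEq₂Spec`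
(literal Prop-defs of helper19's `MR/Node/Spec.lean`).
-/
import Mathlib
import Fermat.Agent.MR.Slope.RatInst
import Fermat.Agent.MR.Slope.PlugNode

set_option autoImplicit false
set_option linter.unusedSectionVars false
set_option linter.unusedVariables false
set_option linter.style.haveILetI false

noncomputable section

namespace Fermat.Agent.MR

open Polynomial ModularCurve AlgebraicCurve IsLocalRing
  Fermat.Agent.G Fermat.Agent.S18 Fermat.Agent.S24 Fermat.Agent.FF Fermat.Agent.TT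

open scoped Classical

/-! ## The local equation on a disc, abstractly (no regularity hypothesis) -/

section Abs

variable {K F F' : Type*} [Field K] [Field F] [Algebra K F]
variable {A : ValuationSubring K} [Field F'] [Algebra (ResidueField A) F']
variable {V : ValuationSubring F} {red : V →+* F'} {Q : Place (ResidueField A) F'}
variable {cen : Place K F → Prop} {t : F}

/-- on a disc with the one-zero property the coordinate separates the places. -/
theorem mrsr_d_sep
    (hoz : ∀ R, cen R → ∃ c : K, c ∈ A.nonunits ∧ GrdVal R t c ∧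
      R.ord (t - algebraMap K F c) = 1 ∧
      ∀ R', cen R' → R' ≠ R → R'.ord (t - algebraMap K F c) = 0)
    {R R' : Place K F} (hR : cen R) (hR' : cen R') {a : K} (ha : GrdVal R t a)
    (ha' : GrdVal R' t a) : R = R' := by
  by_contra hne
  obtain ⟨c, -, hc, hc1, hc0⟩ := hoz R hR
  have e : a = c := grdg_val_unique R ha hc
  subst e
  have h0 := hc0 R' hR' (fun h => hne h.symm)
  have hx : t - algebraMap K F a ≠ 0 := by
    intro h
    rw [h, Place.ord_zero] at hc1
    exact zero_ne_one hc1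
  have hpos : 0 < R'.ord (t - algebraMap K F a) := by
    rw [← grdg_val_zero_iff_ord R' hx, grdg_val_zero_iff]
    exact ha'
  omega

/-- **the local equation on a disc** : `q = ∏_{v ∈ T} (t - a v)^{n v}` is nonzero, has
`ord_v q = n v` on `T` and `0` at the other places of the disc. -/
theorem mrsr_d_q
    (hoz : ∀ R, cen R → ∃ c : K, c ∈ A.nonunits ∧ GrdVal R t c ∧
      R.ord (t - algebraMap K F c) = 1 ∧
      ∀ R', cen R' → R' ≠ R → R'.ord (t - algebraMap K F c) = 0)
    (T : Finset (Place K F)) (hT : ∀ v ∈ T, cen v) (n : Place K F → ℤ)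
    (a : Place K F → K) (ha : ∀ v ∈ T, GrdVal v t (a v)) :
    (∏ v ∈ T, (t - algebraMap K F (a v)) ^ n v) ≠ 0 ∧
    (∀ v ∈ T, v.ord (∏ v ∈ T, (t - algebraMap K F (a v)) ^ n v) = n v) ∧
    (∀ v, cen v → v ∉ T → v.ord (∏ v ∈ T, (t - algebraMap K F (a v)) ^ n v) = 0) := by
  have hsimple : ∀ v ∈ T, v.ord (t - algebraMap K F (a v)) = 1 := by
    intro v hv
    obtain ⟨c, -, hc, hc1, -⟩ := hoz v (hT v hv)
    rwa [grdg_val_unique v (ha v hv) hc]
  have hne : ∀ v ∈ T, t - algebraMap K F (a v) ≠ 0 := by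
    intro v hv h
    have := hsimple v hv
    rw [h, Place.ord_zero] at this
    exact zero_ne_one this
  refine ⟨Finset.prod_ne_zero_iff.2 fun v hv => zpow_ne_zero _ (hne v hv), fun v hv => ?_,
    fun v hv hvT => ?_⟩
  · rw [mrs_ord_prod_zpow v T _ n hne, Finset.sum_eq_single v]
    · rw [hsimple v hv, mul_one]
    · intro i hi hiv
      have hne' : a v ≠ a i := by
        intro e
        apply hiv
        have h' := ha i hi
        rw [← e] at h'
        exact mrsr_d_sep hoz (hT i hi) (hT v hv) h' (ha v hv)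
      rw [(mrs_ord_sub_of_ne (ha v hv) hne').2, mul_zero]
    · intro hn
      exact absurd hv hn
  · rw [mrs_ord_prod_zpow v T _ n hne]
    obtain ⟨b, -, hb, -⟩ := hoz v hv
    refine Finset.sum_eq_zero fun i hi => ?_
    have hne' : b ≠ a i := by
      intro e
      apply hvT
      have h' := ha i hi
      rw [← e] at h'
      rw [← mrsr_d_sep hoz (hT i hi) hv h' hb]
      exact hi
    rw [(mrs_ord_sub_of_ne hb hne').2, mul_zero]

/-- **the local equation on a disc is a unit of `V`.** -/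
theorem mrsr_d_unit
    (hmax : ∀ a : K, a ∈ A.nonunits → algebraMap K F a ∈ V.nonunits)
    (hker : ∀ x : V, red x = 0 ↔ (x : F) ∈ V.nonunits)
    (ht : t ∈ V) (htred : red ⟨t, ht⟩ ≠ 0)
    (T : Finset (Place K F)) (n : Place K F → ℤ)
    (a : Place K F → K) (ha : ∀ v ∈ T, a v ∈ A.nonunits) :
    TtalIsU V (∏ v ∈ T, (t - algebraMap K F (a v)) ^ n v) := by
  have h1 : ∀ v ∈ T, TtalIsU V (t - algebraMap K F (a v)) := by
    intro v hv
    have hmem : t - algebraMap K F (a v) ∈ V :=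
      sub_mem ht (V.nonunits_subset (hmax _ (ha v hv)))
    refine mrs_isU_of_not_nonunits hmem fun hn => htred ?_
    have e : (⟨t - algebraMap K F (a v), hmem⟩ : V) =
        ⟨t, ht⟩ - ⟨algebraMap K F (a v), V.nonunits_subset (hmax _ (ha v hv))⟩ := rfl
    have h2 := (hker ⟨t - algebraMap K F (a v), hmem⟩).2 hn
    rw [e, map_sub, (hker ⟨algebraMap K F (a v), _⟩).2 (hmax _ (ha v hv)), sub_zero] at h2
    exact h2
  induction T using Finset.induction_on with
  | empty =>
    rw [Finset.prod_empty]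
    exact ⟨V.one_mem, by rw [inv_one]; exact V.one_mem⟩
  | insert i T hi ih =>
    rw [Finset.prod_insert hi]
    refine ttal_isU_mul ?_ (ih (fun v hv => ha v (Finset.mem_insert_of_mem hv))
      (fun v hv => h1 v (Finset.mem_insert_of_mem hv)))
    have hu := h1 i (Finset.mem_insert_self i T)
    rcases Int.eq_nat_or_neg (n i) with ⟨m, hm | hm⟩
    · rw [hm, zpow_natCast]
      exact ⟨V.pow_mem hu.1 m, by rw [← inv_pow]; exact V.pow_mem hu.2 m⟩
    · rw [hm, zpow_neg, zpow_natCast]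
      exact ⟨by rw [← inv_pow]; exact V.pow_mem hu.2 m, by rw [inv_inv]; exact V.pow_mem hu.1 m⟩

end Abs

/-! ## The Props of `MR/Node/Spec.lean` -/

local notation "Qb" => AlgebraicClosure ℚ

variable (M : ℕ) [NeZero M] {p : ℕ} [Fact p.Prime] [NeZero p]
variable (A : ValuationSubring Qb) (hpM : ¬ p ∣ M) (hA : A.LiesOverPrime p)
variable {τ τ' : LaurentSeries ℤ} (hat : GrdAtlas M A τ τ')

/-- **(JUMP) is a corollary of (ONE-ZERO).** -/
theorem mrsr_jump (hOZ : MrnOneZeroSpec M A hpM hA hat) : MrnJumpSpec M A hpM hA hat := by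
  intro i u w ε κ hC H D hD
  obtain ⟨h1, h2, h3, h4, h5⟩ := mrn_jump_units_of_mrs M A hpM hA hat hOZ i u w ε κ hC D
  exact ⟨_, mrsVal u, h1,
    (mrsr_rat_prod M A hpM hA hat i u hC.u_inv H D hD (mrsVal u)
      (fun R hR _ => (h3 R hR).1)).1, h2, h3, h4, h5⟩

/-- **(LOC-EQ) at a node is a corollary of (COORD) + (ONE-ZERO).** -/
theorem mrsr_locEqNode (hCo : MrnCoordSpec M A hpM hA hat)
    (hOZ : MrnOneZeroSpec M A hpM hA hat) : MrnLocEqNodeSpec M A hpM hA hat := by
  intro H D hD i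
  obtain ⟨u, w, ε, κ, hC⟩ := hCo i
  obtain ⟨q, c, hq, hrat, hord, -, hU, -⟩ := mrsr_jump M A hpM hA hat hOZ i u w ε κ hC H D hD
  exact ⟨q, hq, hrat, hord, hU⟩

/-- **(LOC-EQ) at a smooth point of the first component is a corollary of (ONE-ZERO) there.** -/
theorem mrsr_locEq₁ (hD1 : MrnDisc₁Spec M A hpM hA hat) : MrnLocEq₁Spec M A hpM hA hat := by
  intro H D hD Q hQ
  obtain ⟨t, ht, hinv, hord, hoz⟩ := hD1 Q hQ
  have hM := mrs_model_inst M A hpM hA
  have hval : ∀ R, ttrglCen₁ M A hpM hA hat Q R → GrdVal R t (mrsVal t R) ∧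
      mrsVal t R ∈ A.nonunits := by
    intro R hR
    obtain ⟨c, hc, hc', -⟩ := hoz R hR
    rw [mrsVal_eq hc']
    exact ⟨hc', hc⟩
  have hT : ∀ v ∈ D.support.filter (fun R => ttrglCen₁ M A hpM hA hat Q R),
      ttrglCen₁ M A hpM hA hat Q v := fun v hv => (Finset.mem_filter.1 hv).2
  obtain ⟨hq0, hq1, hq2⟩ := mrsr_d_q (A := A) hoz _ hT (fun v => D v) (mrsVal t)
    (fun v hv => (hval v (hT v hv)).1)
  have htred : ttraRed1 M A hpM hA ⟨t, ht.1⟩ ≠ 0 := by
    intro h0
    have h1 : ttrglRed₁ M A hpM hA ⟨t, ht⟩ = 0 := h0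
    rw [h1, Place.ord_zero] at hord
    exact zero_ne_one hord
  refine ⟨_, hq0,
    (mrsr_rat_prod₁ M A hpM hA hat Q t hinv H D hD (mrsVal t)
      (fun R hR _ => (hval R hR).1)).1, fun R hR => ?_,
    mrsr_d_unit hM.max₁ hM.ker₁ ht.1 htred _ (fun v => D v) (mrsVal t)
      (fun v hv => (hval v (hT v hv)).2)⟩
  by_cases hRT : R ∈ D.support.filter (fun R => ttrglCen₁ M A hpM hA hat Q R)
  · exact hq1 R hRT
  · rw [hq2 R hR hRT]
    by_contra h
    exact hRT (Finset.mem_filter.2 ⟨Finsupp.mem_support_iff.2 (fun h0 => h h0.symm), hR⟩)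

/-- **(LOC-EQ) at a smooth point of the second component is a corollary of (ONE-ZERO) there.** -/
theorem mrsr_locEq₂ (hD2 : MrnDisc₂Spec M A hpM hA hat) : MrnLocEq₂Spec M A hpM hA hat := by
  intro H D hD Q hQ
  obtain ⟨t, ht, hinv, hord, hoz⟩ := hD2 Q hQ
  have hM := mrs_model_inst M A hpM hA
  have hval : ∀ R, ttrglCen₂ M A hpM hA hat Q R → GrdVal R t (mrsVal t R) ∧
      mrsVal t R ∈ A.nonunits := by
    intro R hR
    obtain ⟨c, hc, hc', -⟩ := hoz R hR
    rw [mrsVal_eq hc']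
    exact ⟨hc', hc⟩
  have hT : ∀ v ∈ D.support.filter (fun R => ttrglCen₂ M A hpM hA hat Q R),
      ttrglCen₂ M A hpM hA hat Q v := fun v hv => (Finset.mem_filter.1 hv).2
  obtain ⟨hq0, hq1, hq2⟩ := mrsr_d_q (A := A) hoz _ hT (fun v => D v) (mrsVal t)
    (fun v hv => (hval v (hT v hv)).1)
  have htred : ttraRed2 M A hpM hA ⟨t, ht.2⟩ ≠ 0 := by
    intro h0
    have h1 : ttrglRed₂ M A hpM hA ⟨t, ht⟩ = 0 := h0
    rw [h1, Place.ord_zero] at hord
    exact zero_ne_one hord
  refine ⟨_, hq0,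
    (mrsr_rat_prod₂ M A hpM hA hat Q t hinv H D hD (mrsVal t)
      (fun R hR _ => (hval R hR).1)).1, fun R hR => ?_,
    mrsr_d_unit hM.max₂ hM.ker₂ ht.2 htred _ (fun v => D v) (mrsVal t)
      (fun v hv => (hval v (hT v hv)).2)⟩
  by_cases hRT : R ∈ D.support.filter (fun R => ttrglCen₂ M A hpM hA hat Q R)
  · exact hq1 R hRT
  · rw [hq2 R hR hRT]
    by_contra h
    exact hRT (Finset.mem_filter.2 ⟨Finsupp.mem_support_iff.2 (fun h0 => h h0.symm), hR⟩)

end Fermat.Agent.MR
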