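/-
PROGRAM MR (S44) : (LOC-REG_P) of block `mrn` CLOSED from the landed local packages
(owner helper28, prefix `mrsr`).

* `mrsr_reg_abs` : the regularity statement at a closed point from a `TtriPt` package
  (helper19's `mrng_glue_abs` with the two branches equal);
* `mrsr_reg₁ : MrnReg₁Spec`, `mrsr_reg₂ : MrnReg₂Spec` (literal Prop-defs of `MR/Node/Spec.lean`),
  from the landed `ttrgl_pk₁`, `ttrgl_pk₂` (EVERY closed point of the component, both charts).
-/
import Mathlib
import Fermat.Agent.MR.Node.Glue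

set_option autoImplicit false
set_option linter.unusedSectionVars false
set_option linter.unusedVariables false
set_option linter.style.haveILetI false

noncomputable section

namespace Fermat.Agent.MR

open Polynomial ModularCurve AlgebraicCurve IsLocalRing
  Fermat.Agent.G Fermat.Agent.S18 Fermat.Agent.S24 Fermat.Agent.FF Fermat.Agent.TT

section Abs

variable {K F : Type*} [Field K] [Field F] [Algebra K F] {A : ValuationSubring K}
  {Fk : Type*} [Field Fk] [Algebra (ResidueField A) Fk]

/-- **(LOC-REG) from the local package at a closed point.** -/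
theorem mrsr_reg_abs (O2 B : Subring F) (hBO : B ≤ O2) (red : O2 →+* Fk)
    (cen : Place K F → Prop) (Q : Place (ResidueField A) Fk)
    (h : TtriPt A O2 B hBO red cen Q)
    (hvalQ : ∀ y : Fk, y ∈ Q.toValuationSubring → ∃ c : ResidueField A, GrdVal Q y c)
    (x : F) (hx : x ∈ O2) (hreg : ∀ v, cen v → x ∈ v.toValuationSubring) :
    ∃ c : ResidueField A, GrdVal Q (red ⟨x, hx⟩) c ∧
      ∀ v, cen v → ∃ a : A, GrdVal v x (a : K) ∧ residue A a = c := by
  obtain ⟨c, hc1, -, hc3⟩ := mrng_glue_abs O2 B hBO red red Q Q cen h.const h.red_const h.loc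
    (fun b => by
      obtain ⟨c, hc⟩ := hvalQ _ (h.reg b)
      exact ⟨c, hc, hc⟩)
    (fun v hv b hb => by
      obtain ⟨a, ha, ha'⟩ := h.val v hv b
      refine ⟨a, ?_, ha⟩
      rw [← residue_eq_zero_iff]
      exact grdg_val_unique Q ha' hb)
    x hx hreg
  exact ⟨c, hc1, hc3⟩

end Abs

local notation "Qb" => AlgebraicClosure ℚ

variable (M : ℕ) [NeZero M] {p : ℕ} [Fact p.Prime] [NeZero p]
variable (A : ValuationSubring Qb) (hpM : ¬ p ∣ M) (hA : A.LiesOverPrime p)
variable {τ τ' : LaurentSeries ℤ} (hat : GrdAtlas M A τ τ')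

include hat in
/-- every place of `F_k(M)` has residue field `k`. -/
theorem mrsr_valQ (Q : Place (ResidueField A) ↥(modularFunctionFieldFullC (ResidueField A) M))
    (y : ↥(modularFunctionFieldFullC (ResidueField A) M)) (hy : y ∈ Q.toValuationSubring) :
    ∃ c : ResidueField A, GrdVal Q y c := by
  haveI : IsAlgClosed (ResidueField A) := grd_isAlgClosed_residue A
  exact grdg_val_exists hat.c.sepK Q hy

/-- **(LOC-REG_P), first component**, closed. -/
theorem mrsr_reg₁ : MrnReg₁Spec M A hpM hA hat := by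
  intro Q x hx hreg
  obtain ⟨B, hBO, hpk⟩ := ttrgl_pk₁ M A hpM hA hat Q
  exact mrsr_reg_abs _ B hBO _ _ Q hpk (mrsr_valQ M A hat Q) x hx hreg

/-- **(LOC-REG_P), second component**, closed. -/
theorem mrsr_reg₂ : MrnReg₂Spec M A hpM hA hat := by
  intro Q x hx hreg
  obtain ⟨B, hBO, hpk⟩ := ttrgl_pk₂ M A hpM hA hat Q
  exact mrsr_reg_abs _ B hBO _ _ Q hpk (mrsr_valQ M A hat Q) x hx hreg

end Fermat.Agent.MR
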