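import Mathlib
import Fermat.Agent.MR.Slope.DiscLeaf

/-!
# Program MR (S44), block `mrs` : (LOC-REG) in the `V₂`-ONLY form on the SECOND component

Owner: helper29.  Namespace `Fermat.Agent.MR`, prefix `mrsd` / `Mrsd`.

The mirror image of `MR/Slope/DiscLeaf.lean` (first component), needed for the field `reg₂` of
helper12's `MrrModel`.

* `MrsdSep₂` : (SEP) at every closed point `Q` of the second component which is NOT a node there
  is `e ∈ O2 = V₁ ⊓ V₂`, regular on the residue disc `ttrglCen₂ Q`, vanishing on the first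
  component (`red₁ e = 0`) and not at `Q` (`red₂ e (Q) ≠ 0`);
* `mrsd_rank₁`  : rank one : `e ∈ 𝔪_{V₁}`, `e ≠ 0` ⟹ `∀ f, ∃ m, e^m f ∈ V₁`;
* `mrsd_reg_v2` : **(LOC-REG) in the `V₂`-ONLY form** at every non-node of the second component,
  from `MrnReg₂Spec` (the `O2`-form) and `MrsdSep₂`.
-/

set_option autoImplicit false
set_option linter.unusedSectionVars false
set_option linter.unusedVariables false

noncomputable section

namespace Fermat.Agent.MR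

open Polynomial ModularCurve AlgebraicCurve IsLocalRing IntermediateField
  Fermat.Agent.G Fermat.Agent.S18 Fermat.Agent.S24 Fermat.Agent.FF Fermat.Agent.TT

local notation "Qb" => AlgebraicClosure ℚ

variable (M : ℕ) [NeZero M] {p : ℕ} [Fact p.Prime] [NeZero p]
variable (A : ValuationSubring Qb) (hpM : ¬ p ∣ M) (hA : A.LiesOverPrime p)
variable {τ τ' : LaurentSeries ℤ} (hat : GrdAtlas M A τ τ')

/-- **(SEP)** separating elements at the non-nodes of the second component. -/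
def MrsdSep₂ : Prop :=
  ∀ Q : Place (ResidueField A) ↥(modularFunctionFieldFullC (ResidueField A) M),
    (∀ i, ttrkSν₂ M p A hpM hA hat i ≠ Q) →
    ∃ (e : ↥(modularFunctionFieldBar (M * p))) (he : e ∈ ttrglO2 M A hpM hA),
      (∀ v, ttrglCen₂ M A hpM hA hat Q v → e ∈ v.toValuationSubring) ∧
      ttrglRed₁ M A hpM hA ⟨e, he⟩ = 0 ∧
      ¬ GrdVal Q (ttrglRed₂ M A hpM hA ⟨e, he⟩) 0

/-- rank one : a nonzero element of `𝔪_{V₁}` pushes every function into `V₁`. -/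
theorem mrsd_rank₁ (f e : ↥(modularFunctionFieldBar (M * p))) (he0 : e ≠ 0)
    (he : e ∈ (ttrV1 M A hpM hA).nonunits) :
    ∃ m : ℕ, e ^ m * f ∈ ttrV1 M A hpM hA := by
  have hM := mrs_model_inst M A hpM hA
  rcases eq_or_ne f 0 with rfl | hf0
  · exact ⟨0, by rw [mul_zero]; exact zero_mem _⟩
  obtain ⟨cf, hcf0, hUf⟩ := ttra_sc₁ M A hpM hA (ttrvp_tb1' M A hpM hA) f hf0
  obtain ⟨ce, hce0, hUe⟩ := ttra_sc₁ M A hpM hA (ttrvp_tb1' M A hpM hA) e he0
  have hceF : algebraMap Qb ↥(modularFunctionFieldBar (M * p)) ce ≠ 0 := by simpa using hce0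
  have hcfF : algebraMap Qb ↥(modularFunctionFieldBar (M * p)) cf ≠ 0 := by simpa using hcf0
  -- `ce⁻¹ ∈ 𝔪_A`
  have hce : ce⁻¹ ∈ A.nonunits := by
    by_contra hn
    have h1 : ce ∈ A := by
      rw [ValuationSubring.mem_nonunits_iff, not_lt, map_inv₀] at hn
      rw [← A.valuation_le_one_iff]
      have hv0 : A.valuation ce ≠ 0 := (Valuation.ne_zero_iff _).2 hce0
      exact (one_le_inv₀ (zero_lt_iff.2 hv0)).1 hn
    have h2 := mrs_mul_nonunits (hM.const₁ ce h1) he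
    exact mrs_not_nonunits_of_isU hUe (mul_ne_zero hceF he0) h2
  obtain ⟨m0, hm0⟩ := ttal_rank_lt A (Fact.out : p.Prime) hA ttal_isAlgebraic_int_qbar cf⁻¹
    (inv_ne_zero hce0) hce
  have hmem : cf⁻¹ * ce⁻¹ ^ m0 ∈ A := by
    rw [← A.valuation_le_one_iff, map_mul, map_pow]
    exact le_of_lt (hm0 m0 le_rfl)
  refine ⟨m0, ?_⟩
  have e1 : e ^ m0 * f =
      (algebraMap Qb ↥(modularFunctionFieldBar (M * p)) ce * e) ^ m0 *
        (algebraMap Qb ↥(modularFunctionFieldBar (M * p)) cf * f) *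
        algebraMap Qb ↥(modularFunctionFieldBar (M * p)) (cf⁻¹ * ce⁻¹ ^ m0) := by
    rw [map_mul, map_pow, map_inv₀, map_inv₀, mul_pow, inv_pow]
    have hp0 : (algebraMap Qb ↥(modularFunctionFieldBar (M * p)) ce) ^ m0 ≠ 0 :=
      pow_ne_zero _ hceF
    field_simp
  rw [e1]
  exact (ttrV1 M A hpM hA).mul_mem _ _
    ((ttrV1 M A hpM hA).mul_mem _ _ (pow_mem hUe.1 m0) hUf.1) (hM.const₁ _ hmem)

/-- **(LOC-REG), `V₂`-ONLY form, at every non-node of the second component.** -/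
theorem mrsd_reg_v2 (hReg : MrnReg₂Spec M A hpM hA hat) (hSep : MrsdSep₂ M A hpM hA hat)
    (Q : Place (ResidueField A) ↥(modularFunctionFieldFullC (ResidueField A) M))
    (hQ : ∀ i, ttrkSν₂ M p A hpM hA hat i ≠ Q)
    (f : ↥(modularFunctionFieldBar (M * p))) (hf : f ∈ ttraV2 M A hpM hA)
    (hreg : ∀ R, ttrglCen₂ M A hpM hA hat Q R → f ∈ R.toValuationSubring) :
    ttraRed2 M A hpM hA ⟨f, hf⟩ ∈ Q.toValuationSubring := by
  have hM := mrs_model_inst M A hpM hA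
  obtain ⟨e, he, hereg, he₁, he₂⟩ := hSep Q hQ
  -- `e ≠ 0`, `e ∈ 𝔪_{V₁}`, `red₂ e` a unit at `Q`
  obtain ⟨ce, hce, -⟩ := hReg Q e he hereg
  have hce0 : ce ≠ 0 := by
    rintro rfl
    exact he₂ hce
  obtain ⟨hre0, hreord⟩ := mrs_ord_of_val Q hce hce0
  have he0 : e ≠ 0 := by
    rintro rfl
    exact hre0 (map_zero (ttrglRed₂ M A hpM hA))
  have heV₁ : e ∈ (ttrV1 M A hpM hA).nonunits := (hM.ker₁ ⟨e, he.1⟩).1 he₁
  have heinv : (ttrglRed₂ M A hpM hA ⟨e, he⟩)⁻¹ ∈ Q.toValuationSubring :=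
    ((PlaceOrd.ord_eq_zero_iff Q hre0).1 hreord).2
  obtain ⟨m, hm⟩ := mrsd_rank₁ M A hpM hA f e he0 heV₁
  have hx : e ^ m * f ∈ ttrglO2 M A hpM hA :=
    ⟨hm, (ttraV2 M A hpM hA).mul_mem _ _ (pow_mem he.2 m) hf⟩
  obtain ⟨cx, hcx, -⟩ := hReg Q (e ^ m * f) hx fun v hv =>
    v.toValuationSubring.mul_mem _ _ (pow_mem (hereg v hv) m) (hreg v hv)
  have hxmem : ttraRed2 M A hpM hA ⟨e ^ m * f, hx.2⟩ ∈ Q.toValuationSubring :=
    grdg_val_mem Q hcx
  have hre0' : ttraRed2 M A hpM hA ⟨e, he.2⟩ ≠ 0 := hre0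
  have heinv' : (ttraRed2 M A hpM hA ⟨e, he.2⟩)⁻¹ ∈ Q.toValuationSubring := heinv
  have e1 : ttraRed2 M A hpM hA ⟨e ^ m * f, hx.2⟩ =
      (ttraRed2 M A hpM hA ⟨e, he.2⟩) ^ m * ttraRed2 M A hpM hA ⟨f, hf⟩ := by
    rw [← map_pow, ← map_mul]; rfl
  rw [e1] at hxmem
  have e2 : ttraRed2 M A hpM hA ⟨f, hf⟩ =
      ((ttraRed2 M A hpM hA ⟨e, he.2⟩)⁻¹) ^ m *
        ((ttraRed2 M A hpM hA ⟨e, he.2⟩) ^ m * ttraRed2 M A hpM hA ⟨f, hf⟩) := by
    rw [← mul_assoc, ← mul_pow, inv_mul_cancel₀ hre0', one_pow, one_mul]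
  rw [e2]
  exact Q.toValuationSubring.mul_mem _ _ (pow_mem heinv' m) hxmem

end Fermat.Agent.MR
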