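import Mathlib
import Fermat.Agent.MR.Slope.DiscLeaf
import Fermat.Agent.MR.Slope.PlugReg
import Fermat.Agent.MR.Node.Sep

/-!
# PROGRAM MR (S44), block `mrs` : the DISC LEAF at the `j`-atlas, from (DISC) alone

Owner: helper29.  Namespace `Fermat.Agent.MR`, prefix `mrsd`.

* `mrsd_discLeaf_j` : **`MrmDisc … (Set.range ν₁) (fun Q => {R | ttrglCen₁ … Q R})`** (= helper26's
  `MrmDiscLeaf`, `MR/M/Leaf.lean`, unfolded) from `MrnDisc₁Spec` ALONE, `5 ≤ p`, `j`-atlas:
  (LOC-REG) = helper28's `mrsr_reg₁` (`MR/Slope/PlugReg.lean`), (SEP) = helper6's `mrnsp_sep₁_j`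
  (`MR/Node/Sep.lean`).
-/

set_option autoImplicit false
set_option linter.unusedSectionVars false
set_option linter.unusedVariables false

noncomputable section

namespace Fermat.Agent.MR

open Polynomial ModularCurve AlgebraicCurve IsLocalRing IntermediateField
  Fermat.Agent.G Fermat.Agent.S18 Fermat.Agent.S24 Fermat.Agent.FF Fermat.Agent.TT

local notation "Qb" => AlgebraicClosure ℚ

variable (M : ℕ) [NeZero M] {p : ℕ} [Fact p.Prime] [NeZero p]
variable (A : ValuationSubring Qb) (hpM : ¬ p ∣ M) (hA : A.LiesOverPrime p)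
variable {τ' : LaurentSeries ℤ}

/-- **the disc leaf from (DISC) alone.** -/
theorem mrsd_discLeaf_j (h5 : 5 ≤ p) (hat : GrdAtlas M A (jqModC ℤ) τ')
    (hDisc : MrnDisc₁Spec M A hpM hA hat) :
    MrmDisc M A hpM hA (Set.range (ttrkSν₁ M p A hpM hA hat))
      (fun Q => {R | ttrglCen₁ M A hpM hA hat Q R}) :=
  mrsd_discLeaf M A hpM hA hat (mrsr_reg₁ M A hpM hA hat) hDisc (mrnsp_sep₁_j M A hpM hA h5 hat)

end Fermat.Agent.MR
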